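import Mathlib

/-!
# S55 / local class formation: Frobenius elements of subgroups

Pure group theory.  Let `G` be a finite group, `I` a normal subgroup such that `G ⧸ I` is cyclic,
generated by the class of `φ₀ : G` ("inertia" and "Frobenius").  For every subgroup `H ≤ G` the
quotient `H ⧸ (I ⊓ H)` embeds into `G ⧸ I` with image of index `d = [G : H I]`; it is therefore
cyclic, generated by the class of any `h ∈ H` congruent to `φ₀ ^ d` modulo `I`.
-/

set_option autoImplicit false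

namespace Fermat.Agent.S55

variable {G : Type*} [Group G]

/-- `φ₀` generates `G` modulo the normal subgroup `I`. -/
def lc_GenMod (I : Subgroup G) (φ₀ : G) : Prop :=
  ∀ g : G, ∃ k : ℕ, g⁻¹ * φ₀ ^ k ∈ I

section

variable {I : Subgroup G} [I.Normal] {φ₀ : G}

theorem lc_genMod_iff_zpowers [Finite G] :
    lc_GenMod I φ₀ ↔ ∀ q : G ⧸ I, q ∈ Subgroup.zpowers ((φ₀ : G) : G ⧸ I) := by
  constructor
  · intro h q
    induction q using QuotientGroup.induction_on with
    | H g =>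
      obtain ⟨k, hk⟩ := h g
      refine ⟨(k : ℤ), ?_⟩
      simp only [zpow_natCast]
      rw [← QuotientGroup.mk_pow, eq_comm]
      exact QuotientGroup.eq.2 hk
  · intro h g
    obtain ⟨k, hk⟩ := (Subgroup.mem_zpowers_iff).1 (h (g : G ⧸ I))
    -- replace the integer exponent by a natural one
    have hfin : IsOfFinOrder ((φ₀ : G) : G ⧸ I) := isOfFinOrder_of_finite _
    obtain ⟨m, hm⟩ : ∃ m : ℕ, ((φ₀ : G) : G ⧸ I) ^ m = ((φ₀ : G) : G ⧸ I) ^ k := by
      refine ⟨(k % (orderOf ((φ₀ : G) : G ⧸ I) : ℤ)).toNat, ?_⟩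
      rw [← zpow_natCast, Int.toNat_of_nonneg
        (Int.emod_nonneg _ (by exact_mod_cast (hfin.orderOf_pos).ne')), zpow_mod_orderOf]
    refine ⟨m, ?_⟩
    rw [← QuotientGroup.eq, QuotientGroup.mk_pow, hm, hk]

end

/-! ### Subgroups of a finite cyclic group -/

section cyclic

variable {Q : Type*} [Group Q] {σ : Q}

theorem lc_normal_of_gen (hσ : ∀ q : Q, q ∈ Subgroup.zpowers σ) (K : Subgroup Q) : K.Normal :=
  ⟨fun n hn g => by
    obtain ⟨a, rfl⟩ := Subgroup.mem_zpowers_iff.1 (hσ g)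
    obtain ⟨b, rfl⟩ := Subgroup.mem_zpowers_iff.1 (hσ n)
    rw [← zpow_add, ← zpow_neg, ← zpow_add]
    simpa using hn⟩

theorem lc_pow_index_mem (hσ : ∀ q : Q, q ∈ Subgroup.zpowers σ) (K : Subgroup Q) :
    σ ^ K.index ∈ K :=
  haveI := lc_normal_of_gen hσ K
  Subgroup.pow_index_mem K σ

theorem lc_card_eq_orderOf [Finite Q] (hσ : ∀ q : Q, q ∈ Subgroup.zpowers σ) :
    Nat.card Q = orderOf σ := by
  rw [← Nat.card_zpowers]
  have : Subgroup.zpowers σ = ⊤ := (Subgroup.eq_top_iff' _).2 hσ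
  rw [this, Subgroup.card_top]

/-- In a finite cyclic group generated by `σ`, a subgroup of index `d` is `⟨σ ^ d⟩`. -/
theorem lc_eq_zpowers_pow_index [Finite Q] (hσ : ∀ q : Q, q ∈ Subgroup.zpowers σ)
    (K : Subgroup Q) : K = Subgroup.zpowers (σ ^ K.index) := by
  have hle : Subgroup.zpowers (σ ^ K.index) ≤ K :=
    (Subgroup.zpowers_le).2 (lc_pow_index_mem hσ K)
  symm
  apply Subgroup.eq_of_le_of_card_ge hle
  rw [Nat.card_zpowers]
  have hcard : Nat.card K * K.index = orderOf σ := by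
    rw [K.card_mul_index, lc_card_eq_orderOf hσ]
  have hd : K.index ∣ orderOf σ := Dvd.intro_left _ hcard
  have hpos : 0 < K.index := Nat.pos_of_ne_zero (Subgroup.FiniteIndex.index_ne_zero)
  rw [orderOf_pow' σ hpos.ne', Nat.gcd_eq_right hd]
  apply le_of_eq
  exact Nat.eq_div_of_mul_eq_left hpos.ne' hcard

theorem lc_orderOf_pow_index [Finite Q] (hσ : ∀ q : Q, q ∈ Subgroup.zpowers σ)
    (K : Subgroup Q) : orderOf (σ ^ K.index) * K.index = Nat.card Q := by
  have h1 : Nat.card K = orderOf (σ ^ K.index) := by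
    conv_lhs => rw [lc_eq_zpowers_pow_index hσ K]
    exact Nat.card_zpowers _
  rw [← h1, K.card_mul_index]

end cyclic

/-! ### The quotient `H ⧸ ι⁻¹(I)` inside `G ⧸ I` -/

section sub

variable (I : Subgroup G) [I.Normal] {H : Type*} [Group H] (ι : H →* G)

/-- The natural map `H ⧸ ι⁻¹(I) →* G ⧸ I`. -/
def lc_quotMap : H ⧸ I.comap ι →* G ⧸ I :=
  QuotientGroup.map (I.comap ι) I ι le_rfl

@[simp] theorem lc_quotMap_mk (h : H) :
    lc_quotMap I ι (h : H ⧸ I.comap ι) = ((ι h : G) : G ⧸ I) := rfl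

theorem lc_quotMap_injective : Function.Injective (lc_quotMap I ι) := by
  rw [injective_iff_map_eq_one]
  intro q hq
  induction q using QuotientGroup.induction_on with
  | H h =>
    rw [lc_quotMap_mk, QuotientGroup.eq_one_iff] at hq
    exact (QuotientGroup.eq_one_iff h).2 hq

theorem lc_quotMap_range : (lc_quotMap I ι).range = ι.range.map (QuotientGroup.mk' I) := by
  ext q
  constructor
  · rintro ⟨x, rfl⟩
    induction x using QuotientGroup.induction_on with
    | H h => exact ⟨ι h, ⟨h, rfl⟩, rfl⟩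
  · rintro ⟨g, ⟨h, rfl⟩, rfl⟩
    exact ⟨(h : H ⧸ I.comap ι), rfl⟩

/-- The residue degree `[G : ι(H) I]` of the fixed field of `ι(H)` over the base. -/
noncomputable def lc_resDeg : ℕ := (ι.range.map (QuotientGroup.mk' I)).index

variable {I ι} {φ₀ : G}

theorem lc_exists_frobSub [Finite G] (hgen : lc_GenMod I φ₀) :
    ∃ h : H, ((ι h : G) : G ⧸ I) = ((φ₀ : G) : G ⧸ I) ^ lc_resDeg I ι := by
  have hσ := lc_genMod_iff_zpowers.1 hgen
  obtain ⟨g, ⟨h, rfl⟩, hgq⟩ := lc_pow_index_mem hσ (ι.range.map (QuotientGroup.mk' I))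
  exact ⟨h, hgq⟩

section

variable [Finite G] (hgen : lc_GenMod I φ₀) {h : H}
  (hh : ((ι h : G) : G ⧸ I) = ((φ₀ : G) : G ⧸ I) ^ lc_resDeg I ι)

include hgen hh

omit [Finite G] hgen in
theorem lc_quotMap_frobSub :
    lc_quotMap I ι (h : H ⧸ I.comap ι) = ((φ₀ : G) : G ⧸ I) ^ lc_resDeg I ι := by
  rw [lc_quotMap_mk, hh]

theorem lc_frobSub_gen (q : H ⧸ I.comap ι) :
    q ∈ Subgroup.zpowers ((h : H) : H ⧸ I.comap ι) := by
  have hσ := lc_genMod_iff_zpowers.1 hgen
  have hq : lc_quotMap I ι q ∈ ι.range.map (QuotientGroup.mk' I) := by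
    rw [← lc_quotMap_range]; exact ⟨q, rfl⟩
  rw [lc_eq_zpowers_pow_index hσ (ι.range.map (QuotientGroup.mk' I))] at hq
  obtain ⟨k, hk⟩ := Subgroup.mem_zpowers_iff.1 hq
  refine Subgroup.mem_zpowers_iff.2 ⟨k, lc_quotMap_injective I ι ?_⟩
  rw [map_zpow, lc_quotMap_frobSub hh]
  exact hk

theorem lc_frobSub_genMod [Finite H] : lc_GenMod (I.comap ι) h :=
  lc_genMod_iff_zpowers.2 (lc_frobSub_gen hgen hh)

theorem lc_frobSub_orderOf :
    orderOf ((h : H) : H ⧸ I.comap ι) * lc_resDeg I ι = Nat.card (G ⧸ I) := by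
  have hσ := lc_genMod_iff_zpowers.1 hgen
  rw [← orderOf_injective (lc_quotMap I ι) (lc_quotMap_injective I ι),
    lc_quotMap_frobSub hh]
  exact lc_orderOf_pow_index hσ (ι.range.map (QuotientGroup.mk' I))

end

end sub

end Fermat.Agent.S55
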