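import Mathlib
import Fermat.Agent.S55.Local.CyclicInv
import Fermat.Agent.S55.FinGrp.InfRes2
import Fermat.Agent.S55.LocalCF.FrobQuot

/-!
# S55 / local class formation: valued formations (abstract)

A *valued formation* on a `G`-module `A` (think `G = Gal(Ω/K)`, `A = Ωˣ` for a finite Galois
extension `Ω/K` of local fields) consists of a normal subgroup `I` ("inertia") with cyclic
quotient generated by the class of `frob`, and a `G`-invariant additive map `v : A → ℤ` (the
normalised valuation of `Ω`) such that, for every layer `ι : H ↪ G` (think: subgroup):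

* `v (A^H) = |I ∩ H| ℤ`  (`v_dvd`, `v_unif`: the ramification index of `Ω/Ω^H` is `|I ∩ H|`);
* every element of `A^H` of valuation `0` is a norm from `A^{I ∩ H}` (`v_norm`: units are norms
  in unramified extensions);
* `H¹(H, A) = 0`  (`h90`: Hilbert 90).

Layers are injective homomorphisms `ι : H →* G` rather than subgroups so that the restriction of
a formation to a layer (`lc_Formation.comap`) is again a formation, without nested subgroups.

From these data we construct the unramified invariant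
`invQ : H²(G ⧸ I, A^I) → ℚ/ℤ`, prove that it is injective and takes the value `1 / [G : I]`.
-/

set_option autoImplicit false

namespace Fermat.Agent.S55

open groupCohomology CategoryTheory Rep

variable {k G : Type} [CommRing k] [Group G]

/-- A valued formation on the `G`-module `A`. -/
structure lc_Formation (A : Rep k G) where
  /-- the inertia subgroup -/
  I : Subgroup G
  I_normal : I.Normal
  /-- a Frobenius element -/
  frob : G
  frob_gen : lc_GenMod I frob
  /-- the normalised valuation of the top field -/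
  v : A.V →+ ℤ
  v_inv : ∀ (g : G) (a : A.V), v (A.ρ g a) = v a
  v_dvd : ∀ {H : Type} [Group H] (ι : H →* G), Function.Injective ι → ∀ a : A.V,
    (∀ h : H, A.ρ (ι h) a = a) → ((Nat.card ↥(I.comap ι) : ℕ) : ℤ) ∣ v a
  v_unif : ∀ {H : Type} [Group H] (ι : H →* G), Function.Injective ι →
    ∃ a : A.V, (∀ h : H, A.ρ (ι h) a = a) ∧ v a = ((Nat.card ↥(I.comap ι) : ℕ) : ℤ)
  v_norm : ∀ {H : Type} [Group H] (ι : H →* G), Function.Injective ι → ∀ φ : H,
    lc_GenMod (I.comap ι) φ → ∀ a : A.V, (∀ h : H, A.ρ (ι h) a = a) → v a = 0 →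
    ∃ b : A.V, (∀ h ∈ I.comap ι, A.ρ (ι h) b = b) ∧
      ∑ i ∈ Finset.range (I.comap ι).index, A.ρ (ι (φ ^ i)) b = a
  h90 : ∀ {H : Type} [Group H] (ι : H →* G), Function.Injective ι →
    Subsingleton (groupCohomology (Rep.res ι A) 1)

namespace lc_Formation

variable {A : Rep k G} (F : lc_Formation A)

instance : F.I.Normal := F.I_normal

/-- The unramified quotient module `A^I` as a `G ⧸ I`-module. -/
noncomputable abbrev B : Rep k (G ⧸ F.I) := A.quotientToInvariants F.I

/-- The ramification index `|I|` of the top field over the base. -/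
noncomputable def e : ℕ := Nat.card F.I

/-- The residue degree `[G : I]` of the top field over the base. -/
noncomputable def f : ℕ := F.I.index

/-- The class of Frobenius in `G ⧸ I`. -/
def σ : G ⧸ F.I := (F.frob : G ⧸ F.I)

theorem mem_invariants_I (b : F.B.V) (s : G) (hs : s ∈ F.I) : A.ρ s b.1 = b.1 :=
  b.2 ⟨s, hs⟩

theorem B_ρ_mk (g : G) (b : F.B.V) : ((F.B.ρ (g : G ⧸ F.I) b : F.B.V) : A.V) = A.ρ g b.1 := rfl

section finite

variable [Finite G]

theorem e_pos : 0 < F.e := Nat.card_pos

theorem f_pos : 0 < F.f := Nat.pos_of_ne_zero Subgroup.FiniteIndex.index_ne_zero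

omit [Finite G] in
theorem e_mul_f : F.e * F.f = Nat.card G := F.I.card_mul_index

theorem σ_gen (q : G ⧸ F.I) : q ∈ Subgroup.zpowers F.σ :=
  lc_genMod_iff_zpowers.1 F.frob_gen q

theorem σ_order : orderOf F.σ = F.f := by
  rw [f, Subgroup.index_eq_card]
  exact (lc_card_eq_orderOf F.σ_gen).symm

omit [Finite G] in
theorem comap_subtype_I : F.I.comap F.I.subtype = ⊤ := by
  ext x; simp

omit [Finite G] in
theorem e_dvd (b : F.B.V) : (F.e : ℤ) ∣ F.v b.1 := by
  have h := F.v_dvd F.I.subtype F.I.subtype_injective b.1 (fun s => F.mem_invariants_I b s.1 s.2)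
  rw [comap_subtype_I, Subgroup.card_top] at h
  exact h

/-- The normalised valuation of the maximal unramified subextension: `v / |I|` on `A^I`. -/
noncomputable def vQ : F.B.V →+ ℤ where
  toFun b := F.v b.1 / (F.e : ℤ)
  map_zero' := by simp
  map_add' b c := by
    show F.v ((b + c : F.B.V) : A.V) / (F.e : ℤ) = _
    rw [Submodule.coe_add, map_add, Int.add_ediv_of_dvd_left (F.e_dvd b)]

omit [Finite G] in
theorem vQ_spec (b : F.B.V) : (F.e : ℤ) * F.vQ b = F.v b.1 :=
  Int.mul_ediv_cancel' (F.e_dvd b)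

theorem vQ_inv (q : G ⧸ F.I) (b : F.B.V) : F.vQ (F.B.ρ q b) = F.vQ b := by
  induction q using QuotientGroup.induction_on with
  | H g =>
    have he : (F.e : ℤ) ≠ 0 := by exact_mod_cast F.e_pos.ne'
    apply mul_left_cancel₀ he
    rw [vQ_spec, vQ_spec, B_ρ_mk, F.v_inv]

/-- **The unramified invariant** `H²(G ⧸ I, A^I) → ℚ/ℤ`, `[c] ↦ v (∑_{i<f} c (φ^i, φ)) / |G|`. -/
noncomputable def invQ : H2 F.B →+ AddCircle (1 : ℚ) :=
  cy_inv F.B F.vQ (cy_pow_eq_one_of_orderOf F.σ_order) F.vQ_inv

omit [Finite G] in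
theorem comap_id_I : F.I.comap (MonoidHom.id G) = F.I := Subgroup.comap_id _

theorem exists_unif : ∃ π : F.B.V, (∀ q, F.B.ρ q π = π) ∧ F.vQ π = 1 := by
  obtain ⟨a, ha, hva⟩ := F.v_unif (MonoidHom.id G) Function.injective_id
  rw [comap_id_I] at hva
  refine ⟨⟨a, fun s => ha s.1⟩, fun q => ?_, ?_⟩
  · induction q using QuotientGroup.induction_on with
    | H g => exact Subtype.ext (ha g)
  · have he : (F.e : ℤ) ≠ 0 := by exact_mod_cast F.e_pos.ne'
    apply mul_left_cancel₀ he
    rw [vQ_spec, mul_one]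
    exact hva

omit [Finite G] in
theorem norm_of_unit (b : F.B.V) (hb : ∀ q, F.B.ρ q b = b) (hv : F.vQ b = 0) :
    ∃ c : F.B.V, cy_repNorm F.B F.σ F.f c = b := by
  have hgen : lc_GenMod (F.I.comap (MonoidHom.id G)) F.frob := by
    rw [comap_id_I]; exact F.frob_gen
  have hinv : ∀ h : G, A.ρ ((MonoidHom.id G) h) b.1 = b.1 := fun h => by
    have := congrArg Subtype.val (hb (h : G ⧸ F.I))
    exact this
  have hv0 : F.v b.1 = 0 := by rw [← vQ_spec, hv, mul_zero]
  obtain ⟨c, hc, hsum⟩ := F.v_norm (MonoidHom.id G) Function.injective_id F.frob hgen b.1 hinv hv0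
  rw [comap_id_I] at hc hsum
  refine ⟨⟨c, fun s => hc s.1 s.2⟩, Subtype.ext ?_⟩
  rw [cy_repNorm_apply]
  rw [AddSubmonoidClass.coe_finsetSum]
  rw [← hsum]
  exact Finset.sum_congr rfl fun i _ => rfl

theorem invQ_injective : Function.Injective F.invQ :=
  cy_inv_injective F.B F.vQ F.f_pos F.σ_order F.σ_gen F.vQ_inv F.norm_of_unit F.exists_unif

theorem invQ_exists_gen : ∃ z : H2 F.B, F.invQ z = cy_frac F.f 1 :=
  cy_inv_exists_gen F.B F.vQ F.f_pos F.σ_order F.σ_gen F.vQ_inv F.exists_unif

/-! ### Restriction of a formation to a layer -/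

section comap

variable {H : Type} [Group H] (ι : H →* G) (hι : Function.Injective ι)

theorem exists_frobSub :
    ∃ h : H, ((ι h : G) : G ⧸ F.I) = ((F.frob : G) : G ⧸ F.I) ^ lc_resDeg F.I ι :=
  lc_exists_frobSub F.frob_gen

/-- The chosen Frobenius element of the layer `ι : H ↪ G`. -/
noncomputable def frobSub : H := Classical.choose (F.exists_frobSub ι)

theorem frobSub_spec :
    ((ι (F.frobSub ι) : G) : G ⧸ F.I) = F.σ ^ lc_resDeg F.I ι :=
  Classical.choose_spec (F.exists_frobSub ι)

include hι in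
theorem frobSub_genMod : lc_GenMod (F.I.comap ι) (F.frobSub ι) :=
  haveI : Finite H := Finite.of_injective ι hι
  lc_frobSub_genMod F.frob_gen (F.frobSub_spec ι)

/-- Restriction of a formation to a layer `ι : H ↪ G`. -/
@[reducible] noncomputable def comap : lc_Formation (Rep.res ι A) where
  I := F.I.comap ι
  I_normal := inferInstance
  frob := F.frobSub ι
  frob_gen := F.frobSub_genMod ι hι
  v := F.v
  v_inv := fun h a => F.v_inv (ι h) a
  v_dvd := fun {_} _ ι' hι' a ha => F.v_dvd (ι.comp ι') (hι.comp hι') a ha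
  v_unif := fun {_} _ ι' hι' => F.v_unif (ι.comp ι') (hι.comp hι')
  v_norm := fun {_} _ ι' hι' φ hφ a ha hva =>
    F.v_norm (ι.comp ι') (hι.comp hι') φ hφ a ha hva
  h90 := fun {_} _ ι' hι' => F.h90 (ι.comp ι') (hι.comp hι')

@[simp] theorem comap_I : (F.comap ι hι).I = F.I.comap ι := rfl
@[simp] theorem comap_v : (F.comap ι hι).v = F.v := rfl
@[simp] theorem comap_frob : (F.comap ι hι).frob = F.frobSub ι := rfl

end comap

/-! ### Comparison of a formation with its restriction to a layer -/

section compare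

variable {H : Type} [Group H] [Finite H] (ι : H →* G) (hι : Function.Injective ι)

/-- The unramified inflation map `H²(G ⧸ I, A^I) ⟶ H²(G, A)`. -/
noncomputable abbrev inf : H2 F.B ⟶ H2 A := ir_inf₂ A F.I

/-- `A^I → (Res A)^{ι⁻¹ I}` as a morphism of `H ⧸ ι⁻¹(I)`-modules. -/
noncomputable def quotHom : res (lc_quotMap F.I ι) F.B ⟶ (F.comap ι hι).B :=
  ofHom ⟨LinearMap.codRestrict
      (Representation.invariants ((res ι A).ρ.comp (F.I.comap ι).subtype))
      (Representation.invariants (A.ρ.comp F.I.subtype)).subtype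
      (fun b => (Representation.mem_invariants _ _).2
        (fun s => F.mem_invariants_I b (ι s.1) s.2)),
    fun q => by
      induction q using QuotientGroup.induction_on with
      | H h => rfl⟩

omit [Finite H] in
theorem quotHom_coe (b : F.B.V) :
    (((F.quotHom ι hι).hom b : (F.comap ι hι).B.V) : A.V) = b.1 := rfl

omit [Finite H] in
/-- Restriction to a layer commutes with unramified inflation. -/
theorem inf_res :
    F.inf ≫ map ι (𝟙 (res ι A)) 2 =
      map (lc_quotMap F.I ι) (F.quotHom ι hι) 2 ≫ (F.comap ι hι).inf := by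
  rw [← map_comp, ← map_comp]
  exact map_congr rfl rfl 2

omit [Finite H] in
include hι in
theorem e_comap_dvd : (F.comap ι hι).e ∣ F.e := by
  let j : ↥(F.I.comap ι) →* ↥F.I :=
    (ι.comp (F.I.comap ι).subtype).codRestrict F.I (fun x => x.2)
  have hj : Function.Injective j := fun x y hxy => by
    apply Subtype.ext
    apply hι
    exact congrArg Subtype.val hxy
  exact Subgroup.card_dvd_of_injective j hj

theorem f_comap : lc_resDeg F.I ι * (F.comap ι hι).f = F.f := by
  have h1 := lc_frobSub_orderOf (ι := ι) F.frob_gen (F.frobSub_spec ι)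
  have h2 : orderOf (F.comap ι hι).σ = (F.comap ι hι).f := (F.comap ι hι).σ_order
  have h3 : (F.comap ι hι).σ = ((F.frobSub ι : H) : H ⧸ F.I.comap ι) := rfl
  rw [← h3, h2] at h1
  rw [mul_comm, h1, f, Subgroup.index_eq_card]

theorem index_range :
    (F.e / (F.comap ι hι).e) * lc_resDeg F.I ι = ι.range.index := by
  obtain ⟨c, hc⟩ := F.e_comap_dvd ι hι
  have he' : 0 < (F.comap ι hι).e := (F.comap ι hι).e_pos
  have hc' : F.e / (F.comap ι hι).e = c := by
    rw [hc, Nat.mul_div_cancel_left c he']
  rw [hc']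
  have hH : Nat.card ι.range = Nat.card H :=
    (Nat.card_congr (MonoidHom.ofInjective hι).toEquiv).symm
  have h1 : Nat.card ι.range * ι.range.index = Nat.card G := ι.range.card_mul_index
  have h2 : Nat.card G = F.e * F.f := F.e_mul_f.symm
  have h3 : Nat.card H = (F.comap ι hι).e * (F.comap ι hι).f := (F.comap ι hι).e_mul_f.symm
  have h4 := F.f_comap ι hι
  have hpos : 0 < Nat.card H := Nat.card_pos
  apply Nat.eq_of_mul_eq_mul_left hpos
  rw [← hH, h1, h2, hH, h3, hc, ← h4]
  ring

theorem vQ_quotHom (x : F.B.V) :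
    (F.comap ι hι).vQ ((F.quotHom ι hι).hom x) =
      ((F.e / (F.comap ι hι).e : ℕ) : ℤ) * F.vQ x := by
  have he' : ((F.comap ι hι).e : ℤ) ≠ 0 := by exact_mod_cast (F.comap ι hι).e_pos.ne'
  apply mul_left_cancel₀ he'
  rw [vQ_spec, quotHom_coe, comap_v, ← mul_assoc, ← Nat.cast_mul,
    Nat.mul_div_cancel' (F.e_comap_dvd ι hι), vQ_spec]

/-- **Base change formula for the unramified invariant**: restricting to a layer multiplies the
invariant by the index of the layer. -/
theorem invQ_comap (w : H2 F.B) :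
    (F.comap ι hι).invQ ((map (lc_quotMap F.I ι) (F.quotHom ι hι) 2).hom w) =
      ι.range.index • F.invQ w := by
  have hq : lc_quotMap F.I ι (F.comap ι hι).σ = F.σ ^ lc_resDeg F.I ι :=
    lc_quotMap_frobSub (F.frobSub_spec ι)
  have h := cy_inv_map (lc_quotMap F.I ι) (F.quotHom ι hι) F.vQ (F.comap ι hι).vQ
    F.f_pos (F.comap ι hι).f_pos (cy_pow_eq_one_of_orderOf F.σ_order)
    (cy_pow_eq_one_of_orderOf (F.comap ι hι).σ_order) F.vQ_inv (F.comap ι hι).vQ_inv hq
    (r := 1) (by rw [mul_one]; exact F.f_comap ι hι) (F.vQ_quotHom ι hι) w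
  have hidx : ((F.e / (F.comap ι hι).e : ℕ) : ℤ) * (lc_resDeg F.I ι : ℤ) =
      ((ι.range.index : ℕ) : ℤ) := by
    exact_mod_cast F.index_range ι hι
  rw [hidx, natCast_zsmul] at h
  exact h

end compare

/-! ### The unramified part of `H²(G, A)` and the invariant map -/

section inv

omit [Finite G] in
theorem inf_injective : Function.Injective F.inf.hom :=
  ir_H2InfRes_injective A F.I (F.h90 F.I.subtype F.I.subtype_injective)

/-- The unramified classes: the image of inflation from `G ⧸ I`. -/
noncomputable def Tnr : AddSubgroup (H2 A) := F.inf.hom.toAddMonoidHom.range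

omit [Finite G] in
theorem mem_Tnr_iff (z : H2 A) : z ∈ F.Tnr ↔ ∃ w : H2 F.B, F.inf.hom w = z := Iff.rfl

theorem exists_inv :
    ∃ j : H2 A →+ AddCircle (1 : ℚ), j.comp F.inf.hom.toAddMonoidHom = F.invQ :=
  (Module.Baer.of_divisible (AddCircle (1 : ℚ))).extension_property_addMonoidHom
    F.inf.hom.toAddMonoidHom F.inf_injective F.invQ

/-- **The invariant map of the formation** on `H²(G, A)`: an (arbitrary) extension to all of
`H²(G, A)` of the unramified invariant on the unramified classes.  Only its values on `Tnr`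
are meaningful. -/
noncomputable def inv : H2 A →+ AddCircle (1 : ℚ) := Classical.choose F.exists_inv

theorem inv_inf (w : H2 F.B) : F.inv (F.inf.hom w) = F.invQ w :=
  congrArg (fun j : H2 F.B →+ AddCircle (1 : ℚ) => j w) (Classical.choose_spec F.exists_inv)

theorem inv_eq_zero {z : H2 A} (hz : z ∈ F.Tnr) (h0 : F.inv z = 0) : z = 0 := by
  obtain ⟨w, rfl⟩ := hz
  have hw : F.inf.hom.toAddMonoidHom w = F.inf.hom w := rfl
  rw [hw, inv_inf] at h0
  have : w = 0 := F.invQ_injective (by rw [h0, map_zero])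
  rw [hw, this, map_zero]

variable {H : Type} [Group H] [Finite H] (ι : H →* G) (hι : Function.Injective ι)

/-- The restriction map to a layer. -/
noncomputable abbrev res₂ : H2 A ⟶ H2 (Rep.res ι A) := map ι (𝟙 (Rep.res ι A)) 2

omit [Finite H] in
theorem res₂_inf (w : H2 F.B) :
    (res₂ ι).hom (F.inf.hom w) =
      (F.comap ι hι).inf.hom ((map (lc_quotMap F.I ι) (F.quotHom ι hι) 2).hom w) := by
  have h := F.inf_res ι hι
  have h2 := congrArg (fun g => g.hom w) h
  simpa using h2

omit [Finite H] in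
/-- Restriction to a layer preserves unramified classes. -/
theorem res₂_mem_Tnr {z : H2 A} (hz : z ∈ F.Tnr) : (res₂ ι).hom z ∈ (F.comap ι hι).Tnr := by
  obtain ⟨w, rfl⟩ := hz
  exact ⟨_, (F.res₂_inf ι hι w).symm⟩

/-- **Invariants and restriction**: `inv_H (res z) = [G : H] • inv_G z` on unramified classes. -/
theorem inv_res₂ {z : H2 A} (hz : z ∈ F.Tnr) :
    (F.comap ι hι).inv ((res₂ ι).hom z) = ι.range.index • F.inv z := by
  obtain ⟨w, rfl⟩ := hz
  have hw : F.inf.hom.toAddMonoidHom w = F.inf.hom w := rfl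
  rw [hw, F.res₂_inf ι hι, inv_inf, inv_inf, invQ_comap]

include hι in
/-- **The "ugly lemma"**: an unramified class killed by the index of a layer dies on that
layer. -/
theorem res₂_eq_zero {z : H2 A} (hz : z ∈ F.Tnr) (h0 : ι.range.index • z = 0) :
    (res₂ ι).hom z = 0 := by
  apply (F.comap ι hι).inv_eq_zero (F.res₂_mem_Tnr ι hι hz)
  rw [F.inv_res₂ ι hι hz, ← map_nsmul, h0, map_zero]

end inv

end finite

end lc_Formation

end Fermat.Agent.S55
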