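import Mathlib
import Fermat.Agent.S55.LocalCF.Formation

/-!
# S55 / local class formation: morphisms of valued formations

Let `F` be a valued formation on `(G, A)` and `F'` one on `(G', A')`, and let
`ρ : G' →* G`, `ψ : Res_ρ A ⟶ A'` be a compatible pair (so that `map ρ ψ 2` maps
`H²(G, A)` to `H²(G', A')`).  Assume

* `ρ` maps the inertia subgroup `I'` into `I`;
* `ρ frob' ≡ frob ^ d` modulo `I`;
* `v' ∘ ψ = c • v`, and `e` is the integer with `e * |I'| = c * |I|`.

Then `map ρ ψ 2` maps unramified classes to unramified classes and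
`inv' (map ρ ψ 2 z) = (e * d) • inv z` on unramified classes `z`.

Special cases: restriction to a layer (`lc_Formation.inv_res₂`), inflation between two levels of
a tower (`e * d = 1`), conjugation (`e * d = 1`).
-/

set_option autoImplicit false

namespace Fermat.Agent.S55

open groupCohomology CategoryTheory Rep

namespace lc_Formation

variable {k G G' : Type} [CommRing k] [Group G] [Group G']
  {A : Rep k G} {A' : Rep k G'} (F : lc_Formation A) (F' : lc_Formation A')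
  (ρ : G' →* G) (ψ : res ρ A ⟶ A')

/-- The map induced by `ρ` on the unramified quotients. -/
def morQuot (hI : F'.I ≤ F.I.comap ρ) : G' ⧸ F'.I →* G ⧸ F.I :=
  QuotientGroup.map F'.I F.I ρ hI

@[simp] theorem morQuot_mk (hI : F'.I ≤ F.I.comap ρ) (g : G') :
    F.morQuot F' ρ hI (g : G' ⧸ F'.I) = ((ρ g : G) : G ⧸ F.I) := rfl

theorem mor_mem_invariants (hI : F'.I ≤ F.I.comap ρ) (b : F.B.V) (s : G') (hs : s ∈ F'.I) :
    A'.ρ s (ψ.hom b.1) = ψ.hom b.1 := by
  have h := hom_comm_apply ψ s b.1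
  rw [← h]
  congr 1
  exact F.mem_invariants_I b (ρ s) (hI hs)

/-- The map induced by `ψ` on the unramified modules `A^I → A'^{I'}`. -/
noncomputable def morHom (hI : F'.I ≤ F.I.comap ρ) :
    res (F.morQuot F' ρ hI) F.B ⟶ F'.B :=
  ofHom ⟨LinearMap.codRestrict
      (Representation.invariants (A'.ρ.comp F'.I.subtype))
      (ψ.hom.toLinearMap ∘ₗ (Representation.invariants (A.ρ.comp F.I.subtype)).subtype)
      (fun b => (Representation.mem_invariants _ _).2
        (fun s => F.mor_mem_invariants F' ρ ψ hI b s.1 s.2)),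
    fun q => by
      induction q using QuotientGroup.induction_on with
      | H g =>
        ext b
        exact hom_comm_apply ψ g b.1⟩

theorem morHom_coe (hI : F'.I ≤ F.I.comap ρ) (b : F.B.V) :
    (((F.morHom F' ρ ψ hI).hom b : F'.B.V) : A'.V) = ψ.hom b.1 := rfl

/-- A morphism of formations commutes with unramified inflation. -/
theorem inf_map (hI : F'.I ≤ F.I.comap ρ) :
    F.inf ≫ map ρ ψ 2 =
      map (F.morQuot F' ρ hI) (F.morHom F' ρ ψ hI) 2 ≫ F'.inf := by
  rw [← map_comp, ← map_comp]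
  exact map_congr rfl rfl 2

theorem inf_map_apply (hI : F'.I ≤ F.I.comap ρ) (w : H2 F.B) :
    (map ρ ψ 2).hom (F.inf.hom w) =
      F'.inf.hom ((map (F.morQuot F' ρ hI) (F.morHom F' ρ ψ hI) 2).hom w) := by
  have h := F.inf_map F' ρ ψ hI
  have h2 := congrArg (fun g => g.hom w) h
  simpa using h2

variable [Finite G] [Finite G']

omit [Finite G] in
/-- `vQ' ∘ ψ̄ = e • vQ` when `v' ∘ ψ = c • v` and `e * |I'| = c * |I|`. -/
theorem vQ_morHom (hI : F'.I ≤ F.I.comap ρ) {c e : ℤ}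
    (hc : ∀ a : A.V, F'.v (ψ.hom a) = c * F.v a) (he : e * (F'.e : ℤ) = c * (F.e : ℤ))
    (x : F.B.V) :
    F'.vQ ((F.morHom F' ρ ψ hI).hom x) = e * F.vQ x := by
  have he' : ((F'.e : ℕ) : ℤ) ≠ 0 := by exact_mod_cast F'.e_pos.ne'
  apply mul_left_cancel₀ he'
  rw [vQ_spec, morHom_coe, hc, ← F.vQ_spec x]
  linear_combination (-(F.vQ x)) * he

/-- **Functoriality of the unramified invariant** along a morphism of formations. -/
theorem invQ_map (hI : F'.I ≤ F.I.comap ρ) {d : ℕ}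
    (hd : ((ρ F'.frob : G) : G ⧸ F.I) = F.σ ^ d) {c e : ℤ}
    (hc : ∀ a : A.V, F'.v (ψ.hom a) = c * F.v a) (he : e * (F'.e : ℤ) = c * (F.e : ℤ))
    (w : H2 F.B) :
    F'.invQ ((map (F.morQuot F' ρ hI) (F.morHom F' ρ ψ hI) 2).hom w) =
      (e * d) • F.invQ w := by
  have hq : F.morQuot F' ρ hI F'.σ = F.σ ^ d := hd
  -- `f ∣ d * f'`
  have h1 : F.σ ^ (d * F'.f) = 1 := by
    rw [pow_mul, ← hq, ← map_pow, cy_pow_eq_one_of_orderOf F'.σ_order, map_one]
  obtain ⟨r, hr⟩ : F.f ∣ d * F'.f := by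
    rw [← F.σ_order]
    exact orderOf_dvd_of_pow_eq_one h1
  exact cy_inv_map (F.morQuot F' ρ hI) (F.morHom F' ρ ψ hI) F.vQ F'.vQ
    F.f_pos F'.f_pos (cy_pow_eq_one_of_orderOf F.σ_order)
    (cy_pow_eq_one_of_orderOf F'.σ_order) F.vQ_inv F'.vQ_inv hq hr
    (F.vQ_morHom F' ρ ψ hI hc he) w

omit [Finite G] [Finite G'] in
/-- A morphism of formations preserves unramified classes. -/
theorem map_mem_Tnr (hI : F'.I ≤ F.I.comap ρ) {z : H2 A} (hz : z ∈ F.Tnr) :
    (map ρ ψ 2).hom z ∈ F'.Tnr := by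
  obtain ⟨w, rfl⟩ := hz
  exact ⟨_, (F.inf_map_apply F' ρ ψ hI w).symm⟩

/-- **Functoriality of the invariant** along a morphism of formations, on unramified classes. -/
theorem inv_map (hI : F'.I ≤ F.I.comap ρ) {d : ℕ}
    (hd : ((ρ F'.frob : G) : G ⧸ F.I) = F.σ ^ d) {c e : ℤ}
    (hc : ∀ a : A.V, F'.v (ψ.hom a) = c * F.v a) (he : e * (F'.e : ℤ) = c * (F.e : ℤ))
    {z : H2 A} (hz : z ∈ F.Tnr) :
    F'.inv ((map ρ ψ 2).hom z) = (e * d) • F.inv z := by
  obtain ⟨w, rfl⟩ := hz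
  have hw : F.inf.hom.toAddMonoidHom w = F.inf.hom w := rfl
  rw [hw, F.inf_map_apply F' ρ ψ hI, inv_inf, inv_inf, F.invQ_map F' ρ ψ hI hd hc he]

/-- The case of multiplier one (inflation in a tower, conjugation). -/
theorem inv_map_one (hI : F'.I ≤ F.I.comap ρ)
    (hd : ((ρ F'.frob : G) : G ⧸ F.I) = F.σ) {c : ℤ}
    (hc : ∀ a : A.V, F'.v (ψ.hom a) = c * F.v a) (he : (F'.e : ℤ) = c * (F.e : ℤ))
    {z : H2 A} (hz : z ∈ F.Tnr) :
    F'.inv ((map ρ ψ 2).hom z) = F.inv z := by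
  have h := F.inv_map F' ρ ψ hI (d := 1) (by rw [pow_one]; exact hd) hc (e := 1)
    (by rw [one_mul]; exact he) hz
  rw [h]
  simp

end lc_Formation

end Fermat.Agent.S55
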