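import Mathlib
import Fermat.Agent.S55.FinGrp.InfRes2

/-!
# S55 / local class formation: inflation along an arbitrary surjection

`FinGrp/InfRes2.lean` proves inflation–restriction in degree 2 for Mathlib's quotient
`G ⧸ S` acting on `A^S`.  Here we transport it to an arbitrary surjective homomorphism
`π : G →* Q` together with a `Q`-module `B` and an injective morphism `φ : Res(π) B ⟶ A`
whose image is `A^{ker π}` (for instance `π` = restriction of automorphisms to a normal
subextension and `φ` = inclusion of unit groups).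
-/

set_option autoImplicit false

namespace Fermat.Agent.S55

open groupCohomology CategoryTheory Rep

universe u

variable {k G Q : Type u} [CommRing k] [Group G] [Group Q]

/-- `φ : Res(π) B ⟶ A` identifies `B` with the `ker π`-invariants of `A`, and `π` is onto. -/
structure lc_IsInfl (π : G →* Q) {B : Rep k Q} {A : Rep k G} (φ : res π B ⟶ A) : Prop where
  surj : Function.Surjective π
  inj : Function.Injective φ.hom
  range : ∀ a : A.V, (∀ n ∈ π.ker, A.ρ n a = a) → ∃ b : B.V, φ.hom b = a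

variable (π : G →* Q) {B : Rep k Q} {A : Rep k G} (φ : res π B ⟶ A)

/-- The inflation map `H²(Q, B) ⟶ H²(G, A)` along `(π, φ)`. -/
noncomputable abbrev lc_inf₂ : groupCohomology B 2 ⟶ groupCohomology A 2 := map π φ 2

theorem lc_apply_mem_invariants (b : B.V) (n : G) (hn : n ∈ π.ker) :
    A.ρ n (φ.hom b) = φ.hom b := by
  have h := hom_comm_apply φ n b
  rw [← h]
  have : (res π B).ρ n b = b := by
    show B.ρ (π n) b = b
    rw [MonoidHom.mem_ker.1 hn, map_one]
    rfl
  rw [this]

variable {π φ}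

/-- The `k`-linear equivalence `B ≃ A^{ker π}` induced by `φ`. -/
noncomputable def lc_inflEquiv (h : lc_IsInfl π φ) :
    B.V ≃ₗ[k] (A.quotientToInvariants π.ker).V :=
  LinearEquiv.ofBijective
    (LinearMap.codRestrict (Representation.invariants (A.ρ.comp π.ker.subtype))
      φ.hom.toLinearMap
      (fun b => (Representation.mem_invariants _ _).2
        (fun s => lc_apply_mem_invariants π φ b s.1 s.2)))
    ⟨fun x y hxy => h.inj (congrArg Subtype.val hxy), fun ⟨a, ha⟩ => by
      obtain ⟨b, hb⟩ := h.range a (fun n hn => ha ⟨n, hn⟩)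
      exact ⟨b, Subtype.ext hb⟩⟩

theorem lc_inflEquiv_coe (h : lc_IsInfl π φ) (b : B.V) :
    ((lc_inflEquiv h b : (A.quotientToInvariants π.ker).V) : A.V) = φ.hom b := rfl

/-- The isomorphism `G ⧸ ker π ≃* Q`. -/
noncomputable def lc_quotEquiv (h : lc_IsInfl π φ) : G ⧸ π.ker ≃* Q :=
  QuotientGroup.quotientKerEquivOfSurjective π h.surj

theorem lc_quotEquiv_mk (h : lc_IsInfl π φ) (g : G) :
    lc_quotEquiv h (g : G ⧸ π.ker) = π g := rfl

theorem lc_quotEquiv_comp (h : lc_IsInfl π φ) :
    ((lc_quotEquiv h : G ⧸ π.ker →* Q)).comp (QuotientGroup.mk' π.ker) = π := rfl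

theorem lc_inflEquiv_comm (h : lc_IsInfl π φ) (q : G ⧸ π.ker) :
    (lc_inflEquiv h).toLinearMap ∘ₗ (res (lc_quotEquiv h : G ⧸ π.ker →* Q) B).ρ q =
      (A.quotientToInvariants π.ker).ρ q ∘ₗ (lc_inflEquiv h).toLinearMap := by
  induction q using QuotientGroup.induction_on with
  | H g =>
    ext b
    show φ.hom (B.ρ (π g) b) = A.ρ g (φ.hom b)
    exact hom_comm_apply φ g b

/-- The morphism `Res(G ⧸ ker π ≃ Q) B ⟶ A^{ker π}` of `G ⧸ ker π`-representations. -/
noncomputable def lc_inflHom (h : lc_IsInfl π φ) :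
    res (lc_quotEquiv h : G ⧸ π.ker →* Q) B ⟶ A.quotientToInvariants π.ker :=
  ofHom ⟨(lc_inflEquiv h).toLinearMap, lc_inflEquiv_comm h⟩

/-- Inflation along `(π, φ)` factors through Mathlib's inflation from `G ⧸ ker π`. -/
theorem lc_inf₂_factor (h : lc_IsInfl π φ) :
    lc_inf₂ π φ =
      map (lc_quotEquiv h : G ⧸ π.ker →* Q) (lc_inflHom h) 2 ≫ ir_inf₂ A π.ker := by
  rw [← map_comp]
  exact map_congr (lc_quotEquiv_comp h).symm rfl 2

/-- The transport isomorphism `H²(Q, B) ≅ H²(G ⧸ ker π, A^{ker π})`. -/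
noncomputable def lc_inflIso (h : lc_IsInfl π φ) (n : ℕ) :
    groupCohomology B n ≅ groupCohomology (A.quotientToInvariants π.ker) n :=
  mapIso (lc_quotEquiv h).symm (lc_inflEquiv h) (fun q => by
    have := lc_inflEquiv_comm h ((lc_quotEquiv h).symm q)
    simpa using this) n

theorem lc_inflIso_hom (h : lc_IsInfl π φ) (n : ℕ) :
    (lc_inflIso h n).hom = map (lc_quotEquiv h : G ⧸ π.ker →* Q) (lc_inflHom h) n :=
  map_congr rfl rfl n

theorem lc_map_quotEquiv_bijective (h : lc_IsInfl π φ) (n : ℕ) :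
    Function.Bijective (map (lc_quotEquiv h : G ⧸ π.ker →* Q) (lc_inflHom h) n).hom := by
  rw [← lc_inflIso_hom]
  exact (ConcreteCategory.bijective_of_isIso (lc_inflIso h n).hom)

/-- **Inflation is injective** in degree 2 when `H¹(ker π, A) = 0`. -/
theorem lc_inf₂_injective (h : lc_IsInfl π φ)
    (h1 : Subsingleton (groupCohomology (Rep.res π.ker.subtype A) 1)) :
    Function.Injective (lc_inf₂ π φ).hom := by
  rw [lc_inf₂_factor h]
  intro x y hxy
  rw [ModuleCat.hom_comp, LinearMap.comp_apply, LinearMap.comp_apply] at hxy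
  exact (lc_map_quotEquiv_bijective h 2).1 (ir_H2InfRes_injective A π.ker h1 hxy)

/-- **Exactness at `H²(G, A)`**: a class dying on `ker π` is inflated from `Q`. -/
theorem lc_inf₂_exact (h : lc_IsInfl π φ)
    (h1 : Subsingleton (groupCohomology (Rep.res π.ker.subtype A) 1))
    (x : groupCohomology A 2) (hx : (ir_res₂ A π.ker).hom x = 0) :
    ∃ y : groupCohomology B 2, (lc_inf₂ π φ).hom y = x := by
  obtain ⟨y', hy'⟩ := ir_H2InfRes_exact' A π.ker h1 x hx
  obtain ⟨y, hy⟩ := (lc_map_quotEquiv_bijective h 2).2 y'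
  refine ⟨y, ?_⟩
  rw [lc_inf₂_factor h, ModuleCat.hom_comp, LinearMap.comp_apply, hy, hy']

/-- Inflation followed by restriction to `ker π` is zero. -/
theorem lc_inf₂_comp_res (h : lc_IsInfl π φ) : lc_inf₂ π φ ≫ ir_res₂ A π.ker = 0 := by
  rw [lc_inf₂_factor h, Category.assoc, ir_inf_comp_res, Limits.comp_zero]

theorem lc_res_inf₂_apply (h : lc_IsInfl π φ) (y : groupCohomology B 2) :
    (ir_res₂ A π.ker).hom ((lc_inf₂ π φ).hom y) = 0 := by
  have := lc_inf₂_comp_res h
  have h2 := congrArg (fun f => f.hom y) this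
  simpa using h2

end Fermat.Agent.S55
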