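import Mathlib
import Fermat.Agent.S55.LocalCF.Formation
import Fermat.Agent.S55.LocalCF.InfPi
import Fermat.Agent.S55.Devissage.PLayers
import Fermat.Agent.S55.FinGrp.H2Torsion
import Fermat.Agent.S55.Tate.ClassModule

/-!
# S55 / local class formation: from a valued formation to a `p`-class module (abstract)

Let `F` be a valued formation on the `G`-module `A` (`LocalCF/Formation.lean`), `π : G →* Γ` a
surjection and `C` a `Γ`-module identified with `A^{ker π}` (think `G = Gal(Ω/K)`,
`Γ = Gal(L/K)`, `C = Lˣ`).  If all cyclic layers of degree `p` of `C` have `H²` of order dividing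
`p` (local norm index) and the `p`-part of `|Γ|` divides the residue degree `[G : I]`, then the
`p`-primary classes of `H²(H̄, C)` (`H̄ ≤ Γ`) inflate to *unramified* classes of the layer
`π⁻¹(H̄)`, and the invariants of the formation make `C` a `PClassModule p`.
-/

set_option autoImplicit false

namespace Fermat.Agent.S55

open groupCohomology CategoryTheory Rep

/-! ### The bound on `p`-primary classes (Sylow + devissage) -/

section bound

variable {k Γ : Type} [CommRing k] [Group Γ]

theorem lc_dv_infRes2 (C : Rep k Γ) : dv_InfRes2 C :=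
  fun H N _ h => ir_H2InfRes_both (Rep.res H.subtype C) N h

variable [Finite Γ] (p : ℕ) [Fact p.Prime] (C : Rep k Γ)

/-- Sylow bound: if `H²(P, C)` is finite of order dividing `|P|` for a Sylow `p`-subgroup `P`,
the `p`-primary part of `H²(Γ, C)` has at most `|Γ|_p` elements. -/
theorem lc_pPrimary_bound_of_sylow (P : Sylow p Γ)
    (hfin : Finite (H2 (Rep.res (P : Subgroup Γ).subtype C)))
    (hcard : Nat.card (H2 (Rep.res (P : Subgroup Γ).subtype C)) ∣ Nat.card (P : Subgroup Γ)) :
    Finite {z : H2 C // tt_IsPPrimary p z} ∧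
      Nat.card {z : H2 C // tt_IsPPrimary p z} ≤ ordProj[p] (Nat.card Γ) := by
  let r : {z : H2 C // tt_IsPPrimary p z} → H2 (Rep.res (P : Subgroup Γ).subtype C) :=
    fun z => map (P : Subgroup Γ).subtype (𝟙 (res (P : Subgroup Γ).subtype C)) 2 z.1
  have hr : Function.Injective r := by
    intro z z' h
    apply Subtype.ext
    refine h2_res_sylow_injOn C p P z.1 z'.1 ?_ h
    obtain ⟨a, ha⟩ := z.2
    obtain ⟨b, hb⟩ := z'.2
    refine ⟨a + b, ?_⟩
    rw [smul_sub, pow_add, mul_smul, smul_comm (p ^ a) (p ^ b), ha, mul_smul, hb, smul_zero,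
      smul_zero, sub_zero]
  have hfinP : Finite {z : H2 C // tt_IsPPrimary p z} := Finite.of_injective r hr
  refine ⟨hfinP, ?_⟩
  have h1 : Nat.card {z : H2 C // tt_IsPPrimary p z} ≤
      Nat.card (H2 (Rep.res (P : Subgroup Γ).subtype C)) :=
    Nat.card_le_card_of_injective r hr
  have h3 : 0 < Nat.card (P : Subgroup Γ) := Nat.card_pos
  calc _ ≤ _ := h1
    _ ≤ Nat.card (P : Subgroup Γ) := Nat.le_of_dvd h3 hcard
    _ = _ := P.card_eq_multiplicity

/-- The `p`-primary part of `H²(Γ, C)` has at most `|Γ|_p` elements. -/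
theorem lc_pPrimary_bound_top (hcyc : dv_CyclicLayers p C) :
    Finite {z : H2 C // tt_IsPPrimary p z} ∧
      Nat.card {z : H2 C // tt_IsPPrimary p z} ≤ ordProj[p] (Nat.card Γ) := by
  obtain P : Sylow p Γ := default
  obtain ⟨hfin, hcard⟩ := dv_pgroup_H2 p C (lc_dv_infRes2 C) hcyc (P : Subgroup Γ) P.isPGroup'
  exact lc_pPrimary_bound_of_sylow p C P hfin hcard

/-- For every layer `K ≤ Γ` the `p`-primary part of `H²(K, C)` has at most `|K|_p` elements. -/
theorem lc_pPrimary_bound (hcyc : dv_CyclicLayers p C) (K : Subgroup Γ) :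
    Finite {z : H2 (Rep.res K.subtype C) // tt_IsPPrimary p z} ∧
      Nat.card {z : H2 (Rep.res K.subtype C) // tt_IsPPrimary p z} ≤
        ordProj[p] (Nat.card K) := by
  obtain P' : Sylow p K := default
  have hP : IsPGroup p ((P' : Subgroup K).map K.subtype) := P'.isPGroup'.map K.subtype
  obtain ⟨hfin, hcard⟩ := dv_pgroup_H2 p C (lc_dv_infRes2 C) hcyc _ hP
  obtain ⟨hfin', hcard'⟩ := dv_finite_card_nested C K (P' : Subgroup K) 2 hfin
  refine lc_pPrimary_bound_of_sylow p (Rep.res K.subtype C) P' hfin' ?_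
  rw [hcard', ← Subgroup.card_map_of_injective K.subtype_injective]
  exact hcard

end bound

/-! ### Torsion of the unramified cohomology -/

section torsion

variable {k G : Type} [CommRing k] [Group G] [Finite G] {A : Rep k G} (F : lc_Formation A)

theorem lc_Formation.invQ_nsmul_gen {z₁ : H2 F.B} (hz₁ : F.invQ z₁ = cy_frac F.f 1) (n : ℕ) :
    F.invQ (n • z₁) = cy_frac F.f n := by
  rw [map_nsmul, hz₁, ← map_nsmul]
  simp

/-- The unramified cohomology `H²(G ⧸ I, A^I)` (cyclic of order `f`) contains at least `d`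
elements killed by `d`, for every `d ∣ f`. -/
theorem lc_Formation.exists_torsion_injection {d : ℕ} (hd : d ∣ F.f) :
    ∃ g : Fin d → H2 F.B, Function.Injective g ∧ ∀ i, d • g i = 0 := by
  obtain ⟨z₁, hz₁⟩ := F.invQ_exists_gen
  obtain ⟨c, hc⟩ := hd
  have hc0 : 0 < c := by
    rcases Nat.eq_zero_or_pos c with h | h
    · have := F.f_pos; rw [hc, h, mul_zero] at this; exact absurd this (lt_irrefl 0)
    · exact h
  refine ⟨fun i => (i.1 * c) • z₁, ?_, ?_⟩
  · intro i j hij
    have h1 := congrArg F.invQ hij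
    simp only [F.invQ_nsmul_gen hz₁] at h1
    have h2 : cy_frac F.f (((i.1 * c : ℕ) : ℤ) - ((j.1 * c : ℕ) : ℤ)) = 0 := by
      rw [map_sub, h1, sub_self]
    rw [cy_frac_eq_zero_iff F.f_pos] at h2
    have h3 : ((d : ℤ) * c) ∣ ((i.1 : ℤ) - j.1) * c := by
      have : ((F.f : ℕ) : ℤ) = (d : ℤ) * c := by exact_mod_cast hc
      rw [this] at h2
      convert h2 using 1
      push_cast; ring
    have hcz : (c : ℤ) ≠ 0 := by exact_mod_cast hc0.ne'
    have h4 : (d : ℤ) ∣ (i.1 : ℤ) - j.1 := (mul_dvd_mul_iff_right hcz).1 h3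
    have hi := i.2
    have hj := j.2
    apply Fin.ext
    have h5 : ((i.1 : ℤ) - j.1) = 0 := by
      apply Int.eq_zero_of_abs_lt_dvd h4
      rw [abs_lt]
      constructor <;> omega
    omega
  · intro i
    apply F.invQ_injective
    rw [map_zero, ← mul_smul, F.invQ_nsmul_gen hz₁, cy_frac_eq_zero_iff F.f_pos]
    refine ⟨i.1, ?_⟩
    rw [hc]
    push_cast; ring

end torsion

/-! ### The key counting lemma -/

section key

variable {k G Γ : Type} [CommRing k] [Group G] [Group Γ] [Finite G]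
  {A : Rep k G} (F : lc_Formation A)
  {π : G →* Γ} {C : Rep k Γ} {φ : res π C ⟶ A} (hπ : lc_IsInfl π φ)
  (p : ℕ)

omit [Finite G] in
theorem lc_Formation.h1_ker (F : lc_Formation A) (π : G →* Γ) :
    Subsingleton (groupCohomology (Rep.res π.ker.subtype A) 1) :=
  F.h90 π.ker.subtype π.ker.subtype_injective

include hπ

omit [Finite G] in
theorem lc_index_ker : π.ker.index = Nat.card Γ := by
  rw [Subgroup.index_ker, MonoidHom.range_eq_top.2 hπ.surj, Subgroup.card_top]

/-- A `d`-torsion unramified class, `d ∣ |Γ|`, is inflated from `Γ`. -/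
theorem lc_exists_of_torsion_unram {d : ℕ} (hdΓ : d ∣ Nat.card Γ) (w : H2 F.B)
    (hw : d • w = 0) :
    ∃ y : H2 C, (lc_inf₂ π φ).hom y = F.inf.hom w ∧ d • y = 0 := by
  have hmem : F.inf.hom w ∈ F.Tnr := ⟨w, rfl⟩
  have h0 : π.ker.subtype.range.index • F.inf.hom w = 0 := by
    rw [Subgroup.range_subtype, lc_index_ker hπ]
    obtain ⟨c, hc⟩ := hdΓ
    rw [hc, mul_comm, mul_smul, ← map_nsmul, hw, map_zero, smul_zero]
  have hres := F.res₂_eq_zero π.ker.subtype π.ker.subtype_injective hmem h0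
  obtain ⟨y, hy⟩ := lc_inf₂_exact hπ (F.h1_ker π) (F.inf.hom w) hres
  refine ⟨y, hy, ?_⟩
  apply lc_inf₂_injective hπ (F.h1_ker π)
  rw [map_nsmul, hy, ← map_nsmul, hw, map_zero, map_zero]

/-- **Key lemma.**  If the `p`-primary part of `H²(Γ, C)` has at most `p ^ m` elements, where
`p ^ m` divides both `|Γ|` and the residue degree `F.f`, then every `p`-primary class of
`H²(Γ, C)` inflates to an unramified class of `H²(G, A)`. -/
theorem lc_inf₂_mem_Tnr {m : ℕ} (hdΓ : p ^ m ∣ Nat.card Γ) (hdf : p ^ m ∣ F.f)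
    (hfin : Finite {z : H2 C // tt_IsPPrimary p z})
    (hle : Nat.card {z : H2 C // tt_IsPPrimary p z} ≤ p ^ m)
    (z : H2 C) (hz : tt_IsPPrimary p z) : (lc_inf₂ π φ).hom z ∈ F.Tnr := by
  obtain ⟨g, hg, hg0⟩ := F.exists_torsion_injection hdf
  choose y hy hy0 using fun i => lc_exists_of_torsion_unram F hπ hdΓ (g i) (hg0 i)
  let h : Fin (p ^ m) → {z : H2 C // tt_IsPPrimary p z} := fun i => ⟨y i, ⟨m, hy0 i⟩⟩
  have hinj : Function.Injective h := by
    intro i j hij
    have h1 : y i = y j := congrArg Subtype.val hij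
    apply hg
    apply F.inf_injective
    rw [← hy i, ← hy j, h1]
  have hbij : Function.Bijective h :=
    hinj.bijective_of_nat_card_le (by rw [Nat.card_fin]; exact hle)
  obtain ⟨i, hi⟩ := hbij.2 ⟨z, hz⟩
  have h2 : y i = z := congrArg Subtype.val hi
  rw [← h2, hy i]
  exact ⟨g i, rfl⟩

end key

/-! ### Layers of `Γ` and the corresponding layers of `G` -/

section layers

variable {k G Γ : Type} [CommRing k] [Group G] [Group Γ]
  {A : Rep k G} (π : G →* Γ) {C : Rep k Γ} (φ : res π C ⟶ A)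

/-- `π` restricted to the preimage of the layer `K ≤ Γ`. -/
abbrev lc_piSub (K : Subgroup Γ) : ↥(K.comap π) →* ↥K := π.subgroupComap K

/-- `φ` as a morphism over the layer `K`. -/
noncomputable def lc_phiSub (K : Subgroup Γ) :
    res (lc_piSub π K) (res K.subtype C) ⟶ res (K.comap π).subtype A :=
  ofHom ⟨φ.hom.toLinearMap, fun g => φ.hom.isIntertwining' g.1⟩

theorem lc_phiSub_apply (K : Subgroup Γ) (c : C.V) : (lc_phiSub π φ K).hom c = φ.hom c := rfl

variable {π φ}

theorem lc_isInfl_sub (hπ : lc_IsInfl π φ) (K : Subgroup Γ) :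
    lc_IsInfl (lc_piSub π K) (lc_phiSub π φ K) where
  surj := MonoidHom.subgroupComap_surjective_of_surjective π K hπ.surj
  inj := hπ.inj
  range := fun a ha => hπ.range a (fun n hn => by
    have hnK : n ∈ K.comap π := by
      rw [Subgroup.mem_comap, MonoidHom.mem_ker.1 hn]; exact K.one_mem
    have hker : (⟨n, hnK⟩ : ↥(K.comap π)) ∈ (lc_piSub π K).ker := by
      rw [MonoidHom.mem_ker]
      apply Subtype.ext
      exact MonoidHom.mem_ker.1 hn
    exact ha ⟨n, hnK⟩ hker)

variable (π φ)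

/-- Inflation over a layer commutes with restriction. -/
theorem lc_inf₂_res (K : Subgroup Γ) :
    map K.subtype (𝟙 (res K.subtype C)) 2 ≫ lc_inf₂ (lc_piSub π K) (lc_phiSub π φ K) =
      lc_inf₂ π φ ≫ map (K.comap π).subtype (𝟙 (res (K.comap π).subtype A)) 2 := by
  rw [← map_comp, ← map_comp]
  exact map_congr rfl rfl 2

theorem lc_inf₂_res_apply (K : Subgroup Γ) (z : H2 C) :
    (lc_inf₂ (lc_piSub π K) (lc_phiSub π φ K)).hom
        ((map K.subtype (𝟙 (res K.subtype C)) 2).hom z) =
      (map (K.comap π).subtype (𝟙 (res (K.comap π).subtype A)) 2).hom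
        ((lc_inf₂ π φ).hom z) := by
  have h := lc_inf₂_res π φ K
  have h2 := congrArg (fun g => g.hom z) h
  simpa using h2

end layers

/-! ### The invariant maps of the layers -/

section assembly

variable {k G Γ : Type} [CommRing k] [Group G] [Group Γ] [Finite G]
  {A : Rep k G} (F : lc_Formation A)
  (π : G →* Γ) {C : Rep k Γ} (φ : res π C ⟶ A)

/-- The formation of the layer `π⁻¹(K)`. -/
noncomputable abbrev lc_Formation.layer (K : Subgroup Γ) :
    lc_Formation (res (K.comap π).subtype A) :=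
  F.comap (K.comap π).subtype (K.comap π).subtype_injective

/-- **The invariant map of the layer `K ≤ Γ`**: inflate to the layer `π⁻¹(K)` of `G` and apply
the invariant of the formation. -/
noncomputable def lc_invLayer (K : Subgroup Γ) :
    H2 (res K.subtype C) →+ AddCircle (1 : ℚ) :=
  (F.layer π K).inv.comp (lc_inf₂ (lc_piSub π K) (lc_phiSub π φ K)).hom.toAddMonoidHom

theorem lc_invLayer_apply (K : Subgroup Γ) (z : H2 (res K.subtype C)) :
    lc_invLayer F π φ K z =
      (F.layer π K).inv ((lc_inf₂ (lc_piSub π K) (lc_phiSub π φ K)).hom z) := rfl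

variable {π φ} (hπ : lc_IsInfl π φ)

include hπ

omit [Finite G] in
theorem lc_index_comap_of_infl (K : Subgroup Γ) : (K.comap π).index = K.index :=
  Subgroup.index_comap_of_surjective K hπ.surj

/-- The invariant of the restriction to a layer of an inflated unramified class. -/
theorem lc_invLayer_res (K : Subgroup Γ) (z : H2 C) (hz : (lc_inf₂ π φ).hom z ∈ F.Tnr) :
    lc_invLayer F π φ K ((map K.subtype (𝟙 (res K.subtype C)) 2).hom z) =
      K.index • F.inv ((lc_inf₂ π φ).hom z) := by
  rw [lc_invLayer_apply, lc_inf₂_res_apply,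
    F.inv_res₂ (K.comap π).subtype (K.comap π).subtype_injective hz, Subgroup.range_subtype,
    lc_index_comap_of_infl hπ]

variable (p : ℕ) [hp : Fact p.Prime]

/-- The `p`-part of `|K|` divides the residue degree of the layer `π⁻¹(K)`. -/
theorem lc_layer_dvd [Finite Γ] (hpf : ordProj[p] (Nat.card Γ) ∣ F.f) (K : Subgroup Γ) :
    ordProj[p] (Nat.card K) ∣ (F.layer π K).f := by
  have h1 := F.f_comap (K.comap π).subtype (K.comap π).subtype_injective
  have h2 := F.index_range (K.comap π).subtype (K.comap π).subtype_injective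
  rw [Subgroup.range_subtype, lc_index_comap_of_infl hπ] at h2
  have h3 : Nat.card K * K.index = Nat.card Γ := K.card_mul_index
  set r := lc_resDeg F.I (K.comap π).subtype with hr
  set a := (F.layer π K).f with ha
  have hr0 : r ≠ 0 := by
    intro h0
    rw [h0, zero_mul] at h1
    exact F.f_pos.ne' h1.symm
  have ha0 : a ≠ 0 := by
    intro h0
    rw [h0, mul_zero] at h1
    exact F.f_pos.ne' h1.symm
  have hm0 : K.index ≠ 0 := Subgroup.FiniteIndex.index_ne_zero
  have hK0 : Nat.card K ≠ 0 := Nat.card_pos.ne'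
  have hrm : r ∣ K.index := Dvd.intro_left _ h2
  -- valuations
  have e1 : (Nat.card Γ).factorization p ≤ (r * a).factorization p := by
    rw [h1]
    exact (hp.out.pow_dvd_iff_le_factorization F.f_pos.ne').1 hpf
  rw [Nat.factorization_mul hr0 ha0, ← h3, Nat.factorization_mul hK0 hm0] at e1
  have e2 : r.factorization p ≤ K.index.factorization p :=
    (Nat.factorization_le_iff_dvd hr0 hm0).2 hrm p
  rw [hp.out.pow_dvd_iff_le_factorization ha0]
  simp only [Finsupp.coe_add, Pi.add_apply] at e1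
  omega

variable [Finite Γ] (hcyc : dv_CyclicLayers p C) (hpf : ordProj[p] (Nat.card Γ) ∣ F.f)

include hcyc hpf

/-- `p`-primary classes of `H²(Γ, C)` inflate to unramified classes. -/
theorem lc_top_mem_Tnr (z : H2 C) (hz : tt_IsPPrimary p z) : (lc_inf₂ π φ).hom z ∈ F.Tnr := by
  obtain ⟨hfin, hle⟩ := lc_pPrimary_bound_top p C hcyc
  exact lc_inf₂_mem_Tnr F hπ p (Nat.ordProj_dvd _ _) hpf hfin hle z hz

/-- `p`-primary classes of `H²(K, C)` inflate to unramified classes of the layer `π⁻¹(K)`. -/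
theorem lc_layer_mem_Tnr (K : Subgroup Γ) (z : H2 (res K.subtype C)) (hz : tt_IsPPrimary p z) :
    (lc_inf₂ (lc_piSub π K) (lc_phiSub π φ K)).hom z ∈ (F.layer π K).Tnr := by
  obtain ⟨hfin, hle⟩ := lc_pPrimary_bound p C hcyc K
  exact lc_inf₂_mem_Tnr (F.layer π K) (lc_isInfl_sub hπ K) p (Nat.ordProj_dvd _ _)
    (lc_layer_dvd F hπ p hpf K) hfin hle z hz

/-- The invariant of a layer is injective on `p`-primary classes. -/
theorem lc_invLayer_inj (K : Subgroup Γ) (z : H2 (res K.subtype C)) (hz : tt_IsPPrimary p z)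
    (h0 : lc_invLayer F π φ K z = 0) : z = 0 := by
  have hmem := lc_layer_mem_Tnr F hπ p hcyc hpf K z hz
  have h1 := (F.layer π K).inv_eq_zero hmem h0
  apply lc_inf₂_injective (lc_isInfl_sub hπ K) ((F.layer π K).h1_ker (lc_piSub π K))
  rw [h1, map_zero]

/-- Invariants and restriction. -/
theorem lc_invLayer_res_top (K : Subgroup Γ) (z : H2 C) (hz : tt_IsPPrimary p z) :
    lc_invLayer F π φ K ((map K.subtype (𝟙 (res K.subtype C)) 2).hom z) =
      K.index • lc_invLayer F π φ ⊤
        ((map (⊤ : Subgroup Γ).subtype (𝟙 (res (⊤ : Subgroup Γ).subtype C)) 2).hom z) := by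
  have hmem := lc_top_mem_Tnr F hπ p hcyc hpf z hz
  rw [lc_invLayer_res F hπ K z hmem, lc_invLayer_res F hπ ⊤ z hmem, Subgroup.index_top, one_smul]

omit hp [Finite Γ] hcyc in
/-- A `p`-primary class whose invariant has order `|Γ|_p`. -/
theorem lc_invLayer_gen :
    ∃ u : H2 C, tt_IsPPrimary p u ∧
      addOrderOf (lc_invLayer F π φ ⊤
        ((map (⊤ : Subgroup Γ).subtype (𝟙 (res (⊤ : Subgroup Γ).subtype C)) 2).hom u)) =
        ordProj[p] (Nat.card Γ) := by
  set d := ordProj[p] (Nat.card Γ) with hd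
  have hd0 : 0 < d := Nat.ordProj_pos _ _
  obtain ⟨z₁, hz₁⟩ := F.invQ_exists_gen
  obtain ⟨c, hc⟩ := hpf
  have hc0 : 0 < c := by
    rcases Nat.eq_zero_or_pos c with h | h
    · have := F.f_pos; rw [hc, h, mul_zero] at this; exact absurd this (lt_irrefl 0)
    · exact h
  -- the class `w = c • z₁` has invariant `1 / d`
  have hw : F.invQ (c • z₁) = cy_frac d 1 := by
    rw [F.invQ_nsmul_gen hz₁]
    have := cy_frac_eq_of_mul_eq F.f_pos hd0 (a := (c : ℤ)) (b := 1)
      (by rw [one_mul, hc]; push_cast; ring) 1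
    simpa using this
  have hw0 : d • (c • z₁) = 0 := by
    apply F.invQ_injective
    rw [map_nsmul, hw, map_zero, ← map_nsmul, cy_frac_eq_zero_iff hd0]
    simp
  obtain ⟨u, hu, hu0⟩ := lc_exists_of_torsion_unram F hπ (Nat.ordProj_dvd _ _) (c • z₁) hw0
  have hmem : (lc_inf₂ π φ).hom u ∈ F.Tnr := by rw [hu]; exact ⟨_, rfl⟩
  refine ⟨u, ⟨_, hu0⟩, ?_⟩
  rw [lc_invLayer_res F hπ ⊤ u hmem, Subgroup.index_top, one_smul, hu, F.inv_inf, hw]
  exact cy_addOrderOf_frac_one hd0

end assembly

/-! ### The `p`-class module -/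

section pclass

variable {G Γ : Type} [Group G] [Group Γ] [Finite G] [Finite Γ]
  {A : Rep ℤ G} (F : lc_Formation A)
  {π : G →* Γ} {C : Rep ℤ Γ} {φ : res π C ⟶ A} (hπ : lc_IsInfl π φ)
  (p : ℕ) [Fact p.Prime]

/-- **The `p`-class module attached to a valued formation.** -/
noncomputable def lc_pclass (hcyc : dv_CyclicLayers p C)
    (hC1 : ∀ K : Subgroup Γ, Subsingleton (groupCohomology (Rep.res K.subtype C) 1))
    (hpf : ordProj[p] (Nat.card Γ) ∣ F.f) : PClassModule p C where
  inv K := lc_invLayer F π φ K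
  h1 K _ _ := (hC1 K).elim _ _
  inv_inj K z hz h0 := lc_invLayer_inj F hπ p hcyc hpf K z hz h0
  inv_gen := lc_invLayer_gen F hπ p hpf
  inv_res K z hz := lc_invLayer_res_top F hπ p hcyc hpf K z hz

theorem lc_pclass_inv (hcyc : dv_CyclicLayers p C)
    (hC1 : ∀ K : Subgroup Γ, Subsingleton (groupCohomology (Rep.res K.subtype C) 1))
    (hpf : ordProj[p] (Nat.card Γ) ∣ F.f) (K : Subgroup Γ) :
    (lc_pclass F hπ p hcyc hC1 hpf).inv K = lc_invLayer F π φ K := rfl

end pclass

end Fermat.Agent.S55
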