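import Mathlib
import Fermat.Agent.S55.Tate.ClassModule
import Fermat.Agent.S55.FinGrp.H2Torsion
import Fermat.Agent.S55.Local.CyclicInv
import Fermat.Agent.S55.Recip.ConjTriv

/-!
# S55: formal consequences of the `PClassModule` axioms

For a `p`-class module `P` on the `Γ`-module `C` (`Γ` finite):

* every `p`-primary class of `H²(K, C)` (`K ≤ Γ`) is the restriction of a `p`-primary class of
  `H²(Γ, C)` (`lc_pcm_exists_res`);
* hence the invariant maps of all layers are determined, on `p`-primary classes, by the top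
  invariant (`lc_pcm_inv_eq_of_invTop_eq`);
* the invariants are invariant under conjugation (`lc_pcm_inv_conj`).
-/

set_option autoImplicit false

namespace Fermat.Agent.S55

open groupCohomology CategoryTheory Rep

/-! ### Torsion elements of `ℚ/ℤ` -/

/-- An element of `ℚ/ℤ` killed by `N` is of the form `c / N`. -/
theorem lc_qz_exists_frac {N : ℕ} (hN : 0 < N) (y : AddCircle (1 : ℚ)) (hy : N • y = 0) :
    ∃ c : ℤ, y = cy_frac N c := by
  obtain ⟨r, rfl⟩ := QuotientAddGroup.mk_surjective y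
  have h1 : ((N • r : ℚ) : AddCircle (1 : ℚ)) = 0 := hy
  rw [AddCircle.coe_eq_zero_iff] at h1
  obtain ⟨c, hc⟩ := h1
  refine ⟨c, ?_⟩
  rw [cy_frac_apply]
  have hN' : (N : ℚ) ≠ 0 := by exact_mod_cast hN.ne'
  have : r = (c : ℚ) * (N : ℚ)⁻¹ := by
    have h2 : (c : ℚ) = N * r := by
      rw [zsmul_eq_mul, mul_one, nsmul_eq_mul] at hc
      exact hc
    rw [h2]; field_simp
  rw [this]

/-- In `ℚ/ℤ`, an element of order `N` generates the `N`-torsion. -/
theorem lc_qz_mem_multiples {N : ℕ} (hN : 0 < N) {x y : AddCircle (1 : ℚ)}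
    (hx : addOrderOf x = N) (hy : N • y = 0) : ∃ n : ℕ, y = n • x := by
  have hx0 : N • x = 0 := by rw [← hx]; exact addOrderOf_nsmul_eq_zero x
  obtain ⟨m, rfl⟩ := lc_qz_exists_frac hN x hx0
  obtain ⟨c, rfl⟩ := lc_qz_exists_frac hN y hy
  -- `m` is prime to `N`
  have hcop : IsCoprime m (N : ℤ) := by
    rw [Int.isCoprime_iff_gcd_eq_one]
    by_contra hne
    set g := Int.gcd m N with hg
    have hg0 : 0 < g := Int.gcd_pos_of_ne_zero_right _ (by exact_mod_cast hN.ne')
    have hg1 : 1 < g := by omega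
    obtain ⟨m', hm'⟩ : (g : ℤ) ∣ m := Int.gcd_dvd_left m N
    obtain ⟨N', hN'⟩ : (g : ℤ) ∣ (N : ℤ) := Int.gcd_dvd_right m N
    have hN'pos : 0 < N' := by
      have h5 : (0 : ℤ) < g * N' := by rw [← hN']; exact_mod_cast hN
      have h6 : (0 : ℤ) < g := by exact_mod_cast hg0
      by_contra hcon
      have hcon : N' ≤ 0 := not_lt.1 hcon
      have h7 : (g : ℤ) * N' ≤ 0 := mul_nonpos_of_nonneg_of_nonpos h6.le hcon
      omega
    have hkill : N'.toNat • cy_frac N m = 0 := by
      rw [← map_nsmul, cy_frac_eq_zero_iff hN]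
      refine ⟨m', ?_⟩
      rw [nsmul_eq_mul, hm', hN']
      have : ((N'.toNat : ℕ) : ℤ) = N' := Int.toNat_of_nonneg hN'pos.le
      rw [this]; ring
    have hdvd : N ∣ N'.toNat := by rw [← hx]; exact addOrderOf_dvd_of_nsmul_eq_zero hkill
    have hle : N ≤ N'.toNat := Nat.le_of_dvd (by omega) hdvd
    have : (N : ℤ) ≤ N' := by
      have h2 : ((N'.toNat : ℕ) : ℤ) = N' := Int.toNat_of_nonneg hN'pos.le
      rw [← h2]; exact_mod_cast hle
    have h3 : (N : ℤ) = g * N' := hN'
    have hg1' : (2 : ℤ) ≤ g := by exact_mod_cast hg1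
    nlinarith
  obtain ⟨a, b, hab⟩ := hcop
  -- `y = (c a mod N) • x`
  refine ⟨((c * a) % (N : ℤ)).toNat, ?_⟩
  have hN0 : (N : ℤ) ≠ 0 := by exact_mod_cast hN.ne'
  have hnn : 0 ≤ (c * a) % (N : ℤ) := Int.emod_nonneg _ hN0
  rw [← map_nsmul, nsmul_eq_mul, Int.toNat_of_nonneg hnn, eq_comm, ← sub_eq_zero, ← map_sub,
    cy_frac_eq_zero_iff hN]
  have h4 : (c * a) % (N : ℤ) = c * a - N * ((c * a) / N) := by
    have := Int.emod_add_mul_ediv (c * a) N
    linarith
  refine ⟨-((c * a) / N) * m - c * b, ?_⟩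
  rw [h4]
  linear_combination c * hab

variable {Γ : Type} [Group Γ] {p : ℕ} {C : Rep.{0} ℤ Γ}

/-! ### Restriction is surjective on `p`-primary classes -/

section surj

variable [Finite Γ] [hp : Fact p.Prime]

/-- A `p`-primary class of `H²(K, C)` is killed by `|K|_p`. -/
theorem lc_pcm_torsion (K : Subgroup Γ) (z : groupCohomology (tt_res K C) 2)
    (hz : tt_IsPPrimary p z) : ordProj[p] (Nat.card K) • z = 0 := by
  obtain ⟨k, hk⟩ := hz
  have h1 : Nat.card K • z = 0 := h2_card_smul_eq_zero (tt_res K C) z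
  have hd1 : addOrderOf z ∣ p ^ k := addOrderOf_dvd_of_nsmul_eq_zero hk
  have hd2 : addOrderOf z ∣ Nat.card K := addOrderOf_dvd_of_nsmul_eq_zero h1
  obtain ⟨j, _, hj⟩ := (Nat.dvd_prime_pow hp.out).1 hd1
  have hK0 : Nat.card K ≠ 0 := Nat.card_pos.ne'
  have h3 : addOrderOf z ∣ ordProj[p] (Nat.card K) := by
    rw [hj] at hd2 ⊢
    exact pow_dvd_pow p ((hp.out.pow_dvd_iff_le_factorization hK0).1 hd2)
  exact addOrderOf_dvd_iff_nsmul_eq_zero.1 h3

/-- The order of the invariant of the restriction of the fundamental class. -/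
theorem lc_pcm_order_res (K : Subgroup Γ) {x : tt_QZ}
    (hx : addOrderOf x = ordProj[p] (Nat.card Γ)) :
    addOrderOf (K.index • x) = ordProj[p] (Nat.card K) := by
  have hΓ0 : Nat.card Γ ≠ 0 := Nat.card_pos.ne'
  have hK0 : Nat.card K ≠ 0 := Nat.card_pos.ne'
  have hi0 : K.index ≠ 0 := Subgroup.FiniteIndex.index_ne_zero
  have hmul : Nat.card K * K.index = Nat.card Γ := K.card_mul_index
  have hfac : (Nat.card Γ).factorization p =
      (Nat.card K).factorization p + K.index.factorization p := by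
    rw [← hmul, Nat.factorization_mul hK0 hi0]; rfl
  have hfin : IsOfFinAddOrder x := by
    rw [← addOrderOf_pos_iff, hx]; exact Nat.ordProj_pos _ _
  rw [hfin.addOrderOf_nsmul, hx]
  -- `gcd (p^a) index = p^(v_p index)`
  have hg : Nat.gcd (p ^ (Nat.card Γ).factorization p) K.index = p ^ K.index.factorization p := by
    apply Nat.dvd_antisymm
    · obtain ⟨j, hj, hj'⟩ := (Nat.dvd_prime_pow hp.out).1
        (Nat.gcd_dvd_left (p ^ (Nat.card Γ).factorization p) K.index)
      rw [hj']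
      apply pow_dvd_pow
      have : p ^ j ∣ K.index := hj' ▸ Nat.gcd_dvd_right _ _
      exact (hp.out.pow_dvd_iff_le_factorization hi0).1 this
    · apply Nat.dvd_gcd
      · apply pow_dvd_pow; omega
      · exact Nat.ordProj_dvd _ _
  rw [hg, hfac, pow_add, Nat.mul_div_cancel _ (pow_pos hp.out.pos _)]

/-- **Restriction is surjective on `p`-primary classes.** -/
theorem lc_pcm_exists_res (P : PClassModule p C) (K : Subgroup Γ) (z : groupCohomology (tt_res K C) 2)
    (hz : tt_IsPPrimary p z) :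
    ∃ z₀ : groupCohomology C 2, tt_IsPPrimary p z₀ ∧ (tt_resMap K C 2).hom z₀ = z := by
  obtain ⟨u, hu, hord⟩ := P.inv_gen
  have hres : P.inv K ((tt_resMap K C 2).hom u) =
      K.index • P.inv ⊤ ((tt_resMap ⊤ C 2).hom u) := P.inv_res K u hu
  have hord' := lc_pcm_order_res K hord
  rw [← hres] at hord'
  have hN : 0 < ordProj[p] (Nat.card K) := Nat.ordProj_pos _ _
  have hkill : ordProj[p] (Nat.card K) • P.inv K z = 0 := by
    rw [← map_nsmul, lc_pcm_torsion K z hz, map_zero]
  obtain ⟨n, hn⟩ := lc_qz_mem_multiples hN hord' hkill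
  refine ⟨n • u, tt_isPPrimary_nsmul n hu, ?_⟩
  rw [map_nsmul]
  have hdiff : tt_IsPPrimary p (n • (tt_resMap K C 2).hom u - z) := by
    have h1 : tt_IsPPrimary p (n • (tt_resMap K C 2).hom u) :=
      tt_isPPrimary_nsmul n (tt_isPPrimary_map (tt_resMap K C 2).hom.toAddMonoidHom hu)
    obtain ⟨a, ha⟩ := h1
    obtain ⟨b, hb⟩ := hz
    refine ⟨a + b, ?_⟩
    rw [smul_sub, pow_add, mul_smul, smul_comm (p ^ a) (p ^ b), ha, mul_smul, hb, smul_zero,
      smul_zero, sub_zero]
  have h0 := P.inv_inj K _ hdiff (by rw [map_sub, map_nsmul, ← hn, sub_self])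
  exact sub_eq_zero.1 h0

/-- The invariants of all layers are determined by the top invariant on `p`-primary classes. -/
theorem lc_pcm_inv_eq_of_invTop_eq (P P' : PClassModule p C)
    (h : ∀ z : groupCohomology C 2, tt_IsPPrimary p z → P.invTop z = P'.invTop z)
    (K : Subgroup Γ) (z : groupCohomology (tt_res K C) 2) (hz : tt_IsPPrimary p z) :
    P.inv K z = P'.inv K z := by
  obtain ⟨z₀, hz₀, rfl⟩ := lc_pcm_exists_res P K z hz
  rw [P.inv_resMap K z₀ hz₀, P'.inv_resMap K z₀ hz₀, h z₀ hz₀]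

/-- **Conjugation invariance** of the invariants of a `p`-class module. -/
theorem lc_pcm_inv_conj (P : PClassModule p C) (S S' : Subgroup Γ) (h : Γ) (hSS' : ∀ s ∈ S', h⁻¹ * s * h ∈ S)
    (hS'S : ∀ s ∈ S, h * s * h⁻¹ ∈ S')
    (z : groupCohomology (tt_res S C) 2) (hz : tt_IsPPrimary p z) :
    P.inv S' ((ct_conjMap C S S' h hSS' 2).hom z) = P.inv S z := by
  obtain ⟨z₀, hz₀, rfl⟩ := lc_pcm_exists_res P S z hz
  have h1 := ct_res_comp_conj₂ C S S' h hSS'
  have h2 : (ct_conjMap C S S' h hSS' 2).hom ((tt_resMap S C 2).hom z₀) =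
      (tt_resMap S' C 2).hom z₀ := by
    have := congrArg (fun g => g.hom z₀) h1
    simpa using this
  rw [h2, P.inv_resMap S' z₀ hz₀, P.inv_resMap S z₀ hz₀]
  congr 1
  -- conjugate subgroups have the same index
  have hmap : S' = S.map (MulAut.conj h).toMonoidHom := by
    ext s
    constructor
    · intro hs
      refine ⟨h⁻¹ * s * h, hSS' s hs, ?_⟩
      simp [MulAut.conj_apply]
      group
    · rintro ⟨t, ht, rfl⟩
      simpa [MulAut.conj_apply] using hS'S t ht
  rw [hmap]
  exact Subgroup.index_map_equiv S (MulAut.conj h)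

end surj

end Fermat.Agent.S55
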