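import Mathlib
import Fermat.Agent.S55.LocalCF.PClass
import Fermat.Agent.S55.LocalCF.Morphism
import Fermat.Agent.S55.LocalCF.PClassGeneric

/-!
# S55 / local class formation: compatibilities of the `p`-class modules `lc_pclass`

* `lc_pclass_invTop`: the top invariant of `lc_pclass` is `F.inv ∘ inf` on `p`-primary classes;
* `lc_pclass_invTop_map`: two `lc_pclass`es (at levels `Γ₁ → Γ`) built from formations related by
  a morphism of multiplier one have compatible top invariants.  This contains both the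
  independence of the auxiliary formation (`Γ₁ = Γ`) and the inflation compatibility;
* `lc_pcm_inv_infl`: compatibility on the top layer implies compatibility on all layers.
-/

set_option autoImplicit false

namespace Fermat.Agent.S55

open groupCohomology CategoryTheory Rep

/-! ### Generic: inflation compatibility on all layers from the top layer -/

section generic

variable {Γ Γ₁ : Type} [Group Γ] [Group Γ₁] [Finite Γ] [Finite Γ₁] {p : ℕ} [Fact p.Prime]
  {C : Rep.{0} ℤ Γ} {C₁ : Rep.{0} ℤ Γ₁}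

omit [Finite Γ₁] in
/-- If two `p`-class modules are compatible with inflation along `(π₀, φ₀)` on the top layer,
they are compatible on every layer. -/
theorem lc_pcm_inv_infl (P : PClassModule p C) (P₁ : PClassModule p C₁)
    (π₀ : Γ₁ →* Γ) (hπ₀ : Function.Surjective π₀) (φ₀ : res π₀ C ⟶ C₁)
    (h : ∀ z : H2 C, tt_IsPPrimary p z → P₁.invTop ((map π₀ φ₀ 2).hom z) = P.invTop z)
    (K : Subgroup Γ) (z : H2 (res K.subtype C)) (hz : tt_IsPPrimary p z) :
    P₁.inv (K.comap π₀) ((lc_inf₂ (lc_piSub π₀ K) (lc_phiSub π₀ φ₀ K)).hom z) = P.inv K z := by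
  obtain ⟨z₀, hz₀, rfl⟩ := lc_pcm_exists_res P K z hz
  have h1 := lc_inf₂_res_apply π₀ φ₀ K z₀
  have hz₁ : tt_IsPPrimary p ((map π₀ φ₀ 2).hom z₀) :=
    tt_isPPrimary_map (map π₀ φ₀ 2).hom.toAddMonoidHom hz₀
  have h2 := P₁.inv_resMap (K.comap π₀) _ hz₁
  have h3 := P.inv_resMap K z₀ hz₀
  rw [h3, ← h z₀ hz₀, ← Subgroup.index_comap_of_surjective K hπ₀, ← h2]
  exact congrArg _ h1

end generic

/-! ### The top invariant of `lc_pclass` -/

section top

variable {G Γ : Type} [Group G] [Group Γ] [Finite G] [Finite Γ]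
  {A : Rep ℤ G} (F : lc_Formation A)
  {π : G →* Γ} {C : Rep ℤ Γ} {φ : res π C ⟶ A} (hπ : lc_IsInfl π φ)
  (p : ℕ) [Fact p.Prime]

theorem lc_pclass_invTop (hcyc : dv_CyclicLayers p C)
    (hC1 : ∀ K : Subgroup Γ, Subsingleton (groupCohomology (Rep.res K.subtype C) 1))
    (hpf : ordProj[p] (Nat.card Γ) ∣ F.f) (z : H2 C) (hz : tt_IsPPrimary p z) :
    (lc_pclass F hπ p hcyc hC1 hpf).invTop z = F.inv ((lc_inf₂ π φ).hom z) := by
  have hmem := lc_top_mem_Tnr F hπ p hcyc hpf z hz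
  rw [PClassModule.invTop_apply, lc_pclass_inv]
  have := lc_invLayer_res F hπ ⊤ z hmem
  rw [Subgroup.index_top, one_smul] at this
  exact this

end top

/-! ### Morphisms of formations and the top invariant -/

section compat

variable {G Γ : Type} [Group G] [Group Γ] [Finite G] [Finite Γ]
  {A : Rep ℤ G} (F : lc_Formation A)
  {π : G →* Γ} {C : Rep ℤ Γ} {φ : res π C ⟶ A} (hπ : lc_IsInfl π φ)
  {G₁ Γ₁ : Type} [Group G₁] [Group Γ₁] [Finite G₁] [Finite Γ₁]
  {A₁ : Rep ℤ G₁} (F₁ : lc_Formation A₁)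
  {π₁ : G₁ →* Γ₁} {C₁ : Rep ℤ Γ₁} {φ₁ : res π₁ C₁ ⟶ A₁} (hπ₁ : lc_IsInfl π₁ φ₁)
  (p : ℕ) [Fact p.Prime]

/-- **Inflation compatibility / independence of the auxiliary formation.**
Given a commutative square `π ∘ ρ = π₀ ∘ π₁` of groups, the corresponding square of modules, and
`(ρ, ψ)` a morphism of formations `F → F₁` of multiplier one, the top invariants of the two
`p`-class modules are compatible with `map π₀ φ₀ 2` on `p`-primary classes. -/
theorem lc_pclass_invTop_map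
    (hcyc : dv_CyclicLayers p C)
    (hC1 : ∀ K : Subgroup Γ, Subsingleton (groupCohomology (Rep.res K.subtype C) 1))
    (hpf : ordProj[p] (Nat.card Γ) ∣ F.f)
    (hcyc₁ : dv_CyclicLayers p C₁)
    (hC1₁ : ∀ K : Subgroup Γ₁, Subsingleton (groupCohomology (Rep.res K.subtype C₁) 1))
    (hpf₁ : ordProj[p] (Nat.card Γ₁) ∣ F₁.f)
    (π₀ : Γ₁ →* Γ) (φ₀ : res π₀ C ⟶ C₁) (ρ : G₁ →* G) (ψ : res ρ A ⟶ A₁)
    (hG : π.comp ρ = π₀.comp π₁)
    (hM : ∀ c : C.V, ψ.hom (φ.hom c) = φ₁.hom (φ₀.hom c))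
    (hI : F₁.I ≤ F.I.comap ρ) (hd : ((ρ F₁.frob : G) : G ⧸ F.I) = F.σ) {c : ℤ}
    (hc : ∀ a : A.V, F₁.v (ψ.hom a) = c * F.v a) (he : (F₁.e : ℤ) = c * (F.e : ℤ))
    (z : H2 C) (hz : tt_IsPPrimary p z) :
    (lc_pclass F₁ hπ₁ p hcyc₁ hC1₁ hpf₁).invTop ((map π₀ φ₀ 2).hom z) =
      (lc_pclass F hπ p hcyc hC1 hpf).invTop z := by
  have hz₁ : tt_IsPPrimary p ((map π₀ φ₀ 2).hom z) :=
    tt_isPPrimary_map (map π₀ φ₀ 2).hom.toAddMonoidHom hz
  rw [lc_pclass_invTop F₁ hπ₁ p hcyc₁ hC1₁ hpf₁ _ hz₁, lc_pclass_invTop F hπ p hcyc hC1 hpf z hz]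
  have hmem := lc_top_mem_Tnr F hπ p hcyc hpf z hz
  rw [← F.inv_map_one F₁ ρ ψ hI hd hc he hmem]
  congr 1
  -- the two composites `H²(Γ, C) → H²(G₁, A₁)` agree
  have hsq : map π₀ φ₀ 2 ≫ lc_inf₂ π₁ φ₁ = lc_inf₂ π φ ≫ map ρ ψ 2 := by
    rw [← map_comp, ← map_comp]
    refine map_congr hG.symm ?_ 2
    exact DFunLike.ext _ _ (fun c => (hM c).symm)
  have := congrArg (fun g => g.hom z) hsq
  simpa using this

end compat

end Fermat.Agent.S55
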