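/-
S55 / [L1] (helper23): the cyclic layers of `Ωˣ` for a finite Galois extension `Ω/ℚ_q`, and the
second inequality for `p`-subgroups: for every `p`-subgroup `H ≤ Gal(Ω/ℚ_q)`,
`H¹(H, Ωˣ) = 0` and `|H²(H, Ωˣ)|` divides `|H|`.
Glue of: field dictionary (`fdi_`), local norm index `lf_norm_index` (T1), the abstract valuation
`lq_valOf` / `lq_isLocalOf` (LQ0) and the devissage over `p`-groups (`dv_`).  Prefix `fdq_`.
-/
import Mathlib
import Fermat.Agent.S55.LocalCF.FieldDictC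
import Fermat.Agent.S55.Local.Main
import Fermat.Agent.S55.LocalQ.IsLocal

set_option autoImplicit false
set_option linter.unusedSectionVars false

noncomputable section

namespace Fermat.Agent.S55

open CategoryTheory groupCohomology

variable {q : ℕ} [Fact q.Prime]

variable {Ω : Type} [Field Ω] [Algebra ℚ_[q] Ω] [FiniteDimensional ℚ_[q] Ω] [IsGalois ℚ_[q] Ω]

/-- **Local norm index for the layers of `Ω/ℚ_q`**: a Galois layer `F'/E'` of prime degree `p`
has `[E'ˣ : N F'ˣ] = p`. -/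
theorem fdq_layer_normIndex (p : ℕ) [hp : Fact p.Prime] (H : Subgroup (Ω ≃ₐ[ℚ_[q]] Ω))
    (N : Subgroup ↥H) [N.Normal] (hN : N.index = p) :
    (fdi_normGroup (fdi_layerBase H) (fdi_layerTop H N)).index = p := by
  have hcard : Nat.card (↥H ⧸ N) = p := by rw [← Subgroup.index_eq_card, hN]
  have hcyc : IsCyclic (↥H ⧸ N) := isCyclic_of_prime_card hcard
  obtain ⟨g, hg⟩ := hcyc.exists_generator
  have hloc : lf_IsLocal (fdi_layerBase H) (fdi_layerTop H N)
      (lq_valOf (q := q) (fdi_layerTop H N)) :=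
    lq_isLocalOf (q := q) (fdi_layerTop H N) (fdi_layerBase H)
  have h := lf_norm_index hloc (fdi_layerEquiv H N g) (fun τ => by
    obtain ⟨x, rfl⟩ := (fdi_layerEquiv H N).surjective τ
    obtain ⟨k, rfl⟩ := Subgroup.mem_zpowers_iff.1 (hg x)
    exact ⟨k, (map_zpow (fdi_layerEquiv H N) g k).symm⟩)
  rw [fdi_finrank_layer, hN] at h
  exact h

/-- The cyclic-layer hypothesis of the devissage holds for `Ωˣ`, `Ω/ℚ_q` finite Galois. -/
theorem fdq_cyclicLayers (p : ℕ) [Fact p.Prime] :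
    dv_CyclicLayers p (Rep.ofAlgebraAutOnUnits ℚ_[q] Ω) :=
  fdi_cyclicLayers p (fun H N _ hN => (fdq_layer_normIndex p H N hN).dvd)

/-- **Second inequality for `p`-subgroups**: `|H²(H, Ωˣ)|` divides `|H|`. -/
theorem fdq_pgroup_H2 (p : ℕ) [Fact p.Prime] (H : Subgroup (Ω ≃ₐ[ℚ_[q]] Ω))
    (hH : IsPGroup p H) :
    Finite (H2 (Rep.res H.subtype (Rep.ofAlgebraAutOnUnits ℚ_[q] Ω))) ∧
      Nat.card (H2 (Rep.res H.subtype (Rep.ofAlgebraAutOnUnits ℚ_[q] Ω))) ∣ Nat.card H :=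
  dv_pgroup_H2' p (Rep.ofAlgebraAutOnUnits ℚ_[q] Ω) (fdq_cyclicLayers p) H hH

end Fermat.Agent.S55
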