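/-
S55 / [L1] field dictionary, part A (helper23): subgroups of a Galois group versus base change.
For `Ω/K` finite Galois, `Γ = Gal(Ω/K)`, `H ≤ Γ`, `E = Ω^H`: the `H`-module `Ωˣ` (restricted
from `Γ`) is the `Gal(Ω/E)`-module `Ωˣ`; consequently Hilbert 90 holds for every subgroup.
Field-generic, Mathlib only (plus the `dv_` transport file), no valuations.  Prefix `fdi_`.
-/
import Mathlib
import Fermat.Agent.S55.Devissage.Transport

set_option autoImplicit false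

noncomputable section

namespace Fermat.Agent.S55

open CategoryTheory groupCohomology

variable {K Ω : Type} [Field K] [Field Ω] [Algebra K Ω] [FiniteDimensional K Ω]

/-- A subgroup `H` of `Gal(Ω/K)` is the Galois group of `Ω` over its fixed field. -/
def fdi_subEquiv (H : Subgroup (Ω ≃ₐ[K] Ω)) :
    ↥H ≃* (Ω ≃ₐ[↥(IntermediateField.fixedField H)] Ω) :=
  IntermediateField.subgroupEquivAlgEquiv H

theorem fdi_subEquiv_apply (H : Subgroup (Ω ≃ₐ[K] Ω)) (h : H) (x : Ω) :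
    fdi_subEquiv H h x = (h : Ω ≃ₐ[K] Ω) x := rfl

theorem fdi_subEquiv_symm_apply (H : Subgroup (Ω ≃ₐ[K] Ω))
    (σ : Ω ≃ₐ[↥(IntermediateField.fixedField H)] Ω) (x : Ω) :
    (((fdi_subEquiv H).symm σ : H) : Ω ≃ₐ[K] Ω) x = σ x := rfl

omit [FiniteDimensional K Ω] in
/-- The action of `Gal(Ω/K)` on `Additive Ωˣ`, explicit formula. -/
theorem fdi_ρ_apply (σ : Ω ≃ₐ[K] Ω) (x : Additive Ωˣ) :
    ((Rep.ofAlgebraAutOnUnits K Ω).ρ σ x) = Additive.ofMul (Units.map (σ : Ω →* Ω) x.toMul) :=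
  rfl

/-- The identity of `Additive Ωˣ` as a morphism from the `Gal(Ω/E)`-module (restricted to `H`
along `fdi_subEquiv`) to the `Gal(Ω/K)`-module restricted to `H`. -/
def fdi_subHom (H : Subgroup (Ω ≃ₐ[K] Ω)) :
    Rep.res ((fdi_subEquiv H : ↥H →* (Ω ≃ₐ[↥(IntermediateField.fixedField H)] Ω)))
        (Rep.ofAlgebraAutOnUnits ↥(IntermediateField.fixedField H) Ω) ⟶
      Rep.res H.subtype (Rep.ofAlgebraAutOnUnits K Ω) :=
  Rep.ofHom ⟨LinearMap.id, fun _ => rfl⟩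

/-- and back. -/
def fdi_subHomInv (H : Subgroup (Ω ≃ₐ[K] Ω)) :
    Rep.res H.subtype (Rep.ofAlgebraAutOnUnits K Ω) ⟶
      Rep.res ((fdi_subEquiv H : ↥H →* (Ω ≃ₐ[↥(IntermediateField.fixedField H)] Ω)))
        (Rep.ofAlgebraAutOnUnits ↥(IntermediateField.fixedField H) Ω) :=
  Rep.ofHom ⟨LinearMap.id, fun _ => rfl⟩

@[simp] theorem fdi_subHom_apply (H : Subgroup (Ω ≃ₐ[K] Ω)) (x : Additive Ωˣ) :
    (fdi_subHom H).hom x = x := rfl

@[simp] theorem fdi_subHomInv_apply (H : Subgroup (Ω ≃ₐ[K] Ω)) (x : Additive Ωˣ) :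
    (fdi_subHomInv H).hom x = x := rfl

/-- The isomorphism of `H`-modules. -/
def fdi_subRepIso (H : Subgroup (Ω ≃ₐ[K] Ω)) :
    Rep.res ((fdi_subEquiv H : ↥H →* (Ω ≃ₐ[↥(IntermediateField.fixedField H)] Ω)))
        (Rep.ofAlgebraAutOnUnits ↥(IntermediateField.fixedField H) Ω) ≅
      Rep.res H.subtype (Rep.ofAlgebraAutOnUnits K Ω) where
  hom := fdi_subHom H
  inv := fdi_subHomInv H
  hom_inv_id := by ext x; rfl
  inv_hom_id := by ext x; rfl

/-- **Part A.** Cohomology of `H ≤ Gal(Ω/K)` with values in `Ωˣ` is the Galois cohomology of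
`Ω` over the fixed field of `H`. -/
def fdi_resIso (H : Subgroup (Ω ≃ₐ[K] Ω)) (n : ℕ) :
    groupCohomology (Rep.ofAlgebraAutOnUnits ↥(IntermediateField.fixedField H) Ω) n ≅
      groupCohomology (Rep.res H.subtype (Rep.ofAlgebraAutOnUnits K Ω)) n :=
  (groupCohomology.mapIso (A := Rep.ofAlgebraAutOnUnits ↥(IntermediateField.fixedField H) Ω)
    (B := Rep.res H.subtype (Rep.ofAlgebraAutOnUnits K Ω)) (fdi_subEquiv H)
    (LinearEquiv.refl ℤ (Additive Ωˣ)) (fun _ => rfl) n).symm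

theorem fdi_resIso_hom (H : Subgroup (Ω ≃ₐ[K] Ω)) (n : ℕ) :
    (fdi_resIso H n).hom =
      map ((fdi_subEquiv H : ↥H →* (Ω ≃ₐ[↥(IntermediateField.fixedField H)] Ω)))
        (fdi_subHom H) n := by
  exact map_congr rfl rfl n

/-- **Hilbert 90 for every subgroup** of a finite Galois group. -/
theorem fdi_H1_subsingleton (H : Subgroup (Ω ≃ₐ[K] Ω)) :
    Subsingleton (H1 (Rep.res H.subtype (Rep.ofAlgebraAutOnUnits K Ω))) :=
  (fdi_resIso H 1).toLinearEquiv.toEquiv.subsingleton_congr.mp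
    (Unique.instSubsingleton (α := H1 (Rep.ofAlgebraAutOnUnits
      ↥(IntermediateField.fixedField H) Ω)))

end Fermat.Agent.S55
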