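import Fermat.Agent.S55.LocalCF.FormationOfSubgroups
import Fermat.Agent.S55.LocalCF.FieldDictA
import Fermat.Agent.S55.LocalQ.Final
import Fermat.Agent.S55.LocalQ.UnramNorm

/-!
# S55 / local class formation, leaf L1-b: the valued formation of a local field

For `L : LqField q` finite Galois over `ℚ_[q]`: `lq_formationOfNorm L hN : lc_Formation
(Rep.ofAlgebraAutOnUnits ℚ_[q] L)` with inertia `lq_inertia L`, Frobenius from `lq_exists_frob ⊤`
and valuation `lq_ordZ L`, obtained from `lc_Formation.ofSubgroups`.  The only non-formal input is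
`hN : lq_UnramNorm L`: units of a layer are norms from its maximal unramified subextension (in
Frobenius form), which is the statement of `lq_unram_norm` (helper24, from `lf_inertia_norm`).
-/

set_option autoImplicit false
set_option linter.unusedSectionVars false

open scoped Valued NormedField NNReal

namespace Fermat.Agent.S55

variable {q : ℕ} [Fact q.Prime]

noncomputable section

variable (L : LqField q) [FiniteDimensional ℚ_[q] L]

/-- Units of a layer are norms from its maximal unramified subextension, multiplicative form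
(the statement of `lq_unram_norm`). -/
def lq_UnramNorm : Prop :=
  ∀ (S : Subgroup (L ≃ₐ[ℚ_[q]] L)) (φ : L ≃ₐ[ℚ_[q]] L), φ ∈ S →
    (∀ s ∈ S, ∃ k : ℕ, s⁻¹ * φ ^ k ∈ lq_inertia L) →
    ∀ a : L, (∀ s ∈ S, s a = a) → ‖a‖ = 1 →
    ∃ b : L, ‖b‖ = 1 ∧ (∀ s ∈ lq_inertia L ⊓ S, s b = b) ∧
      ∏ i ∈ Finset.range ((lq_inertia L).relIndex S), (φ ^ i) b = a

/-- The underlying field element of a vector of `Rep.ofAlgebraAutOnUnits ℚ_[q] L`. -/
def lq_elt (x : (Rep.ofAlgebraAutOnUnits ℚ_[q] L).V) : L :=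
  ((Additive.toMul (show Additive Lˣ from x) : Lˣ) : L)

/-- The vector of `Rep.ofAlgebraAutOnUnits ℚ_[q] L` of a nonzero field element. -/
def lq_vec (x : L) (hx : x ≠ 0) : (Rep.ofAlgebraAutOnUnits ℚ_[q] L).V :=
  (show (Rep.ofAlgebraAutOnUnits ℚ_[q] L).V from Additive.ofMul (Units.mk0 x hx))

theorem lq_elt_ne_zero (x : (Rep.ofAlgebraAutOnUnits ℚ_[q] L).V) : lq_elt L x ≠ 0 :=
  (Additive.toMul (show Additive Lˣ from x)).ne_zero

@[simp] theorem lq_elt_vec (x : L) (hx : x ≠ 0) : lq_elt L (lq_vec L x hx) = x := rfl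

theorem lq_elt_injective : Function.Injective (lq_elt L) := by
  intro x y h
  have h1 : (Additive.toMul (show Additive Lˣ from x) : Lˣ)
      = (Additive.toMul (show Additive Lˣ from y) : Lˣ) := Units.ext h
  exact Additive.toMul.injective h1

@[simp] theorem lq_elt_zero : lq_elt L 0 = 1 := rfl

@[simp] theorem lq_elt_add (x y : (Rep.ofAlgebraAutOnUnits ℚ_[q] L).V) :
    lq_elt L (x + y) = lq_elt L x * lq_elt L y := rfl

@[simp] theorem lq_elt_ρ (σ : L ≃ₐ[ℚ_[q]] L) (x : (Rep.ofAlgebraAutOnUnits ℚ_[q] L).V) :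
    lq_elt L ((Rep.ofAlgebraAutOnUnits ℚ_[q] L).ρ σ x) = σ (lq_elt L x) := rfl

theorem lq_ρ_eq_iff (σ : L ≃ₐ[ℚ_[q]] L) (x : (Rep.ofAlgebraAutOnUnits ℚ_[q] L).V) :
    (Rep.ofAlgebraAutOnUnits ℚ_[q] L).ρ σ x = x ↔ σ (lq_elt L x) = lq_elt L x := by
  constructor
  · intro h
    rw [← lq_elt_ρ, h]
  · intro h
    apply lq_elt_injective L
    rw [lq_elt_ρ, h]

theorem lq_elt_sum (n : ℕ) (f : ℕ → (Rep.ofAlgebraAutOnUnits ℚ_[q] L).V) :
    lq_elt L (∑ i ∈ Finset.range n, f i) = ∏ i ∈ Finset.range n, lq_elt L (f i) := by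
  induction n with
  | zero => rw [Finset.range_zero, Finset.sum_empty, Finset.prod_empty, lq_elt_zero]
  | succ n ih => rw [Finset.sum_range_succ, Finset.prod_range_succ, lq_elt_add, ih]

/-- The normalised valuation on the vectors of `Rep.ofAlgebraAutOnUnits ℚ_[q] L`. -/
def lq_vAdd : (Rep.ofAlgebraAutOnUnits ℚ_[q] L).V →+ ℤ where
  toFun x := lq_ordZ L (lq_elt L x)
  map_zero' := lq_ordZ_one L
  map_add' x y := lq_ordZ_mul L (lq_elt_ne_zero L x) (lq_elt_ne_zero L y)

theorem lq_vAdd_apply (x : (Rep.ofAlgebraAutOnUnits ℚ_[q] L).V) :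
    lq_vAdd L x = lq_ordZ L (lq_elt L x) := rfl

/-- **The valued formation of a local field** (given `lq_UnramNorm L`). -/
def lq_formationOfNorm (hN : lq_UnramNorm L) :
    lc_Formation (Rep.ofAlgebraAutOnUnits ℚ_[q] L) :=
  lc_Formation.ofSubgroups (Rep.ofAlgebraAutOnUnits ℚ_[q] L) (lq_inertia L)
    (lq_exists_frob (⊤ : Subgroup (L ≃ₐ[ℚ_[q]] L))).choose
    (fun g => (lq_exists_frob (⊤ : Subgroup (L ≃ₐ[ℚ_[q]] L))).choose_spec.2.2 g
      (Subgroup.mem_top g))
    (lq_vAdd L)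
    (fun g a => by
      rw [lq_vAdd_apply, lq_vAdd_apply, lq_elt_ρ]
      exact lq_ordZ_aut L g _)
    (fun S a ha => by
      rw [lq_vAdd_apply]
      exact lq_ordZ_fixed_dvd S _ (lq_elt_ne_zero L a)
        fun σ hσ => (lq_ρ_eq_iff L σ a).mp (ha σ hσ))
    (fun S => by
      obtain ⟨x, hx0, hxfix, hxord⟩ := lq_exists_fixed_ordZ S
      refine ⟨lq_vec L x hx0, fun s hs => ?_, ?_⟩
      · rw [lq_ρ_eq_iff, lq_elt_vec]
        exact hxfix s hs
      · rw [lq_vAdd_apply, lq_elt_vec]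
        exact hxord)
    (fun S φ hφ hgen a ha hva => by
      have hnorm1 : ‖lq_elt L a‖ = 1 :=
        (lq_ordZ_eq_zero_iff L (lq_elt_ne_zero L a)).mp hva
      obtain ⟨b, hb1, hbfix, hbprod⟩ := hN S φ hφ hgen _
        (fun s hs => (lq_ρ_eq_iff L s a).mp (ha s hs)) hnorm1
      have hb0 : b ≠ 0 := by
        rintro rfl
        simp at hb1
      refine ⟨lq_vec L b hb0, fun s hs => ?_, ?_⟩
      · rw [lq_ρ_eq_iff, lq_elt_vec]
        exact hbfix s hs
      · apply lq_elt_injective L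
        rw [lq_elt_sum, ← hbprod]
        refine Finset.prod_congr rfl fun i _ => ?_
        rw [lq_elt_ρ, lq_elt_vec])
    (fun S => fdi_H1_subsingleton S)

@[simp] theorem lq_formationOfNorm_I (hN : lq_UnramNorm L) :
    (lq_formationOfNorm L hN).I = lq_inertia L := rfl

@[simp] theorem lq_formationOfNorm_v (hN : lq_UnramNorm L)
    (x : (Rep.ofAlgebraAutOnUnits ℚ_[q] L).V) :
    (lq_formationOfNorm L hN).v x = lq_ordZ L (lq_elt L x) := rfl

theorem lq_formationOfNorm_v_ofMul (hN : lq_UnramNorm L) (u : Lˣ) :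
    (lq_formationOfNorm L hN).v (Additive.ofMul u) = lq_ordZ L (u : L) := rfl

/-- `lq_UnramNorm L` holds (`lq_unram_norm`, helper24). -/
theorem lq_unramNorm_holds : lq_UnramNorm L :=
  fun S φ hφ hgen a ha hn => lq_unram_norm S φ hφ hgen a ha hn

/-- **The valued formation of a local field**: inertia `lq_inertia L`, Frobenius from
`lq_exists_frob ⊤`, valuation `lq_ordZ L`. -/
def lq_formation : lc_Formation (Rep.ofAlgebraAutOnUnits ℚ_[q] L) :=
  lq_formationOfNorm L (lq_unramNorm_holds L)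

@[simp] theorem lq_formation_I : (lq_formation L).I = lq_inertia L := rfl

@[simp] theorem lq_formation_v (x : (Rep.ofAlgebraAutOnUnits ℚ_[q] L).V) :
    (lq_formation L).v x = lq_ordZ L (lq_elt L x) := rfl

theorem lq_formation_v_ofMul (u : Lˣ) :
    (lq_formation L).v (Additive.ofMul u) = lq_ordZ L (u : L) := rfl

theorem lq_formation_f : (lq_formation L).f = (lq_inertia L).index := rfl

end

end Fermat.Agent.S55
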