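/-
S55 / [L1] field dictionary, part E (helper23): field-level inflation and restriction maps on
`Hⁿ(Gal(L/K), Lˣ)` for towers `E → F → Ω` of fields (types with algebra structures), and
inflation–restriction in degree 2:  `0 → H²(Gal(F/E), Fˣ) → H²(Gal(Ω/E), Ωˣ) → H²(Gal(Ω/F), Ωˣ)`.
Field-generic, no valuations.  Prefix `fdi_`.
-/
import Mathlib
import Fermat.Agent.S55.LocalCF.InfPi
import Fermat.Agent.S55.LocalCF.FieldDictA

set_option autoImplicit false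
set_option linter.unusedSectionVars false

noncomputable section

namespace Fermat.Agent.S55

open CategoryTheory groupCohomology

variable (E F Ω : Type) [Field E] [Field F] [Field Ω] [Algebra E F] [Algebra E Ω] [Algebra F Ω]
  [IsScalarTower E F Ω]

/-! ### Restriction -/

/-- The identity of `Additive Ωˣ`, from the `Gal(Ω/E)`-module restricted to `Gal(Ω/F)` to the
`Gal(Ω/F)`-module. -/
def fdi_restHom :
    Rep.res (AlgEquiv.restrictScalarsHom E : (Ω ≃ₐ[F] Ω) →* (Ω ≃ₐ[E] Ω))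
        (Rep.ofAlgebraAutOnUnits E Ω) ⟶ Rep.ofAlgebraAutOnUnits F Ω :=
  Rep.ofHom ⟨LinearMap.id, fun _ => rfl⟩

@[simp] theorem fdi_restHom_apply (x : Additive Ωˣ) : (fdi_restHom E F Ω).hom x = x := rfl

/-- Restriction `Hⁿ(Gal(Ω/E), Ωˣ) ⟶ Hⁿ(Gal(Ω/F), Ωˣ)`. -/
def fdi_rest (n : ℕ) :
    groupCohomology (Rep.ofAlgebraAutOnUnits E Ω) n ⟶
      groupCohomology (Rep.ofAlgebraAutOnUnits F Ω) n :=
  map (AlgEquiv.restrictScalarsHom E : (Ω ≃ₐ[F] Ω) →* (Ω ≃ₐ[E] Ω)) (fdi_restHom E F Ω) n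

/-! ### Inflation -/

section Inflation

variable [Normal E F]

/-- The inclusion `Fˣ → Ωˣ`, additively. -/
def fdi_unitsMap : Additive Fˣ →+ Additive Ωˣ :=
  MonoidHom.toAdditive (Units.map (algebraMap F Ω : F →* Ω))

theorem fdi_unitsMap_coe (x : Additive Fˣ) :
    (((fdi_unitsMap F Ω x).toMul : Ωˣ) : Ω) = algebraMap F Ω ((x.toMul : Fˣ) : F) := rfl

theorem fdi_unitsMap_injective : Function.Injective (fdi_unitsMap F Ω) := by
  intro x y h
  have h1 := congrArg (fun z : Additive Ωˣ => ((z.toMul : Ωˣ) : Ω)) h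
  simp only [fdi_unitsMap_coe] at h1
  exact congrArg Additive.ofMul (Units.ext ((algebraMap F Ω).injective h1))

/-- `Fˣ → Ωˣ` as a morphism of `Gal(Ω/E)`-modules. -/
def fdi_inflHom :
    Rep.res (AlgEquiv.restrictNormalHom F : (Ω ≃ₐ[E] Ω) →* (F ≃ₐ[E] F))
        (Rep.ofAlgebraAutOnUnits E F) ⟶ Rep.ofAlgebraAutOnUnits E Ω :=
  Rep.ofHom ⟨(fdi_unitsMap F Ω).toIntLinearMap, fun g => by
    ext x
    apply congrArg Additive.ofMul
    exact AlgEquiv.restrictNormal_commutes g F _⟩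

theorem fdi_inflHom_apply (x : Additive Fˣ) :
    (fdi_inflHom E F Ω).hom x = fdi_unitsMap F Ω x := rfl

/-- Inflation `Hⁿ(Gal(F/E), Fˣ) ⟶ Hⁿ(Gal(Ω/E), Ωˣ)`. -/
def fdi_infl (n : ℕ) :
    groupCohomology (Rep.ofAlgebraAutOnUnits E F) n ⟶
      groupCohomology (Rep.ofAlgebraAutOnUnits E Ω) n :=
  map (AlgEquiv.restrictNormalHom F : (Ω ≃ₐ[E] Ω) →* (F ≃ₐ[E] F)) (fdi_inflHom E F Ω) n

/-- An `F`-automorphism of `Ω`, as an `E`-automorphism, restricts to the identity of `F`. -/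
theorem fdi_restrictScalars_mem_ker (σ : Ω ≃ₐ[F] Ω) :
    (AlgEquiv.restrictScalarsHom E σ : Ω ≃ₐ[E] Ω) ∈
      (AlgEquiv.restrictNormalHom F : (Ω ≃ₐ[E] Ω) →* (F ≃ₐ[E] F)).ker := by
  rw [MonoidHom.mem_ker]
  ext y
  apply (algebraMap F Ω).injective
  show algebraMap F Ω ((AlgEquiv.restrictScalarsHom E σ : Ω ≃ₐ[E] Ω).restrictNormal F y) = _
  rw [AlgEquiv.restrictNormal_commutes]
  exact σ.commutes y

/-- An `E`-automorphism of `Ω` restricting to the identity of `F` fixes the image of `F`. -/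
theorem fdi_apply_algebraMap_of_mem_ker (g : Ω ≃ₐ[E] Ω)
    (hg : g ∈ (AlgEquiv.restrictNormalHom F : (Ω ≃ₐ[E] Ω) →* (F ≃ₐ[E] F)).ker) (y : F) :
    g (algebraMap F Ω y) = algebraMap F Ω y := by
  rw [MonoidHom.mem_ker] at hg
  rw [← AlgEquiv.restrictNormal_commutes g F y]
  have h : g.restrictNormal F y = y := congrArg (fun τ : F ≃ₐ[E] F => τ y) hg
  rw [h]

variable [FiniteDimensional E Ω] [IsGalois E Ω]

/-- The field dictionary for inflation: `(restriction to F, Fˣ ⊆ Ωˣ)` is an inflation datum. -/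
theorem fdi_isInfl :
    lc_IsInfl (AlgEquiv.restrictNormalHom F : (Ω ≃ₐ[E] Ω) →* (F ≃ₐ[E] F))
      (fdi_inflHom E F Ω) where
  surj := AlgEquiv.restrictNormalHom_surjective Ω
  inj := fdi_unitsMap_injective F Ω
  range := fun a ha => by
    have : FiniteDimensional F Ω := FiniteDimensional.right E F Ω
    have : IsGalois F Ω := IsGalois.tower_top_of_isGalois E F Ω
    set u : Ωˣ := Additive.toMul (show Additive Ωˣ from a) with hu
    have hfix : ∀ σ : Ω ≃ₐ[F] Ω, σ (u : Ω) = (u : Ω) := fun σ => by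
      have h := ha _ (fdi_restrictScalars_mem_ker E F Ω σ)
      exact congrArg (fun z : Additive Ωˣ => ((Additive.toMul z : Ωˣ) : Ω)) h
    obtain ⟨y, hy⟩ := (IsGalois.mem_range_algebraMap_iff_fixed (F := F) (E := Ω) _).2 hfix
    have hy0 : y ≠ 0 := by
      rintro rfl
      rw [map_zero] at hy
      exact u.ne_zero hy.symm
    refine ⟨Additive.ofMul (Units.mk0 y hy0), ?_⟩
    show Additive.ofMul _ = Additive.ofMul u
    apply congrArg Additive.ofMul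
    apply Units.ext
    exact hy

/-- Hilbert 90 for the kernel of restriction to `F`. -/
theorem fdi_H1_ker :
    Subsingleton (groupCohomology (Rep.res
      (AlgEquiv.restrictNormalHom F : (Ω ≃ₐ[E] Ω) →* (F ≃ₐ[E] F)).ker.subtype
      (Rep.ofAlgebraAutOnUnits E Ω)) 1) :=
  fdi_H1_subsingleton _

/-- **Inflation `H²(Gal(F/E), Fˣ) → H²(Gal(Ω/E), Ωˣ)` is injective.** -/
theorem fdi_infl_injective : Function.Injective (fdi_infl E F Ω 2).hom :=
  lc_inf₂_injective (fdi_isInfl E F Ω) (fdi_H1_ker E F Ω)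

/-- The kernel of restriction to `F` is `Gal(Ω/F)`. -/
def fdi_kerEquiv :
    (Ω ≃ₐ[F] Ω) ≃* ↥(AlgEquiv.restrictNormalHom F : (Ω ≃ₐ[E] Ω) →* (F ≃ₐ[E] F)).ker :=
  MulEquiv.ofBijective
    ((AlgEquiv.restrictScalarsHom E : (Ω ≃ₐ[F] Ω) →* (Ω ≃ₐ[E] Ω)).codRestrict _
      (fdi_restrictScalars_mem_ker E F Ω))
    ⟨fun σ τ h => by
      have h1 : (AlgEquiv.restrictScalarsHom E σ : Ω ≃ₐ[E] Ω) = AlgEquiv.restrictScalarsHom E τ :=
        congrArg Subtype.val h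
      exact AlgEquiv.restrictScalarsHom_injective E h1,
    fun ⟨g, hg⟩ => by
      refine ⟨AlgEquiv.ofRingEquiv (f := g.toRingEquiv)
        (fun y => fdi_apply_algebraMap_of_mem_ker E F Ω g hg y), ?_⟩
      apply Subtype.ext
      ext x
      rfl⟩

theorem fdi_kerEquiv_coe (σ : Ω ≃ₐ[F] Ω) (x : Ω) :
    ((fdi_kerEquiv E F Ω σ : (AlgEquiv.restrictNormalHom F :
      (Ω ≃ₐ[E] Ω) →* (F ≃ₐ[E] F)).ker) : Ω ≃ₐ[E] Ω) x = σ x := rfl

/-- The identity of `Additive Ωˣ` as a morphism of `Gal(Ω/F)`-modules, from the module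
restricted through the kernel of `Gal(Ω/E) → Gal(F/E)`. -/
def fdi_kerHom :
    Rep.res (fdi_kerEquiv E F Ω : (Ω ≃ₐ[F] Ω) →*
          ↥(AlgEquiv.restrictNormalHom F : (Ω ≃ₐ[E] Ω) →* (F ≃ₐ[E] F)).ker)
        (Rep.res (AlgEquiv.restrictNormalHom F : (Ω ≃ₐ[E] Ω) →* (F ≃ₐ[E] F)).ker.subtype
          (Rep.ofAlgebraAutOnUnits E Ω)) ⟶ Rep.ofAlgebraAutOnUnits F Ω :=
  Rep.ofHom ⟨LinearMap.id, fun _ => rfl⟩

/-- The comparison isomorphism `Hⁿ(ker, Ωˣ) ≅ Hⁿ(Gal(Ω/F), Ωˣ)`. -/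
def fdi_kerIso (n : ℕ) :
    groupCohomology (Rep.res
      (AlgEquiv.restrictNormalHom F : (Ω ≃ₐ[E] Ω) →* (F ≃ₐ[E] F)).ker.subtype
      (Rep.ofAlgebraAutOnUnits E Ω)) n ≅ groupCohomology (Rep.ofAlgebraAutOnUnits F Ω) n :=
  (groupCohomology.mapIso
    (A := Rep.res (AlgEquiv.restrictNormalHom F : (Ω ≃ₐ[E] Ω) →* (F ≃ₐ[E] F)).ker.subtype
      (Rep.ofAlgebraAutOnUnits E Ω))
    (B := Rep.ofAlgebraAutOnUnits F Ω) (fdi_kerEquiv E F Ω)
    (LinearEquiv.refl ℤ (Additive Ωˣ)) (fun _ => rfl) n).symm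

theorem fdi_kerIso_hom (n : ℕ) :
    (fdi_kerIso E F Ω n).hom =
      map (fdi_kerEquiv E F Ω : (Ω ≃ₐ[F] Ω) →*
          ↥(AlgEquiv.restrictNormalHom F : (Ω ≃ₐ[E] Ω) →* (F ≃ₐ[E] F)).ker) (fdi_kerHom E F Ω) n := by
  show map _ _ n = map _ _ n
  exact map_congr rfl rfl n

/-- Restriction to `Gal(Ω/F)` is restriction to the kernel followed by the comparison iso. -/
theorem fdi_rest_eq (n : ℕ) :
    fdi_rest E F Ω n =
      map (AlgEquiv.restrictNormalHom F : (Ω ≃ₐ[E] Ω) →* (F ≃ₐ[E] F)).ker.subtype (𝟙 _) n ≫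
        (fdi_kerIso E F Ω n).hom := by
  rw [fdi_kerIso_hom, ← map_comp]
  exact map_congr rfl rfl n

theorem fdi_rest_eq_zero_iff (x : groupCohomology (Rep.ofAlgebraAutOnUnits E Ω) 2) :
    (fdi_rest E F Ω 2).hom x = 0 ↔
      (ir_res₂ (Rep.ofAlgebraAutOnUnits E Ω)
        (AlgEquiv.restrictNormalHom F : (Ω ≃ₐ[E] Ω) →* (F ≃ₐ[E] F)).ker).hom x = 0 := by
  rw [fdi_rest_eq, ModuleCat.hom_comp, LinearMap.comp_apply]
  exact (fdi_kerIso E F Ω 2).toLinearEquiv.map_eq_zero_iff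

/-- **Exactness at `H²(Gal(Ω/E), Ωˣ)`**: a class dying in `H²(Gal(Ω/F), Ωˣ)` is inflated from
`H²(Gal(F/E), Fˣ)`. -/
theorem fdi_infl_exact (x : groupCohomology (Rep.ofAlgebraAutOnUnits E Ω) 2)
    (hx : (fdi_rest E F Ω 2).hom x = 0) :
    ∃ y : groupCohomology (Rep.ofAlgebraAutOnUnits E F) 2, (fdi_infl E F Ω 2).hom y = x :=
  lc_inf₂_exact (fdi_isInfl E F Ω) (fdi_H1_ker E F Ω) x ((fdi_rest_eq_zero_iff E F Ω x).1 hx)

/-- Inflation followed by restriction is zero. -/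
theorem fdi_rest_infl (y : groupCohomology (Rep.ofAlgebraAutOnUnits E F) 2) :
    (fdi_rest E F Ω 2).hom ((fdi_infl E F Ω 2).hom y) = 0 :=
  (fdi_rest_eq_zero_iff E F Ω _).2 (lc_res_inf₂_apply (fdi_isInfl E F Ω) y)

end Inflation

end Fermat.Agent.S55
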