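/-
S55 / [L1] (d) of the assembly (helper23): the inflation datum for a tower `L ≤ L'` of finite
Galois extensions of `ℚ_q` inside `PadicAlgCl q`:  `(lq_res h, Lˣ ⊆ L'ˣ)` is an `lc_IsInfl`,
together with transitivity in towers `L ≤ L' ≤ L''`.
Instantiates the field dictionary `fdi_isInfl` (LocalCF/FieldDictE.lean).  Prefix `lq_`.
-/
import Mathlib
import Fermat.Agent.S55.LocalCF.FieldDictE
import Fermat.Agent.S55.LocalQ.Tower

set_option autoImplicit false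
set_option linter.unusedSectionVars false

noncomputable section

namespace Fermat.Agent.S55

open CategoryTheory groupCohomology

variable {q : ℕ} [Fact q.Prime] {L L' L'' : LqField q}

/-- The inclusion of units `Lˣ → L'ˣ` as a morphism of `Gal(L'/ℚ_q)`-modules (the source is
restricted along `lq_res h`). -/
def lq_unitsIncl (h : L ≤ L') [Normal ℚ_[q] ↥L] :
    Rep.res (lq_res h) (Rep.ofAlgebraAutOnUnits ℚ_[q] ↥L) ⟶ Rep.ofAlgebraAutOnUnits ℚ_[q] ↥L' :=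
  letI := lq_towerAlgebra h
  haveI := lq_tower_isScalarTower h
  fdi_inflHom ℚ_[q] ↥L ↥L'

theorem lq_unitsIncl_apply (h : L ≤ L') [Normal ℚ_[q] ↥L] (u : (↥L)ˣ) :
    (lq_unitsIncl h).hom (Additive.ofMul u) =
      Additive.ofMul (Units.map (IntermediateField.inclusion h : ↥L →* ↥L') u) := rfl

theorem lq_unitsIncl_coe (h : L ≤ L') [Normal ℚ_[q] ↥L] (x : Additive (↥L)ˣ) :
    (((Additive.toMul (show Additive (↥L')ˣ from (lq_unitsIncl h).hom x) : (↥L')ˣ) : ↥L') :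
      PadicAlgCl q) = (((Additive.toMul x : (↥L)ˣ) : ↥L) : PadicAlgCl q) := rfl

/-- **The inflation datum of a tower of local fields.** -/
theorem lq_isInfl (h : L ≤ L') [FiniteDimensional ℚ_[q] ↥L'] [IsGalois ℚ_[q] ↥L']
    [Normal ℚ_[q] ↥L] : lc_IsInfl (lq_res h) (lq_unitsIncl h) :=
  letI := lq_towerAlgebra h
  haveI := lq_tower_isScalarTower h
  fdi_isInfl ℚ_[q] ↥L ↥L'

/-- Hilbert 90 for the kernel of `lq_res h`. -/
theorem lq_H1_ker_res (h : L ≤ L') [FiniteDimensional ℚ_[q] ↥L'] [Normal ℚ_[q] ↥L] :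
    Subsingleton (groupCohomology (Rep.res (lq_res h).ker.subtype
      (Rep.ofAlgebraAutOnUnits ℚ_[q] ↥L')) 1) :=
  fdi_H1_subsingleton _

/-- Inflation `H²(Gal(L/ℚ_q), Lˣ) → H²(Gal(L'/ℚ_q), L'ˣ)` is injective. -/
theorem lq_inf₂_injective (h : L ≤ L') [FiniteDimensional ℚ_[q] ↥L'] [IsGalois ℚ_[q] ↥L']
    [Normal ℚ_[q] ↥L] : Function.Injective (lc_inf₂ (lq_res h) (lq_unitsIncl h)).hom :=
  lc_inf₂_injective (lq_isInfl h) (lq_H1_ker_res h)

/-! ### Transitivity -/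

theorem lq_res_comp (h : L ≤ L') (h' : L' ≤ L'') [Normal ℚ_[q] ↥L] [Normal ℚ_[q] ↥L'] :
    (lq_res h).comp (lq_res h') = lq_res (h.trans h') := by
  ext σ x
  rw [MonoidHom.comp_apply, lq_res_apply, lq_res_apply, lq_res_apply]
  rfl

theorem lq_res_comp_apply (h : L ≤ L') (h' : L' ≤ L'') [Normal ℚ_[q] ↥L] [Normal ℚ_[q] ↥L']
    (σ : ↥L'' ≃ₐ[ℚ_[q]] ↥L'') : lq_res h (lq_res h' σ) = lq_res (h.trans h') σ :=
  congrArg (fun f : (↥L'' ≃ₐ[ℚ_[q]] ↥L'') →* (↥L ≃ₐ[ℚ_[q]] ↥L) => f σ) (lq_res_comp h h')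

theorem lq_unitsIncl_comp (h : L ≤ L') (h' : L' ≤ L'') [Normal ℚ_[q] ↥L] [Normal ℚ_[q] ↥L']
    (x : Additive (↥L)ˣ) :
    (lq_unitsIncl h').hom ((lq_unitsIncl h).hom x) = (lq_unitsIncl (h.trans h')).hom x := by
  apply congrArg Additive.ofMul
  apply Units.ext
  apply Subtype.ext
  rfl

end Fermat.Agent.S55
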