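import Mathlib
import Fermat.Agent.S55.LocalCF.PClassCompat
import Fermat.Agent.S55.LocalCF.LqFormation
import Fermat.Agent.S55.LocalCF.LqInfl
import Fermat.Agent.S55.LocalCF.LayersQ

/-!
# S55 / seam L: the `p`-class module of a finite Galois extension of `ℚ_q`

For `L : LqField q` finite Galois over `ℚ_[q]` and a prime `p`:

* `lq_formation L` : the valued formation of `L` (inertia, Frobenius, normalised valuation);
* `lq_pclassOf p L L' h hdiv` : the `p`-class module on `Lˣ` computed through an auxiliary finite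
  Galois `L' ⊇ L` whose residue degree is divisible by the `p`-part of `[L : ℚ_q]`;
* `lq_pclass p L` : the same for a chosen `L'` (which exists by `lq_exists_unram_ext`).
-/

set_option autoImplicit false
set_option linter.unusedSectionVars false

namespace Fermat.Agent.S55

open groupCohomology CategoryTheory Rep

variable {q : ℕ} [Fact q.Prime]

noncomputable section

theorem lq_formation_e (L : LqField q) [FiniteDimensional ℚ_[q] ↥L] :
    (lq_formation L).e = Nat.card (lq_inertia L) := rfl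

/-- The Frobenius element of `lq_formation L` induces `x ↦ x ^ |κ(ℚ_q)|` on the residue field. -/
theorem lq_formation_frob_spec (L : LqField q) [FiniteDimensional ℚ_[q] ↥L] (x : ↥L)
    (hx : ‖x‖ ≤ 1) :
    ‖(lq_formation L).frob x -
      x ^ lq_resCard (lq_fixed (⊤ : Subgroup (↥L ≃ₐ[ℚ_[q]] ↥L)))‖ < 1 :=
  (lq_exists_frob (⊤ : Subgroup (↥L ≃ₐ[ℚ_[q]] ↥L))).choose_spec.2.1 x hx

variable (p : ℕ) [Fact p.Prime]

/-- The `p`-class module of `Lˣ`, computed through an auxiliary finite Galois extension `L' ⊇ L`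
whose residue degree is divisible by the `p`-part of `[L : ℚ_q]`. -/
def lq_pclassOf (L L' : LqField q) [FiniteDimensional ℚ_[q] ↥L] [IsGalois ℚ_[q] ↥L]
    [FiniteDimensional ℚ_[q] ↥L'] [IsGalois ℚ_[q] ↥L'] (h : L ≤ L')
    (hdiv : ordProj[p] (Nat.card (↥L ≃ₐ[ℚ_[q]] ↥L)) ∣ (lq_inertia L').index) :
    PClassModule p (Rep.ofAlgebraAutOnUnits ℚ_[q] ↥L) :=
  lc_pclass (lq_formation L') (lq_isInfl h) p (fdq_cyclicLayers p)
    (fun K => fdi_H1_subsingleton K) hdiv

omit [Fact p.Prime] in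
theorem lq_exists_aux (L : LqField q) [FiniteDimensional ℚ_[q] ↥L] [IsGalois ℚ_[q] ↥L] :
    ∃ L' : LqField q, L ≤ L' ∧ FiniteDimensional ℚ_[q] ↥L' ∧ IsGalois ℚ_[q] ↥L' ∧
      ordProj[p] (Nat.card (↥L ≃ₐ[ℚ_[q]] ↥L)) ∣ (lq_inertia L').index :=
  lq_exists_unram_ext L _ (Nat.ordProj_pos _ _)

/-- A chosen auxiliary extension of `L` with enough residue degree. -/
def lq_aux (L : LqField q) [FiniteDimensional ℚ_[q] ↥L] [IsGalois ℚ_[q] ↥L] : LqField q :=
  (lq_exists_aux p L).choose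

theorem lq_le_aux (L : LqField q) [FiniteDimensional ℚ_[q] ↥L] [IsGalois ℚ_[q] ↥L] :
    L ≤ lq_aux p L := (lq_exists_aux p L).choose_spec.1

instance lq_aux_finiteDimensional (L : LqField q) [FiniteDimensional ℚ_[q] ↥L]
    [IsGalois ℚ_[q] ↥L] : FiniteDimensional ℚ_[q] ↥(lq_aux p L) :=
  (lq_exists_aux p L).choose_spec.2.1

instance lq_aux_isGalois (L : LqField q) [FiniteDimensional ℚ_[q] ↥L] [IsGalois ℚ_[q] ↥L] :
    IsGalois ℚ_[q] ↥(lq_aux p L) :=
  (lq_exists_aux p L).choose_spec.2.2.1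

theorem lq_aux_dvd (L : LqField q) [FiniteDimensional ℚ_[q] ↥L] [IsGalois ℚ_[q] ↥L] :
    ordProj[p] (Nat.card (↥L ≃ₐ[ℚ_[q]] ↥L)) ∣ (lq_inertia (lq_aux p L)).index :=
  (lq_exists_aux p L).choose_spec.2.2.2

/-- **Seam L: the `p`-class module of `Lˣ`** for a finite Galois extension `L/ℚ_q`. -/
def lq_pclass (L : LqField q) [FiniteDimensional ℚ_[q] ↥L] [IsGalois ℚ_[q] ↥L] :
    PClassModule p (Rep.ofAlgebraAutOnUnits ℚ_[q] ↥L) :=
  lq_pclassOf p L (lq_aux p L) (lq_le_aux p L) (lq_aux_dvd p L)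

end

end Fermat.Agent.S55
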