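import Mathlib
import Fermat.Agent.S55.LocalCF.Seam
import Fermat.Agent.S55.LocalQ.UnramExt

/-!
# S55 / seam L: inflation compatibility of the local `p`-class modules

For `L ≤ L₁` finite Galois over `ℚ_q`, the invariants of `lq_pclass p L₁` and `lq_pclass p L`
are compatible with inflation on `p`-primary classes, on every layer.  In particular the
invariants do not depend on the auxiliary extension used in `lq_pclassOf`.
-/

set_option autoImplicit false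
set_option linter.unusedSectionVars false

open scoped Valued NormedField NNReal

namespace Fermat.Agent.S55

open groupCohomology CategoryTheory Rep

variable {q : ℕ} [Fact q.Prime]

/-! ### Frobenius elements -/

/-- `φ` induces `x ↦ x ^ c` on the residue field of `L`. -/
def lq_IsFrob (L : LqField q) (c : ℕ) (φ : ↥L ≃ₐ[ℚ_[q]] ↥L) : Prop :=
  ∀ x : ↥L, ‖x‖ ≤ 1 → ‖φ x - x ^ c‖ < 1

theorem lq_isFrob_unique {L : LqField q} {c : ℕ} {φ₁ φ₂ : ↥L ≃ₐ[ℚ_[q]] ↥L}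
    (h₁ : lq_IsFrob L c φ₁) (h₂ : lq_IsFrob L c φ₂) : φ₁⁻¹ * φ₂ ∈ lq_inertia L := by
  intro x hx
  have e : (φ₁⁻¹ * φ₂) x - x = φ₁⁻¹ (φ₂ x - φ₁ x) := by
    have : φ₁⁻¹ (φ₁ x) = x := by
      change (φ₁⁻¹ * φ₁) x = x
      rw [inv_mul_cancel]; rfl
    rw [map_sub, this]; rfl
  rw [e, lq_norm_algEquiv]
  have e2 : φ₂ x - φ₁ x = (φ₂ x - x ^ c) + (x ^ c - φ₁ x) := by ring
  rw [e2]
  have h3 : ‖x ^ c - φ₁ x‖ < 1 := by rw [norm_sub_rev]; exact h₁ x hx
  exact (IsUltrametricDist.norm_add_le_max _ _).trans_lt (max_lt (h₂ x hx) h3)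

theorem lq_isFrob_res {L L' : LqField q} (h : L ≤ L') [Normal ℚ_[q] ↥L] {c : ℕ}
    {φ' : ↥L' ≃ₐ[ℚ_[q]] ↥L'} (hφ : lq_IsFrob L' c φ') : lq_IsFrob L c (lq_res h φ') := by
  intro x hx
  have h1 := hφ (IntermediateField.inclusion h x) (by rw [lq_norm_inclusion]; exact hx)
  rw [← lq_res_inclusion, ← map_pow, ← map_sub, lq_norm_inclusion] at h1
  exact h1

theorem lq_formation_isFrob (L : LqField q) [FiniteDimensional ℚ_[q] ↥L] [IsGalois ℚ_[q] ↥L] :
    lq_IsFrob L q (lq_formation L).frob := by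
  intro x hx
  have h := lq_formation_frob_spec L x hx
  rw [lqu_fixed_top, lqu_resCard_bot] at h
  exact h

/-! ### The morphism of formations of a tower -/

section tower

variable {L' L'' : LqField q} [FiniteDimensional ℚ_[q] ↥L'] [IsGalois ℚ_[q] ↥L']
  [FiniteDimensional ℚ_[q] ↥L''] [IsGalois ℚ_[q] ↥L''] (h : L' ≤ L'')

theorem lq_tower_hI :
    (lq_formation L'').I ≤ (lq_formation L').I.comap (lq_res h) :=
  lq_inertia_le_comap_res h

theorem lq_tower_hd :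
    ((lq_res h (lq_formation L'').frob : ↥L' ≃ₐ[ℚ_[q]] ↥L') :
        (↥L' ≃ₐ[ℚ_[q]] ↥L') ⧸ (lq_formation L').I) = (lq_formation L').σ := by
  apply QuotientGroup.eq.2
  exact lq_isFrob_unique (lq_isFrob_res h (lq_formation_isFrob L'')) (lq_formation_isFrob L')

theorem lq_tower_hc (a : (Rep.ofAlgebraAutOnUnits ℚ_[q] ↥L').V) :
    (lq_formation L'').v ((lq_unitsIncl h).hom a) =
      ((Nat.card ↥(lq_inertia L'' ⊓ (lq_res h).ker) : ℕ) : ℤ) * (lq_formation L').v a := by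
  rw [lq_formation_v, lq_formation_v]
  exact lq_ordZ_inclusion' h (lq_elt L' a)

theorem lq_tower_he :
    ((lq_formation L'').e : ℤ) =
      ((Nat.card ↥(lq_inertia L'' ⊓ (lq_res h).ker) : ℕ) : ℤ) * ((lq_formation L').e : ℤ) := by
  rw [lq_formation_e, lq_formation_e, lq_card_inertia_tower' h]
  push_cast
  ring

/-- Residue degrees are divisible in towers. -/
theorem lq_index_inertia_dvd (h : L' ≤ L'') :
    (lq_inertia L').index ∣ (lq_inertia L'').index := by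
  rw [← lq_map_inertia_eq' h]
  exact Subgroup.index_map_dvd _ (lq_res_surjective h)

end tower

/-! ### Inflation compatibility -/

section infl

variable (p : ℕ) [Fact p.Prime]
variable {L L₁ L' L₁' : LqField q}
  [FiniteDimensional ℚ_[q] ↥L] [IsGalois ℚ_[q] ↥L]
  [FiniteDimensional ℚ_[q] ↥L₁] [IsGalois ℚ_[q] ↥L₁]
  [FiniteDimensional ℚ_[q] ↥L'] [IsGalois ℚ_[q] ↥L']
  [FiniteDimensional ℚ_[q] ↥L₁'] [IsGalois ℚ_[q] ↥L₁']

/-- Inflation compatibility for explicit auxiliary levels `L ≤ L'`, `L₁ ≤ L₁'`, `L' ≤ L₁'`. -/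
theorem lq_pclassOf_invTop_infl (h : L ≤ L₁) (h' : L ≤ L') (h₁' : L₁ ≤ L₁') (h'' : L' ≤ L₁')
    (hdiv : ordProj[p] (Nat.card (↥L ≃ₐ[ℚ_[q]] ↥L)) ∣ (lq_inertia L').index)
    (hdiv₁ : ordProj[p] (Nat.card (↥L₁ ≃ₐ[ℚ_[q]] ↥L₁)) ∣ (lq_inertia L₁').index)
    (z : H2 (Rep.ofAlgebraAutOnUnits ℚ_[q] ↥L)) (hz : tt_IsPPrimary p z) :
    (lq_pclassOf p L₁ L₁' h₁' hdiv₁).invTop ((lc_inf₂ (lq_res h) (lq_unitsIncl h)).hom z) =
      (lq_pclassOf p L L' h' hdiv).invTop z := by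
  refine lc_pclass_invTop_map (lq_formation L') (lq_isInfl h') (lq_formation L₁') (lq_isInfl h₁')
    p (fdq_cyclicLayers p) (fun K => fdi_H1_subsingleton K) hdiv
    (fdq_cyclicLayers p) (fun K => fdi_H1_subsingleton K) hdiv₁
    (lq_res h) (lq_unitsIncl h) (lq_res h'') (lq_unitsIncl h'') ?_ ?_
    (lq_tower_hI h'') (lq_tower_hd h'') (lq_tower_hc h'') (lq_tower_he h'') z hz
  · rw [lq_res_comp, lq_res_comp]
  · intro c
    exact (lq_unitsIncl_comp h' h'' c).trans (lq_unitsIncl_comp h h₁' c).symm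

/-- Independence of the auxiliary level. -/
theorem lq_pclassOf_invTop_indep (h' : L ≤ L') (h₁' : L ≤ L₁') (h'' : L' ≤ L₁')
    (hdiv : ordProj[p] (Nat.card (↥L ≃ₐ[ℚ_[q]] ↥L)) ∣ (lq_inertia L').index)
    (hdiv₁ : ordProj[p] (Nat.card (↥L ≃ₐ[ℚ_[q]] ↥L)) ∣ (lq_inertia L₁').index)
    (z : H2 (Rep.ofAlgebraAutOnUnits ℚ_[q] ↥L)) (hz : tt_IsPPrimary p z) :
    (lq_pclassOf p L L₁' h₁' hdiv₁).invTop z = (lq_pclassOf p L L' h' hdiv).invTop z := by
  have key := lc_pclass_invTop_map (lq_formation L') (lq_isInfl h') (lq_formation L₁')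
    (lq_isInfl h₁') p (fdq_cyclicLayers p) (fun K => fdi_H1_subsingleton K) hdiv
    (fdq_cyclicLayers p) (fun K => fdi_H1_subsingleton K) hdiv₁
    (MonoidHom.id _) (𝟙 (Rep.ofAlgebraAutOnUnits ℚ_[q] ↥L)) (lq_res h'') (lq_unitsIncl h'')
    (by rw [lq_res_comp, MonoidHom.id_comp])
    (fun c => lq_unitsIncl_comp h' h'' c)
    (lq_tower_hI h'') (lq_tower_hd h'') (lq_tower_hc h'') (lq_tower_he h'') z hz
  rw [map_id] at key
  exact key

end infl

/-! ### The statements for `lq_pclass` -/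

section final

variable (p : ℕ) [Fact p.Prime]
variable {L L₁ : LqField q}
  [FiniteDimensional ℚ_[q] ↥L] [IsGalois ℚ_[q] ↥L]
  [FiniteDimensional ℚ_[q] ↥L₁] [IsGalois ℚ_[q] ↥L₁]

/-- `lq_pclass` can be computed through any admissible auxiliary level. -/
theorem lq_pclass_invTop_eq_pclassOf {L' : LqField q} [FiniteDimensional ℚ_[q] ↥L']
    [IsGalois ℚ_[q] ↥L'] (h' : L ≤ L')
    (hdiv : ordProj[p] (Nat.card (↥L ≃ₐ[ℚ_[q]] ↥L)) ∣ (lq_inertia L').index)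
    (z : H2 (Rep.ofAlgebraAutOnUnits ℚ_[q] ↥L)) (hz : tt_IsPPrimary p z) :
    (lq_pclass p L).invTop z = (lq_pclassOf p L L' h' hdiv).invTop z := by
  have hA : lq_aux p L ≤ lq_aux p L ⊔ L' := le_sup_left
  have hB : L' ≤ lq_aux p L ⊔ L' := le_sup_right
  have hdiv'' : ordProj[p] (Nat.card (↥L ≃ₐ[ℚ_[q]] ↥L)) ∣
      (lq_inertia (lq_aux p L ⊔ L')).index := hdiv.trans (lq_index_inertia_dvd hB)
  rw [show lq_pclass p L = lq_pclassOf p L (lq_aux p L) (lq_le_aux p L) (lq_aux_dvd p L) from rfl,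
    ← lq_pclassOf_invTop_indep p (lq_le_aux p L) ((lq_le_aux p L).trans hA) hA (lq_aux_dvd p L)
      hdiv'' z hz]
  exact lq_pclassOf_invTop_indep p h' (h'.trans hB) hB hdiv hdiv'' z hz

/-- **Inflation compatibility of the local invariants (top layer).** -/
theorem lq_pclass_invTop_infl (h : L ≤ L₁)
    (z : H2 (Rep.ofAlgebraAutOnUnits ℚ_[q] ↥L)) (hz : tt_IsPPrimary p z) :
    (lq_pclass p L₁).invTop ((lc_inf₂ (lq_res h) (lq_unitsIncl h)).hom z) =
      (lq_pclass p L).invTop z := by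
  have hA : lq_aux p L ≤ lq_aux p L ⊔ lq_aux p L₁ := le_sup_left
  have hB : lq_aux p L₁ ≤ lq_aux p L ⊔ lq_aux p L₁ := le_sup_right
  have hdiv : ordProj[p] (Nat.card (↥L ≃ₐ[ℚ_[q]] ↥L)) ∣
      (lq_inertia (lq_aux p L ⊔ lq_aux p L₁)).index :=
    (lq_aux_dvd p L).trans (lq_index_inertia_dvd hA)
  have hdiv₁ : ordProj[p] (Nat.card (↥L₁ ≃ₐ[ℚ_[q]] ↥L₁)) ∣
      (lq_inertia (lq_aux p L ⊔ lq_aux p L₁)).index :=
    (lq_aux_dvd p L₁).trans (lq_index_inertia_dvd hB)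
  have hz₁ : tt_IsPPrimary p ((lc_inf₂ (lq_res h) (lq_unitsIncl h)).hom z) :=
    tt_isPPrimary_map (lc_inf₂ (lq_res h) (lq_unitsIncl h)).hom.toAddMonoidHom hz
  rw [lq_pclass_invTop_eq_pclassOf p ((lq_le_aux p L₁).trans hB) hdiv₁ _ hz₁,
    lq_pclass_invTop_eq_pclassOf p ((lq_le_aux p L).trans hA) hdiv z hz]
  exact lq_pclassOf_invTop_infl p h _ _ (le_refl _) hdiv hdiv₁ z hz

/-- **Inflation compatibility of the local invariants on every layer.** -/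
theorem lq_pclass_inv_infl (h : L ≤ L₁) (K : Subgroup (↥L ≃ₐ[ℚ_[q]] ↥L))
    (z : H2 (Rep.res K.subtype (Rep.ofAlgebraAutOnUnits ℚ_[q] ↥L))) (hz : tt_IsPPrimary p z) :
    (lq_pclass p L₁).inv (K.comap (lq_res h))
        ((lc_inf₂ (lc_piSub (lq_res h) K) (lc_phiSub (lq_res h) (lq_unitsIncl h) K)).hom z) =
      (lq_pclass p L).inv K z :=
  lc_pcm_inv_infl (lq_pclass p L) (lq_pclass p L₁) (lq_res h) (lq_res_surjective h)
    (lq_unitsIncl h) (fun z hz => lq_pclass_invTop_infl p h z hz) K z hz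

end final

end Fermat.Agent.S55
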