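import Fermat.Agent.S55.Tate.ClassModule
import Fermat.Agent.S55.FinGrp.InfRes2
import Fermat.Agent.S55.Local.CyclicInv
import Fermat.Agent.S55.LocalCF.FrobQuot

/-!
# The unramified formula for a `p`-class module (seam L → G4; prefix `lcu_`)

`P : PClassModule p X` on `X : Rep ℤ D` (`D` = a local Galois group, `X` = the multiplicative group
of the local field, or `ℤ` with trivial action at the primes where only the valuation is kept).
`lcu_Unr P` records an inertia subgroup `I ⊴ D`, a Frobenius element `frob : D`, a `D`-invariant
valuation `v : X → ℤ` and the **unramified formula**: for every layer `S ≤ D` and every normal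
subgroup `N ⊴ S` containing the inertia group `I ∩ S` of the layer (so `S ⧸ N` is the Galois group
of an *unramified* extension, cyclic, generated by the class of any Frobenius element `φ ∈ S` of the
layer), the invariant of a class inflated from `S ⧸ N` is computed by the cyclic formula

`inv_S (inf [f]) = c / [S : N]`,  where  `|I ∩ S| · c = v (∑_{i < [S:N]} f (φ̄^i, φ̄))`.

This is all the reciprocity law (G4) needs to know about the local invariants beyond the
`PClassModule` axioms.
-/

set_option autoImplicit false

namespace Fermat.Agent.S55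

open CategoryTheory groupCohomology

/-- **The unramified formula** for a `p`-class module. -/
structure lcu_Unr {p : ℕ} {D : Type} [Group D] {X : Rep.{0} ℤ D} (P : PClassModule p X) where
  /-- the inertia subgroup -/
  I : Subgroup D
  I_normal : I.Normal
  /-- a Frobenius element -/
  frob : D
  /-- the normalised valuation of the top field -/
  v : X.V →+ ℤ
  v_inv : ∀ (d : D) (x : X.V), v (X.ρ d x) = v x
  /-- the ramification index of the layer `S` divides the valuation of `I ∩ S`-invariant elements -/
  v_dvd : ∀ (S : Subgroup D) (x : X.V), (∀ s ∈ I ⊓ S, X.ρ s x = x) →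
    ((Nat.card ↥(I.subgroupOf S) : ℕ) : ℤ) ∣ v x
  /-- the unramified formula -/
  formula : ∀ (S : Subgroup D) (N : Subgroup ↥S) [N.Normal], I.subgroupOf S ≤ N →
    ∀ φ : ↥S, (((φ : ↥S) : D) : D ⧸ I) = ((frob : D) : D ⧸ I) ^ lc_resDeg I S.subtype →
    ∀ (f : cocycles₂ ((tt_res S X).quotientToInvariants N)) (c : ℤ),
      v ((cy_repSum ((tt_res S X).quotientToInvariants N) ((φ : ↥S) : ↥S ⧸ N) N.index
          (f : (↥S ⧸ N) × (↥S ⧸ N) → ((tt_res S X).quotientToInvariants N).V) :
          ((tt_res S X).quotientToInvariants N).V) : X.V) =
        ((Nat.card ↥(I.subgroupOf S) : ℕ) : ℤ) * c →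
      P.inv S ((ir_inf₂ (tt_res S X) N).hom (H2π _ f)) = cy_frac N.index c

instance lcu_Unr.instNormal {p : ℕ} {D : Type} [Group D] {X : Rep.{0} ℤ D}
    {P : PClassModule p X} (U : lcu_Unr P) : U.I.Normal := U.I_normal

end Fermat.Agent.S55
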