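import Fermat.Agent.S55.LocalCF.PClass
import Fermat.Agent.S55.LocalCF.UnrFormula

/-!
# The unramified formula for `lc_pclass` (seam L → G4; prefix `lcu_`)

* `lcu_inv_inf` (generic): for a valued formation `F'` on `(G', A')`, a homomorphism
  `π' : G' →* S`, a normal subgroup `N ⊴ S` with `F'.I ≤ π'⁻¹ N`, and `φ' : Res(π') C' ⟶ A'`:
  the invariant of the inflation to `G'` of a class `[f] ∈ H²(S ⧸ N, C'^N)` is
  `ord (∑_{i<m} f (φ̄^i, φ̄)) / m`, where `φ̄` is the image of the Frobenius of `F'` and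
  `m = |S ⧸ N|`.
* `lcu_of_pclass`: the unramified formula `lcu_Unr` for the `p`-class module `lc_pclass`.
-/

set_option autoImplicit false

namespace Fermat.Agent.S55

open groupCohomology CategoryTheory Rep

/-- Change the inertia subgroup of an `lcu_Unr` along an equality and its Frobenius element
along a congruence modulo inertia (so that both become the definitionally convenient ones). -/
def lcu_Unr.congr {p : ℕ} {D : Type} [Group D] {X : Rep.{0} ℤ D} {P : PClassModule p X}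
    (U : lcu_Unr P) (I' : Subgroup D) (hI : I' = U.I) (frob' : D)
    (hf : ((frob' : D) : D ⧸ U.I) = ((U.frob : D) : D ⧸ U.I)) : lcu_Unr P where
  I := I'
  I_normal := hI ▸ U.I_normal
  frob := frob'
  v := U.v
  v_inv := U.v_inv
  v_dvd := by
    subst hI
    exact U.v_dvd
  formula := by
    subst hI
    intro S N _ hIN φ hφ f c hc
    exact U.formula S N hIN φ (by rw [hφ, hf]) f c hc

@[simp] theorem lcu_Unr.congr_I {p : ℕ} {D : Type} [Group D] {X : Rep.{0} ℤ D}
    {P : PClassModule p X} (U : lcu_Unr P) (I' : Subgroup D) (hI : I' = U.I) (frob' : D)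
    (hf : ((frob' : D) : D ⧸ U.I) = ((U.frob : D) : D ⧸ U.I)) :
    (U.congr I' hI frob' hf).I = I' := rfl

@[simp] theorem lcu_Unr.congr_frob {p : ℕ} {D : Type} [Group D] {X : Rep.{0} ℤ D}
    {P : PClassModule p X} (U : lcu_Unr P) (I' : Subgroup D) (hI : I' = U.I) (frob' : D)
    (hf : ((frob' : D) : D ⧸ U.I) = ((U.frob : D) : D ⧸ U.I)) :
    (U.congr I' hI frob' hf).frob = frob' := rfl

@[simp] theorem lcu_Unr.congr_v {p : ℕ} {D : Type} [Group D] {X : Rep.{0} ℤ D}
    {P : PClassModule p X} (U : lcu_Unr P) (I' : Subgroup D) (hI : I' = U.I) (frob' : D)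
    (hf : ((frob' : D) : D ⧸ U.I) = ((U.frob : D) : D ⧸ U.I)) :
    (U.congr I' hI frob' hf).v = U.v := rfl

section generic

variable {k G' S : Type} [CommRing k] [Group G'] [Group S]
  {A' : Rep k G'} (F' : lc_Formation A') (π' : G' →* S) (N : Subgroup S) [N.Normal]
  {C' : Rep k S} (φ' : res π' C' ⟶ A') (hIN : F'.I ≤ N.comap π')

/-- `G' ⧸ I' → S ⧸ N`. -/
def lcu_tau : G' ⧸ F'.I →* S ⧸ N := QuotientGroup.map F'.I N π' hIN

@[simp] theorem lcu_tau_mk (g : G') :
    lcu_tau F' π' N hIN (g : G' ⧸ F'.I) = ((π' g : S) : S ⧸ N) := rfl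

include hIN in
theorem lcu_mem_invariants (x : (C'.quotientToInvariants N).V) (s : G') (hs : s ∈ F'.I) :
    A'.ρ s (φ'.hom x.1) = φ'.hom x.1 := by
  have h := hom_comm_apply φ' s x.1
  rw [← h]
  congr 1
  exact x.2 ⟨π' s, hIN hs⟩

/-- `C'^N → A'^{I'}`. -/
noncomputable def lcu_nu :
    res (lcu_tau F' π' N hIN) (C'.quotientToInvariants N) ⟶ F'.B :=
  ofHom ⟨LinearMap.codRestrict
      (Representation.invariants (A'.ρ.comp F'.I.subtype))
      (φ'.hom.toLinearMap ∘ₗ (Representation.invariants (C'.ρ.comp N.subtype)).subtype)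
      (fun x => (Representation.mem_invariants _ _).2
        (fun s => lcu_mem_invariants F' π' N φ' hIN x s.1 s.2)),
    fun q => by
      induction q using QuotientGroup.induction_on with
      | H g =>
        ext x
        exact hom_comm_apply φ' g x.1⟩

theorem lcu_nu_coe (x : (C'.quotientToInvariants N).V) :
    (((lcu_nu F' π' N φ' hIN).hom x : F'.B.V) : A'.V) = φ'.hom x.1 := rfl

/-- Inflation from `S ⧸ N` to `S`, then to `G'`, is inflation to `G' ⧸ I'` followed by the
unramified inflation of the formation. -/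
theorem lcu_inf_inf :
    ir_inf₂ C' N ≫ lc_inf₂ π' φ' =
      map (lcu_tau F' π' N hIN) (lcu_nu F' π' N φ' hIN) 2 ≫ F'.inf := by
  rw [← map_comp, ← map_comp]
  exact map_congr rfl rfl 2

variable [Finite G']

/-- **The invariant of a class inflated from an unramified quotient.** -/
theorem lcu_inv_inf (f : cocycles₂ (C'.quotientToInvariants N)) (φb : S ⧸ N)
    (hφ : lcu_tau F' π' N hIN F'.σ = φb) {m r : ℕ} (hm : 0 < m) (hφm : φb ^ m = 1)
    (hmr : F'.f = m * r) (c : ℤ)
    (hc : F'.v (φ'.hom ((cy_repSum (C'.quotientToInvariants N) φb m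
      (f : (S ⧸ N) × (S ⧸ N) → (C'.quotientToInvariants N).V) :
        (C'.quotientToInvariants N).V) : C'.V)) = (F'.e : ℤ) * c) :
    F'.inv ((lc_inf₂ π' φ').hom ((ir_inf₂ C' N).hom (H2π _ f))) = cy_frac m c := by
  have h1 : (lc_inf₂ π' φ').hom ((ir_inf₂ C' N).hom (H2π _ f)) =
      F'.inf.hom (H2π F'.B (mapCocycles₂ (lcu_tau F' π' N hIN) (lcu_nu F' π' N φ' hIN) f)) := by
    have e := lcu_inf_inf F' π' N φ' hIN
    have e' := congrArg (fun F => F.hom (H2π _ f)) e
    have e2 : (map (lcu_tau F' π' N hIN) (lcu_nu F' π' N φ' hIN) 2).hom (H2π _ f) =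
        H2π F'.B (mapCocycles₂ (lcu_tau F' π' N hIN) (lcu_nu F' π' N φ' hIN) f) := by
      have := H2π_comp_map (lcu_tau F' π' N hIN) (lcu_nu F' π' N φ' hIN)
      exact congr($this f)
    rw [← e2]
    exact e'
  rw [h1, F'.inv_inf]
  unfold lc_Formation.invQ
  rw [cy_inv_H2π]
  have h2 := cy_repSum_mapCocycles₂_inflation (lcu_tau F' π' N hIN) (lcu_nu F' π' N φ' hIN)
    hφm hφ r f
  have hvs : F'.vQ ((lcu_nu F' π' N φ' hIN).hom (cy_repSum (C'.quotientToInvariants N) φb m
      (f : (S ⧸ N) × (S ⧸ N) → (C'.quotientToInvariants N).V))) = c := by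
    have he : ((F'.e : ℕ) : ℤ) ≠ 0 := by exact_mod_cast F'.e_pos.ne'
    apply mul_left_cancel₀ he
    rw [F'.vQ_spec, lcu_nu_coe, hc]
  rw [hmr, h2, map_nsmul, map_nsmul, hvs, nsmul_eq_mul]
  have hr : 0 < r := by
    rcases Nat.eq_zero_or_pos r with h0 | h0
    · have := F'.f_pos
      rw [hmr, h0, mul_zero] at this
      exact absurd this (lt_irrefl 0)
    · exact h0
  refine cy_frac_eq_of_mul_eq (Nat.mul_pos hm hr) hm (a := (r : ℤ)) (b := 1) ?_ c |>.trans ?_
  · push_cast; ring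
  · rw [one_mul]

end generic

section group

variable {G Γ : Type} [Group G] [Group Γ] (I : Subgroup G) [I.Normal] (π : G →* Γ)
  (hπ : Function.Surjective π)

/-- `I ∩ π⁻¹S → π(I) ∩ S`. -/
def lcu_psi (S : Subgroup Γ) :
    ↥(I.comap (S.comap π).subtype) →* ↥((I.map π).subgroupOf S) where
  toFun x := ⟨⟨π x.1.1, x.1.2⟩, by
    rw [Subgroup.mem_subgroupOf]
    exact Subgroup.mem_map_of_mem π x.2⟩
  map_one' := by
    apply Subtype.ext; apply Subtype.ext
    exact map_one π
  map_mul' a b := by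
    apply Subtype.ext; apply Subtype.ext
    exact map_mul π _ _

omit [I.Normal] in
theorem lcu_psi_surjective (S : Subgroup Γ) : Function.Surjective (lcu_psi I π S) := by
  rintro ⟨⟨s, hs⟩, hsI⟩
  rw [Subgroup.mem_subgroupOf] at hsI
  obtain ⟨i, hi, his⟩ := Subgroup.mem_map.1 hsI
  have hiK : i ∈ S.comap π := by
    rw [Subgroup.mem_comap, his]
    exact hs
  refine ⟨⟨⟨i, hiK⟩, hi⟩, ?_⟩
  apply Subtype.ext; apply Subtype.ext
  exact his

omit [I.Normal] in
/-- `|I ∩ π⁻¹S| = |I ∩ ker π| · |π(I) ∩ S|`. -/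
theorem lcu_card_inertia [Finite G] (S : Subgroup Γ) :
    Nat.card ↥(I.comap (S.comap π).subtype) =
      Nat.card ↥(I ⊓ π.ker) * Nat.card ↥((I.map π).subgroupOf S) := by
  have h1 : Nat.card ↥(lcu_psi I π S).ker * (lcu_psi I π S).ker.index =
      Nat.card ↥(I.comap (S.comap π).subtype) := Subgroup.card_mul_index _
  have h2 : (lcu_psi I π S).ker.index = Nat.card ↥((I.map π).subgroupOf S) := by
    rw [Subgroup.index_ker, MonoidHom.range_eq_top.2 (lcu_psi_surjective I π S), Subgroup.card_top]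
  have h3 : Nat.card ↥(lcu_psi I π S).ker = Nat.card ↥(I ⊓ π.ker) := by
    refine Nat.card_congr ⟨fun x => ⟨x.1.1.1, ⟨x.1.2, ?_⟩⟩, fun y => ⟨⟨⟨y.1, ?_⟩, y.2.1⟩, ?_⟩,
      fun x => rfl, fun y => rfl⟩
    · have := x.2
      rw [MonoidHom.mem_ker] at this
      change x.1.1.1 ∈ π.ker
      rw [MonoidHom.mem_ker]
      exact congrArg (fun z : ↥((I.map π).subgroupOf S) => ((z : ↥S) : Γ)) this
    · rw [Subgroup.mem_comap]
      rw [MonoidHom.mem_ker.1 y.2.2]
      exact S.one_mem
    · rw [MonoidHom.mem_ker]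
      apply Subtype.ext; apply Subtype.ext
      exact MonoidHom.mem_ker.1 y.2.2
  rw [← h1, h2, h3]

include hπ in
/-- The residue degree of the layer `S ≤ Γ` is the residue degree of the layer `π⁻¹S ≤ G`. -/
theorem lcu_resDeg_eq (S : Subgroup Γ) :
    haveI : (I.map π).Normal := Subgroup.Normal.map inferInstance π hπ
    lc_resDeg (I.map π) S.subtype = lc_resDeg I (S.comap π).subtype := by
  have : (I.map π).Normal := Subgroup.Normal.map inferInstance π hπ
  unfold lc_resDeg
  let θ : G ⧸ I →* Γ ⧸ I.map π := QuotientGroup.map I (I.map π) π (Subgroup.le_comap_map π I)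
  have hθ : Function.Surjective θ := by
    intro x
    induction x using QuotientGroup.induction_on with
    | H γ =>
      obtain ⟨g, rfl⟩ := hπ γ
      exact ⟨(g : G ⧸ I), rfl⟩
  have hcomap : (S.subtype.range.map (QuotientGroup.mk' (I.map π))).comap θ =
      (S.comap π).subtype.range.map (QuotientGroup.mk' I) := by
    ext x
    induction x using QuotientGroup.induction_on with
    | H g =>
      rw [Subgroup.mem_comap]
      constructor
      · rintro ⟨γ, ⟨s, rfl⟩, hγ⟩
        -- `s ≡ π g` modulo `π(I)`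
        have h1 : ((S.subtype s : Γ) : Γ ⧸ I.map π) = ((π g : Γ) : Γ ⧸ I.map π) := hγ
        rw [QuotientGroup.eq] at h1
        obtain ⟨i, hi, hi'⟩ := Subgroup.mem_map.1 h1
        -- `g i⁻¹ ∈ π⁻¹ S`
        have hmem : g * i⁻¹ ∈ S.comap π := by
          rw [Subgroup.mem_comap, map_mul, map_inv, hi', mul_inv_rev, inv_inv, ← mul_assoc,
            mul_inv_cancel, one_mul]
          exact s.2
        refine ⟨g * i⁻¹, ⟨⟨g * i⁻¹, hmem⟩, rfl⟩, ?_⟩
        change ((g * i⁻¹ : G) : G ⧸ I) = (g : G ⧸ I)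
        rw [QuotientGroup.eq]
        have : (g * i⁻¹)⁻¹ * g = i := by group
        rw [this]
        exact hi
      · rintro ⟨g', ⟨k, rfl⟩, hg'⟩
        have h1 : (((S.comap π).subtype k : G) : G ⧸ I) = (g : G ⧸ I) := hg'
        refine ⟨π k.1, ⟨⟨π k.1, k.2⟩, rfl⟩, ?_⟩
        change ((π k.1 : Γ) : Γ ⧸ I.map π) = θ (g : G ⧸ I)
        rw [← h1]
        rfl
  rw [← hcomap, Subgroup.index_comap_of_surjective _ hθ]

end group

section pclass

variable {G Γ : Type} [Group G] [Group Γ] [Finite G] [Finite Γ]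
  {A : Rep ℤ G} (F : lc_Formation A)
  {π : G →* Γ} {C : Rep ℤ Γ} {φ : res π C ⟶ A} (hπ : lc_IsInfl π φ)
  (p : ℕ) [Fact p.Prime]

/-- **The unramified formula for `lc_pclass`.**  `vΓ` is the normalised valuation of the level
`Γ`: `F.v ∘ φ = e(top / level) · vΓ`. -/
noncomputable def lcu_of_pclass (hcyc : dv_CyclicLayers p C)
    (hC1 : ∀ K : Subgroup Γ, Subsingleton (groupCohomology (Rep.res K.subtype C) 1))
    (hpf : ordProj[p] (Nat.card Γ) ∣ F.f) (vΓ : C.V →+ ℤ)
    (hv : ∀ x : C.V, F.v (φ.hom x) = ((Nat.card ↥(F.I ⊓ π.ker) : ℕ) : ℤ) * vΓ x) :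
    lcu_Unr (lc_pclass F hπ p hcyc hC1 hpf) where
  I := F.I.map π
  I_normal := Subgroup.Normal.map F.I_normal π hπ.surj
  frob := π F.frob
  v := vΓ
  v_inv := by
    intro γ x
    obtain ⟨g, rfl⟩ := hπ.surj γ
    have he : ((Nat.card ↥(F.I ⊓ π.ker) : ℕ) : ℤ) ≠ 0 := by exact_mod_cast Nat.card_pos.ne'
    apply mul_left_cancel₀ he
    rw [← hv, ← hv]
    have := hom_comm_apply φ g x
    rw [show (res π C).ρ g x = C.ρ (π g) x from rfl] at this
    rw [this, F.v_inv]
  v_dvd := by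
    intro S x hx
    have he : ((Nat.card ↥(F.I ⊓ π.ker) : ℕ) : ℤ) ≠ 0 := by exact_mod_cast Nat.card_pos.ne'
    -- `φ x` is invariant under `I ∩ π⁻¹ S`
    let ι : ↥(F.I.comap (S.comap π).subtype) →* G :=
      (S.comap π).subtype.comp (F.I.comap (S.comap π).subtype).subtype
    have hι : Function.Injective ι :=
      (Subgroup.subtype_injective _).comp (Subgroup.subtype_injective _)
    have htop : F.I.comap ι = ⊤ := by
      ext h
      simp only [Subgroup.mem_comap, Subgroup.mem_top, iff_true]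
      exact h.2
    have h1 := F.v_dvd ι hι (φ.hom x) (fun h => by
      have hc := hom_comm_apply φ (ι h) x
      rw [show (res π C).ρ (ι h) x = C.ρ (π (ι h)) x from rfl] at hc
      rw [← hc]
      congr 1
      exact hx (π (ι h)) ⟨Subgroup.mem_map_of_mem π h.2, h.1.2⟩)
    rw [htop, Subgroup.card_top, lcu_card_inertia F.I π S, hv] at h1
    push_cast at h1
    exact (mul_dvd_mul_iff_left he).1 h1
  formula := by
    intro S N _ hIN φS hφS f c hc
    have hnor : (F.I.map π).Normal := Subgroup.Normal.map F.I_normal π hπ.surj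
    have hIN' : (F.layer π S).I ≤ N.comap (lc_piSub π S) := by
      intro x hx
      rw [Subgroup.mem_comap]
      apply hIN
      rw [Subgroup.mem_subgroupOf]
      exact Subgroup.mem_map_of_mem π hx
    rw [lc_pclass_inv, lc_invLayer_apply]
    have hsurj : Function.Surjective (lcu_tau (F.layer π S) (lc_piSub π S) N hIN') := by
      intro y
      induction y using QuotientGroup.induction_on with
      | H s =>
        obtain ⟨k, hk⟩ := MonoidHom.subgroupComap_surjective_of_surjective π S hπ.surj s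
        exact ⟨(k : ↥(S.comap π) ⧸ (F.layer π S).I), by rw [lcu_tau_mk, hk]⟩
    refine lcu_inv_inf (F.layer π S) (lc_piSub π S) N (lc_phiSub π φ S) hIN' f
      ((φS : ↥S) : ↥S ⧸ N) ?_ (m := N.index)
      (r := Nat.card (lcu_tau (F.layer π S) (lc_piSub π S) N hIN').ker) ?_ ?_ ?_ c ?_
    · -- Frobenius maps to Frobenius
      let θ : G ⧸ F.I →* Γ ⧸ F.I.map π :=
        QuotientGroup.map F.I (F.I.map π) π (Subgroup.le_comap_map π F.I)
      have h1 := congrArg θ (F.frobSub_spec (S.comap π).subtype)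
      rw [map_pow] at h1
      have h2 : (((π ((F.frobSub (S.comap π).subtype : ↥(S.comap π)) : G) : Γ)) : Γ ⧸ F.I.map π) =
          (((φS : ↥S) : Γ) : Γ ⧸ F.I.map π) := by
        rw [hφS, lcu_resDeg_eq F.I π hπ.surj S]
        exact h1
      rw [QuotientGroup.eq] at h2
      change (((lc_piSub π S (F.frobSub (S.comap π).subtype) : ↥S)) : ↥S ⧸ N) = _
      rw [QuotientGroup.eq]
      apply hIN
      rw [Subgroup.mem_subgroupOf]
      exact h2
    · exact Nat.pos_of_ne_zero Subgroup.FiniteIndex.index_ne_zero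
    · rw [Subgroup.index_eq_card]
      exact pow_card_eq_one'
    · -- `f' = m * r`
      have h1 := Subgroup.card_mul_index (lcu_tau (F.layer π S) (lc_piSub π S) N hIN').ker
      rw [Subgroup.index_ker, MonoidHom.range_eq_top.2 hsurj, Subgroup.card_top] at h1
      rw [lc_Formation.f, Subgroup.index_eq_card, Subgroup.index_eq_card, ← h1, mul_comm]
    · -- the valuation
      change F.v (φ.hom _) = _
      rw [hv, hc, lc_Formation.e]
      change _ = ((Nat.card ↥(F.I.comap (S.comap π).subtype) : ℕ) : ℤ) * c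
      rw [lcu_card_inertia F.I π S]
      push_cast
      ring

@[simp] theorem lcu_of_pclass_I (hcyc : dv_CyclicLayers p C)
    (hC1 : ∀ K : Subgroup Γ, Subsingleton (groupCohomology (Rep.res K.subtype C) 1))
    (hpf : ordProj[p] (Nat.card Γ) ∣ F.f) (vΓ : C.V →+ ℤ)
    (hv : ∀ x : C.V, F.v (φ.hom x) = ((Nat.card ↥(F.I ⊓ π.ker) : ℕ) : ℤ) * vΓ x) :
    (lcu_of_pclass F hπ p hcyc hC1 hpf vΓ hv).I = F.I.map π := rfl

@[simp] theorem lcu_of_pclass_frob (hcyc : dv_CyclicLayers p C)
    (hC1 : ∀ K : Subgroup Γ, Subsingleton (groupCohomology (Rep.res K.subtype C) 1))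
    (hpf : ordProj[p] (Nat.card Γ) ∣ F.f) (vΓ : C.V →+ ℤ)
    (hv : ∀ x : C.V, F.v (φ.hom x) = ((Nat.card ↥(F.I ⊓ π.ker) : ℕ) : ℤ) * vΓ x) :
    (lcu_of_pclass F hπ p hcyc hC1 hpf vΓ hv).frob = π F.frob := rfl

@[simp] theorem lcu_of_pclass_v (hcyc : dv_CyclicLayers p C)
    (hC1 : ∀ K : Subgroup Γ, Subsingleton (groupCohomology (Rep.res K.subtype C) 1))
    (hpf : ordProj[p] (Nat.card Γ) ∣ F.f) (vΓ : C.V →+ ℤ)
    (hv : ∀ x : C.V, F.v (φ.hom x) = ((Nat.card ↥(F.I ⊓ π.ker) : ℕ) : ℤ) * vΓ x) :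
    (lcu_of_pclass F hπ p hcyc hC1 hpf vΓ hv).v = vΓ := rfl

end pclass

end Fermat.Agent.S55
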