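import Mathlib
import Fermat.Agent.S55.LocalCF.SeamInfl
import Fermat.Agent.S55.LocalCF.UnrOfPClass

/-!
# S55 / seam L: the unramified formula for the local `p`-class modules

`lq_unrData p L : lcu_Unr (lq_pclass p L)` with inertia `lq_inertia L`, Frobenius
`(lq_formation L).frob` and valuation `lq_vAdd L` (`= lq_ordZ L` on `Additive Lˣ`).
-/

set_option autoImplicit false
set_option linter.unusedSectionVars false

namespace Fermat.Agent.S55

open groupCohomology CategoryTheory Rep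

variable {q : ℕ} [Fact q.Prime]

noncomputable section

variable (p : ℕ) [Fact p.Prime]

/-- The unramified formula for `lq_pclassOf`, with the data of the auxiliary level. -/
def lq_unrDataOf (L L' : LqField q) [FiniteDimensional ℚ_[q] ↥L] [IsGalois ℚ_[q] ↥L]
    [FiniteDimensional ℚ_[q] ↥L'] [IsGalois ℚ_[q] ↥L'] (h : L ≤ L')
    (hdiv : ordProj[p] (Nat.card (↥L ≃ₐ[ℚ_[q]] ↥L)) ∣ (lq_inertia L').index) :
    lcu_Unr (lq_pclassOf p L L' h hdiv) :=
  lcu_of_pclass (lq_formation L') (lq_isInfl h) p (fdq_cyclicLayers p)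
    (fun K => fdi_H1_subsingleton K) hdiv (lq_vAdd L) (fun x => lq_tower_hc h x)

/-- **The unramified formula for `lq_pclassOf`**, normalised: inertia `lq_inertia L`,
Frobenius `(lq_formation L).frob`, valuation `lq_vAdd L`. -/
def lq_unrDataOf' (L L' : LqField q) [FiniteDimensional ℚ_[q] ↥L] [IsGalois ℚ_[q] ↥L]
    [FiniteDimensional ℚ_[q] ↥L'] [IsGalois ℚ_[q] ↥L'] (h : L ≤ L')
    (hdiv : ordProj[p] (Nat.card (↥L ≃ₐ[ℚ_[q]] ↥L)) ∣ (lq_inertia L').index) :
    lcu_Unr (lq_pclassOf p L L' h hdiv) :=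
  (lq_unrDataOf p L L' h hdiv).congr (lq_inertia L) (lq_map_inertia_eq' h).symm
    (lq_formation L).frob (by
      have h1 := lq_tower_hd h
      have hI : (lq_unrDataOf p L L' h hdiv).I = (lq_formation L).I := lq_map_inertia_eq' h
      change (((lq_formation L).frob : ↥L ≃ₐ[ℚ_[q]] ↥L) :
          (↥L ≃ₐ[ℚ_[q]] ↥L) ⧸ (lq_unrDataOf p L L' h hdiv).I) =
        ((lq_res h (lq_formation L').frob : ↥L ≃ₐ[ℚ_[q]] ↥L) :
          (↥L ≃ₐ[ℚ_[q]] ↥L) ⧸ (lq_unrDataOf p L L' h hdiv).I)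
      rw [QuotientGroup.eq, hI]
      have h2 := QuotientGroup.eq.1 h1
      have h3 := (lq_formation L).I.inv_mem h2
      rw [mul_inv_rev, inv_inv] at h3
      exact h3)

/-- **Seam L → G4: the unramified formula for `lq_pclass p L`.** -/
def lq_unrData (L : LqField q) [FiniteDimensional ℚ_[q] ↥L] [IsGalois ℚ_[q] ↥L] :
    lcu_Unr (lq_pclass p L) :=
  lq_unrDataOf' p L (lq_aux p L) (lq_le_aux p L) (lq_aux_dvd p L)

@[simp] theorem lq_unrData_I (L : LqField q) [FiniteDimensional ℚ_[q] ↥L] [IsGalois ℚ_[q] ↥L] :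
    (lq_unrData p L).I = lq_inertia L := rfl

@[simp] theorem lq_unrData_frob (L : LqField q) [FiniteDimensional ℚ_[q] ↥L] [IsGalois ℚ_[q] ↥L] :
    (lq_unrData p L).frob = (lq_formation L).frob := rfl

@[simp] theorem lq_unrData_v (L : LqField q) [FiniteDimensional ℚ_[q] ↥L] [IsGalois ℚ_[q] ↥L] :
    (lq_unrData p L).v = lq_vAdd L := rfl

theorem lq_unrData_v_ofMul (L : LqField q) [FiniteDimensional ℚ_[q] ↥L] [IsGalois ℚ_[q] ↥L]
    (u : (↥L)ˣ) : (lq_unrData p L).v (Additive.ofMul u) = lq_ordZ L (u : ↥L) := rfl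

/-- The Frobenius of `lq_unrData` is an arithmetic Frobenius: it induces `x ↦ x ^ q` on the residue
field. -/
theorem lq_unrData_frob_isFrob (L : LqField q) [FiniteDimensional ℚ_[q] ↥L] [IsGalois ℚ_[q] ↥L] :
    lq_IsFrob L q (lq_unrData p L).frob := lq_formation_isFrob L

end

end Fermat.Agent.S55
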