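import Mathlib
import Fermat.Agent.S55.LocalCF.UnrFormula
import Fermat.Agent.S55.Tate.ClassModuleTransport
import Fermat.Agent.S55.Local.CyclicH2Rep

/-!
# Transport of the unramified formula `lcu_Unr` along `PClassModule.transport`

For `U : lcu_Unr P`, `e : Γ' ≃* Γ` and `φ : res e C ≅ C'`:
`U.transport e φ : lcu_Unr (P.transport e φ)` with inertia `U.I.comap e`, Frobenius
`e.symm U.frob` and valuation `U.v ∘ φ⁻¹`.
-/

set_option autoImplicit false

namespace Fermat.Agent.S55

open CategoryTheory groupCohomology Rep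

/-! ### Naturality of inflation from a quotient -/

section natural

variable {k G₁ G₂ : Type} [CommRing k] [Group G₁] [Group G₂] {A₁ : Rep k G₁} {A₂ : Rep k G₂}
  (ρ : G₁ →* G₂) (ψ : res ρ A₂ ⟶ A₁)
  (N₁ : Subgroup G₁) [N₁.Normal] (N₂ : Subgroup G₂) [N₂.Normal] (h : N₁ ≤ N₂.comap ρ)

omit [N₁.Normal] in
include h in
theorem lcut_mem_invariants (b : (A₂.quotientToInvariants N₂).V) (s : G₁) (hs : s ∈ N₁) :
    A₁.ρ s (ψ.hom b.1) = ψ.hom b.1 := by
  have h1 := hom_comm_apply ψ s b.1
  rw [← h1]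
  congr 1
  exact b.2 ⟨ρ s, h hs⟩

/-- The map induced by `ψ` on invariants, `A₂^{N₂} → A₁^{N₁}`. -/
noncomputable def lcut_quotHom :
    res (QuotientGroup.map N₁ N₂ ρ h) (A₂.quotientToInvariants N₂) ⟶
      A₁.quotientToInvariants N₁ :=
  ofHom ⟨LinearMap.codRestrict
      (Representation.invariants (A₁.ρ.comp N₁.subtype))
      (ψ.hom.toLinearMap ∘ₗ (Representation.invariants (A₂.ρ.comp N₂.subtype)).subtype)
      (fun b => (Representation.mem_invariants _ _).2
        (fun s => lcut_mem_invariants ρ ψ N₁ N₂ h b s.1 s.2)),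
    fun q => by
      induction q using QuotientGroup.induction_on with
      | H g =>
        ext b
        exact hom_comm_apply ψ g b.1⟩

theorem lcut_quotHom_coe (b : (A₂.quotientToInvariants N₂).V) :
    (((lcut_quotHom ρ ψ N₁ N₂ h).hom b : (A₁.quotientToInvariants N₁).V) : A₁.V) = ψ.hom b.1 :=
  rfl

/-- Inflation from a quotient is natural. -/
theorem lcut_inf_natural :
    ir_inf₂ A₂ N₂ ≫ map ρ ψ 2 =
      map (QuotientGroup.map N₁ N₂ ρ h) (lcut_quotHom ρ ψ N₁ N₂ h) 2 ≫ ir_inf₂ A₁ N₁ := by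
  rw [← map_comp, ← map_comp]
  exact map_congr rfl rfl 2

theorem lcut_inf_natural_apply (w : H2 (A₂.quotientToInvariants N₂)) :
    (map ρ ψ 2).hom ((ir_inf₂ A₂ N₂).hom w) =
      (ir_inf₂ A₁ N₁).hom
        ((map (QuotientGroup.map N₁ N₂ ρ h) (lcut_quotHom ρ ψ N₁ N₂ h) 2).hom w) := by
  have h1 := lcut_inf_natural ρ ψ N₁ N₂ h
  have h2 := congrArg (fun g => g.hom w) h1
  simpa using h2

end natural

/-! ### Group-theoretic bookkeeping -/

section groups

variable {Γ Γ' : Type} [Group Γ] [Group Γ'] (e : Γ' ≃* Γ) (I : Subgroup Γ) (S' : Subgroup Γ')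

theorem lcut_comap_subgroupOf :
    (I.subgroupOf (S'.map (e : Γ' →* Γ))).comap
        ((e.subgroupMap S' : S' ≃* S'.map (e : Γ' →* Γ)) : S' →* S'.map (e : Γ' →* Γ)) =
      (I.comap (e : Γ' →* Γ)).subgroupOf S' := by
  ext x
  rfl

theorem lcut_card_subgroupOf :
    Nat.card ↥((I.comap (e : Γ' →* Γ)).subgroupOf S') =
      Nat.card ↥(I.subgroupOf (S'.map (e : Γ' →* Γ))) := by
  rw [← lcut_comap_subgroupOf]
  set eS := e.subgroupMap S'
  have h1 : ((I.subgroupOf (S'.map (e : Γ' →* Γ))).comap (eS : S' →* _)).map (eS : S' →* _) =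
      I.subgroupOf (S'.map (e : Γ' →* Γ)) :=
    Subgroup.map_comap_eq_self_of_surjective eS.surjective _
  conv_rhs => rw [← h1]
  exact Nat.card_congr
    (eS.subgroupMap ((I.subgroupOf (S'.map (e : Γ' →* Γ))).comap (eS : S' →* _))).toEquiv

variable [I.Normal]

theorem lcut_resDeg_eq :
    lc_resDeg (I.comap (e : Γ' →* Γ)) S'.subtype =
      lc_resDeg I (S'.map (e : Γ' →* Γ)).subtype := by
  unfold lc_resDeg
  rw [Subgroup.range_subtype, Subgroup.range_subtype]
  have hI : (I.comap (e : Γ' →* Γ)).map (e : Γ' →* Γ) = I :=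
    Subgroup.map_comap_eq_self_of_surjective e.surjective I
  set ē := QuotientGroup.congr (I.comap (e : Γ' →* Γ)) I e hI with hē
  have h1 : (S'.map (QuotientGroup.mk' (I.comap (e : Γ' →* Γ)))).map (ē : _ →* _) =
      (S'.map (e : Γ' →* Γ)).map (QuotientGroup.mk' I) := by
    rw [Subgroup.map_map, Subgroup.map_map]
    congr 1
  rw [← h1]
  exact (Subgroup.index_map_equiv _ ē).symm

end groups

/-! ### The transport -/

section transport

variable {Γ Γ' : Type} [Group Γ] [Group Γ'] {p : ℕ} {C : Rep.{0} ℤ Γ} {C' : Rep.{0} ℤ Γ'}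
  {P : PClassModule p C} (U : lcu_Unr P) (e : Γ' ≃* Γ) (φ : Rep.res (e : Γ' →* Γ) C ≅ C')

/-- The transported valuation `v ∘ φ⁻¹`. -/
noncomputable def lcut_trV : C'.V →+ ℤ :=
  AddMonoidHom.mk' (fun x => U.v (φ.inv.hom x)) (fun a b => by rw [map_add, map_add])

theorem lcut_trV_apply (x : C'.V) : lcut_trV U e φ x = U.v (φ.inv.hom x) := rfl

theorem lcut_inv_comm (d : Γ') (x : C'.V) :
    φ.inv.hom (C'.ρ d x) = C.ρ (e d) (φ.inv.hom x) :=
  hom_comm_apply φ.inv d x

/-- **Transport of the unramified formula** along `PClassModule.transport`. -/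
noncomputable def lcu_Unr.transport : lcu_Unr (P.transport e φ) where
  I := U.I.comap (e : Γ' →* Γ)
  I_normal := inferInstance
  frob := e.symm U.frob
  v := lcut_trV U e φ
  v_inv d x := by rw [lcut_trV_apply, lcut_trV_apply, lcut_inv_comm, U.v_inv]
  v_dvd S' x hx := by
    rw [lcut_card_subgroupOf, lcut_trV_apply]
    apply U.v_dvd (S'.map (e : Γ' →* Γ)) (φ.inv.hom x)
    rintro s ⟨hsI, ⟨s', hs', rfl⟩⟩
    have h1 := lcut_inv_comm e φ s' x
    rw [hx s' ⟨hsI, hs'⟩] at h1
    exact h1.symm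
  formula S' N' _ hN' φ' hφ' f' c hc := by
    classical
    set S := S'.map (e : Γ' →* Γ) with hS
    set eS : S' ≃* S := e.subgroupMap S' with heS
    set N : Subgroup S := N'.map (eS : S' →* S) with hNdef
    have : N.Normal := Subgroup.Normal.map inferInstance _ eS.surjective
    set ψ : res (eS.symm : S →* S') (tt_res S' C') ⟶ tt_res S C :=
      tt_trInv eS (tt_trSubCoeff e φ S') with hψ
    have hle : N ≤ N'.comap (eS.symm : S →* S') := by
      rintro x ⟨n', hn', rfl⟩
      show eS.symm (eS n') ∈ N'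
      rw [MulEquiv.symm_apply_apply]
      exact hn'
    -- the inertia condition
    have hN : U.I.subgroupOf S ≤ N := by
      intro x hx
      refine ⟨eS.symm x, hN' ?_, MulEquiv.apply_symm_apply eS x⟩
      show ((eS.symm x : S') : Γ') ∈ U.I.comap (e : Γ' →* Γ)
      have h1 : (e : Γ' →* Γ) ((eS.symm x : S') : Γ') = (x : Γ) := by
        have h2 : eS (eS.symm x) = x := MulEquiv.apply_symm_apply eS x
        exact congrArg Subtype.val h2
      rw [Subgroup.mem_comap, h1]
      exact hx
    -- the Frobenius condition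
    have hφ₀ : ((((eS φ' : S) : Γ)) : Γ ⧸ U.I) =
        ((U.frob : Γ) : Γ ⧸ U.I) ^ lc_resDeg U.I S.subtype := by
      have h1 := congrArg (QuotientGroup.map (U.I.comap (e : Γ' →* Γ)) U.I (e : Γ' →* Γ) le_rfl)
        hφ'
      rw [map_pow, QuotientGroup.map_mk, QuotientGroup.map_mk, lcut_resDeg_eq] at h1
      have h2 : (e : Γ' →* Γ) (e.symm U.frob) = U.frob := MulEquiv.apply_symm_apply e U.frob
      rw [h2] at h1
      exact h1
    -- rewrite the transported invariant
    have hidx : N.index = N'.index := Subgroup.index_map_equiv N' eS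
    rw [PClassModule.transport_inv_apply]
    have h3 : (tt_trSub e φ S' 2).inv.hom ((ir_inf₂ (tt_res S' C') N').hom (H2π _ f')) =
        (ir_inf₂ (tt_res S C) N).hom (H2π _ (mapCocycles₂
          (QuotientGroup.map N N' (eS.symm : S →* S') hle)
          (lcut_quotHom (eS.symm : S →* S') ψ N N' hle) f')) := by
      have h4 := lcut_inf_natural_apply (eS.symm : S →* S') ψ N N' hle (H2π _ f')
      have h5 : (map (QuotientGroup.map N N' (eS.symm : S →* S') hle)
          (lcut_quotHom (eS.symm : S →* S') ψ N N' hle) 2).hom (H2π _ f') =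
          H2π _ (mapCocycles₂ (QuotientGroup.map N N' (eS.symm : S →* S') hle)
            (lcut_quotHom (eS.symm : S →* S') ψ N N' hle) f') :=
        H2π_comp_map_apply _ _ f'
      rw [h5] at h4
      exact h4
    rw [h3, ← hidx]
    refine U.formula S N hN (eS φ') hφ₀ _ c ?_
    -- the valuation of the cyclic sum
    have hσ : ((φ' : S') : S' ⧸ N') ^ N'.index = 1 := by
      rw [← QuotientGroup.mk_pow, QuotientGroup.eq_one_iff]
      exact Subgroup.pow_index_mem N' φ'
    have hι : QuotientGroup.map N N' (eS.symm : S →* S') hle ((eS φ' : S) : S ⧸ N) =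
        ((φ' : S') : S' ⧸ N') := by
      rw [QuotientGroup.map_mk]
      congr 1
      exact MulEquiv.symm_apply_apply eS φ'
    have h6 := cy_repSum_mapCocycles₂_inflation
      (QuotientGroup.map N N' (eS.symm : S →* S') hle)
      (lcut_quotHom (eS.symm : S →* S') ψ N N' hle) hσ hι 1 f'
    rw [mul_one, one_smul] at h6
    rw [hidx, h6, lcut_quotHom_coe, ← lcut_card_subgroupOf]
    exact hc

@[simp] theorem lcu_Unr.transport_I : (U.transport e φ).I = U.I.comap (e : Γ' →* Γ) := rfl

@[simp] theorem lcu_Unr.transport_frob : (U.transport e φ).frob = e.symm U.frob := rfl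

theorem lcu_Unr.transport_v (x : C'.V) : (U.transport e φ).v x = U.v (φ.inv.hom x) := rfl

/-- Transport along a group isomorphism only. -/
noncomputable abbrev lcu_Unr.transportGroup : lcu_Unr (P.transportGroup e) :=
  U.transport e (Iso.refl _)

theorem lcu_Unr.transportGroup_v (x : C.V) : (U.transportGroup e).v x = U.v x := rfl

end transport

end Fermat.Agent.S55
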