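/-
S55 / [L1] field dictionary, part B (helper23): quotients of a Galois group versus subextensions.
For `Ω/E` finite Galois, `G = Gal(Ω/E)`, `M ⊴ G`, `F = Ω^M`: the `G/M`-module `(Ωˣ)^M` is the
`Gal(F/E)`-module `Fˣ`, compatibly with inflation.
Field-generic, Mathlib only, no valuations.  Prefix `fdi_`.
-/
import Mathlib

set_option autoImplicit false
set_option linter.unusedSectionVars false

noncomputable section

namespace Fermat.Agent.S55

open CategoryTheory groupCohomology

variable {E Ω : Type} [Field E] [Field Ω] [Algebra E Ω] [FiniteDimensional E Ω] [IsGalois E Ω]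

variable (M : Subgroup (Ω ≃ₐ[E] Ω)) [M.Normal]

/-- `Gal(Ω/E) ⧸ M ≃* Gal(Ω^M/E)`. -/
def fdi_quotEquiv :
    (Ω ≃ₐ[E] Ω) ⧸ M ≃* (↥(IntermediateField.fixedField M) ≃ₐ[E] ↥(IntermediateField.fixedField M)) :=
  IsGalois.normalAutEquivQuotient M

theorem fdi_quotEquiv_mk (g : Ω ≃ₐ[E] Ω) (x : ↥(IntermediateField.fixedField M)) :
    ((fdi_quotEquiv M (QuotientGroup.mk g) x : ↥(IntermediateField.fixedField M)) : Ω) =
      g (x : Ω) := by
  change ((AlgEquiv.restrictNormalHom (IntermediateField.fixedField M) g) x : Ω) = g x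
  exact AlgEquiv.restrictNormal_commutes g (IntermediateField.fixedField M) x

/-- The `M`-invariants of `Additive Ωˣ`, as the carrier of `quotientToInvariants`. -/
abbrev fdi_Inv : Type :=
  ↥(Representation.invariants ((Rep.ofAlgebraAutOnUnits E Ω).ρ.comp M.subtype))

/-- The underlying unit of `Ω` of an invariant. -/
def fdi_invVal (y : fdi_Inv M) : Ωˣ := Additive.toMul (show Additive Ωˣ from y.1)

theorem fdi_mem_fixedField_of_invariant (y : fdi_Inv M) :
    ((fdi_invVal M y : Ωˣ) : Ω) ∈ IntermediateField.fixedField M := by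
  intro g
  have h := y.2 g
  have h2 := congrArg (fun z : Additive Ωˣ => ((z.toMul : Ωˣ) : Ω)) h
  exact h2

/-- Units of `F = Ω^M` give `M`-invariant units of `Ω`. -/
def fdi_toInv : Additive (↥(IntermediateField.fixedField M))ˣ →+ fdi_Inv M where
  toFun x := ⟨Additive.ofMul (Units.map
      (algebraMap ↥(IntermediateField.fixedField M) Ω : _ →* Ω) x.toMul), by
    intro g
    apply congrArg Additive.ofMul
    ext
    exact (x.toMul : ↥(IntermediateField.fixedField M)).2 g⟩
  map_zero' := by
    apply Subtype.ext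
    simp
    rfl
  map_add' x y := by
    apply Subtype.ext
    simp
    rfl

theorem fdi_toInv_coe (x : Additive (↥(IntermediateField.fixedField M))ˣ) :
    ((fdi_invVal M (fdi_toInv M x) : Ωˣ) : Ω) =
      ((x.toMul : (↥(IntermediateField.fixedField M))ˣ) : ↥(IntermediateField.fixedField M)) :=
  rfl

/-- An `M`-invariant unit of `Ω` is a unit of `F = Ω^M`. -/
def fdi_ofInv (y : fdi_Inv M) : Additive (↥(IntermediateField.fixedField M))ˣ :=
  Additive.ofMul (Units.mk0 (⟨((fdi_invVal M y : Ωˣ) : Ω), fdi_mem_fixedField_of_invariant M y⟩ :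
    ↥(IntermediateField.fixedField M)) (fun h => (fdi_invVal M y).ne_zero (congrArg Subtype.val h)))

theorem fdi_ofInv_coe (y : fdi_Inv M) :
    ((((fdi_ofInv M y).toMul : (↥(IntermediateField.fixedField M))ˣ) :
      ↥(IntermediateField.fixedField M)) : Ω) = ((fdi_invVal M y : Ωˣ) : Ω) := rfl

theorem fdi_invVal_injective : Function.Injective (fdi_invVal M) := by
  intro y y' h
  apply Subtype.ext
  exact congrArg Additive.ofMul h

/-- **Part B, modules.** `Additive Fˣ ≃+ (Additive Ωˣ)^M`. -/
def fdi_invEquiv : Additive (↥(IntermediateField.fixedField M))ˣ ≃+ fdi_Inv M where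
  toFun := fdi_toInv M
  invFun := fdi_ofInv M
  left_inv x := by
    apply congrArg Additive.ofMul
    ext
    rfl
  right_inv y := by
    apply fdi_invVal_injective M
    ext
    rfl
  map_add' := (fdi_toInv M).map_add

/-- The action of `G ⧸ M` on invariants, in terms of elements of `Ω`. -/
theorem fdi_invVal_smul (g : Ω ≃ₐ[E] Ω) (y : fdi_Inv M) :
    ((fdi_invVal M (((Rep.ofAlgebraAutOnUnits E Ω).quotientToInvariants M).ρ
      (QuotientGroup.mk g) y) : Ωˣ) : Ω) = g ((fdi_invVal M y : Ωˣ) : Ω) := rfl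

theorem fdi_ofInv_smul (q : (Ω ≃ₐ[E] Ω) ⧸ M) (y : fdi_Inv M) :
    fdi_ofInv M (((Rep.ofAlgebraAutOnUnits E Ω).quotientToInvariants M).ρ q y) =
      (Rep.ofAlgebraAutOnUnits E ↥(IntermediateField.fixedField M)).ρ (fdi_quotEquiv M q)
        (fdi_ofInv M y) := by
  induction q using QuotientGroup.induction_on with
  | H g =>
    apply congrArg Additive.ofMul
    ext
    have h := fdi_quotEquiv_mk M g
      (((fdi_ofInv M y).toMul : (↥(IntermediateField.fixedField M))ˣ) :
        ↥(IntermediateField.fixedField M))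
    exact h.symm

/-- **Part B, cohomology.** `Hⁿ(G/M, (Ωˣ)^M) ≅ Hⁿ(Gal(F/E), Fˣ)`, `F = Ω^M`. -/
def fdi_quotIso (n : ℕ) :
    groupCohomology ((Rep.ofAlgebraAutOnUnits E Ω).quotientToInvariants M) n ≅
      groupCohomology (Rep.ofAlgebraAutOnUnits E ↥(IntermediateField.fixedField M)) n :=
  groupCohomology.mapIso (A := Rep.ofAlgebraAutOnUnits E ↥(IntermediateField.fixedField M))
    (B := (Rep.ofAlgebraAutOnUnits E Ω).quotientToInvariants M) (fdi_quotEquiv M)
    (fdi_invEquiv M).symm.toIntLinearEquiv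
    (fun q => LinearMap.ext fun y => fdi_ofInv_smul M q y) n

end Fermat.Agent.S55
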