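/-
S55 / [L1] field dictionary, part D (helper23): invariants and norm of the Galois module `Lˣ`,
and `|H²(Gal(L/E), Lˣ)| = [Eˣ : N Lˣ]` for cyclic `L/E`.
Field-generic, Mathlib only (plus `dv_` cyclic bridge), no valuations.  Prefix `fdi_`.
-/
import Mathlib
import Fermat.Agent.S55.Devissage.CyclicBridge

set_option autoImplicit false

noncomputable section

namespace Fermat.Agent.S55

open CategoryTheory groupCohomology

variable (E L : Type) [Field E] [Field L] [Algebra E L]

/-- The inclusion `Eˣ → Lˣ`, additively. -/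
def fdi_unitsIncl : Additive Eˣ →+ Additive Lˣ :=
  MonoidHom.toAdditive (Units.map (algebraMap E L : E →* L))

theorem fdi_unitsIncl_apply (x : Additive Eˣ) :
    ((fdi_unitsIncl E L x).toMul : Lˣ) = Units.map (algebraMap E L : E →* L) x.toMul := rfl

theorem fdi_unitsIncl_injective : Function.Injective (fdi_unitsIncl E L) := by
  intro x y h
  have h1 : ((Units.map (algebraMap E L : E →* L) x.toMul : Lˣ) : L) =
      ((Units.map (algebraMap E L : E →* L) y.toMul : Lˣ) : L) :=
    congrArg (fun z : Additive Lˣ => ((z.toMul : Lˣ) : L)) h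
  have h2 : ((x.toMul : Eˣ) : E) = ((y.toMul : Eˣ) : E) := (algebraMap E L).injective h1
  exact congrArg Additive.ofMul (Units.ext h2)

variable [FiniteDimensional E L] [IsGalois E L]

/-- An element of `Additive Lˣ` is `Gal(L/E)`-invariant iff it comes from `Eˣ`. -/
theorem fdi_mem_invariants_iff (x : Additive Lˣ) :
    (∀ g : L ≃ₐ[E] L, (Rep.ofAlgebraAutOnUnits E L).ρ g x = x) ↔
      x ∈ (fdi_unitsIncl E L).range := by
  constructor
  · intro h
    have hfix : ∀ g : L ≃ₐ[E] L, g ((x.toMul : Lˣ) : L) = ((x.toMul : Lˣ) : L) := fun g =>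
      congrArg (fun z : Additive Lˣ => ((z.toMul : Lˣ) : L)) (h g)
    obtain ⟨y, hy⟩ := (IsGalois.mem_range_algebraMap_iff_fixed _).mpr hfix
    have hy0 : y ≠ 0 := by
      rintro rfl
      rw [map_zero] at hy
      exact (x.toMul : Lˣ).ne_zero hy.symm
    refine ⟨Additive.ofMul (Units.mk0 y hy0), ?_⟩
    have : Units.map (algebraMap E L : E →* L) (Units.mk0 y hy0) = x.toMul := by
      ext
      exact hy
    exact congrArg Additive.ofMul this
  · rintro ⟨y, rfl⟩ g
    apply congrArg Additive.ofMul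
    ext
    exact g.commutes _

/-- Invariance under a generator suffices. -/
theorem fdi_mem_kerSub_iff (g : L ≃ₐ[E] L) (hg : ∀ x, x ∈ Subgroup.zpowers g)
    (x : Additive Lˣ) :
    x ∈ dv_kerSub (Rep.ofAlgebraAutOnUnits E L) g ↔ x ∈ (fdi_unitsIncl E L).range := by
  refine Iff.trans (dv_mem_kerSub (Rep.ofAlgebraAutOnUnits E L) g x) ?_
  rw [← fdi_mem_invariants_iff]
  constructor
  · intro h σ
    obtain ⟨n, rfl⟩ := Subgroup.mem_zpowers_iff.mp (hg σ)
    have hmem : g ∈ MulAction.stabilizer (L ≃ₐ[E] L) ((x.toMul : Lˣ)) := by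
      rw [MulAction.mem_stabilizer_iff]
      exact congrArg Additive.toMul h
    have := (MulAction.stabilizer (L ≃ₐ[E] L) ((x.toMul : Lˣ))).zpow_mem hmem n
    rw [MulAction.mem_stabilizer_iff] at this
    exact congrArg Additive.ofMul this
  · intro h
    exact h g

/-- The norm of the Galois module `Lˣ` is the field norm. -/
theorem fdi_norm_apply (x : Additive Lˣ) :
    (Rep.ofAlgebraAutOnUnits E L).ρ.norm x =
      fdi_unitsIncl E L (Additive.ofMul (Units.map (Algebra.norm E : L →* E) x.toMul)) := by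
  have : (Additive.toMul (show Additive Lˣ from (Rep.ofAlgebraAutOnUnits E L).ρ.norm x) : Lˣ) =
      Units.map (algebraMap E L : E →* L) (Units.map (Algebra.norm E : L →* E) x.toMul) := by
    apply Units.ext
    have h := groupCohomology.norm_ofAlgebraAutOnUnits_eq (K := E) (L := L) x.toMul
    exact h
  exact congrArg Additive.ofMul this

/-- The norm group `N Lˣ ≤ Eˣ`. -/
abbrev fdi_normGroup : Subgroup Eˣ := MonoidHom.range (Units.map (Algebra.norm E : L →* E))

theorem fdi_kerSub_eq (g : L ≃ₐ[E] L) (hg : ∀ x, x ∈ Subgroup.zpowers g) :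
    dv_kerSub (Rep.ofAlgebraAutOnUnits E L) g = AddSubgroup.map (fdi_unitsIncl E L) ⊤ := by
  ext x
  rw [← AddMonoidHom.range_eq_map]
  exact fdi_mem_kerSub_iff E L g hg x

theorem fdi_rangeNorm_eq :
    dv_rangeNorm (Rep.ofAlgebraAutOnUnits E L) =
      AddSubgroup.map (fdi_unitsIncl E L) (Subgroup.toAddSubgroup (fdi_normGroup E L)) := by
  ext x
  constructor
  · rintro ⟨y, rfl⟩
    refine ⟨Additive.ofMul (Units.map (Algebra.norm E : L →* E)
      (Additive.toMul (show Additive Lˣ from y))), ?_, ?_⟩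
    · exact ⟨_, rfl⟩
    · exact (fdi_norm_apply E L y).symm
  · rintro ⟨z, ⟨y, hy⟩, rfl⟩
    refine ⟨Additive.ofMul y, ?_⟩
    have h := fdi_norm_apply E L (Additive.ofMul y)
    rw [toMul_ofMul, hy] at h
    exact h

/-- **`|H²(Gal(L/E), Lˣ)| = [Eˣ : N_{L/E} Lˣ]`** for a finite cyclic extension. -/
theorem fdi_card_H2_cyclic (g : L ≃ₐ[E] L) (hg : ∀ x, x ∈ Subgroup.zpowers g) :
    Nat.card (H2 (Rep.ofAlgebraAutOnUnits E L)) = (fdi_normGroup E L).index := by
  rw [dv_cyclic_card_H2 (Rep.ofAlgebraAutOnUnits E L) g hg, fdi_kerSub_eq E L g hg,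
    fdi_rangeNorm_eq]
  have h := AddSubgroup.relIndex_map_map_of_injective
    (Subgroup.toAddSubgroup (fdi_normGroup E L)) ⊤ (fdi_unitsIncl_injective E L)
  rw [AddSubgroup.relIndex_top_right, Subgroup.index_toAddSubgroup] at h
  exact h

end Fermat.Agent.S55
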