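/-
S55 / [L1] field dictionary, part C (helper23): layers `N ⊴ H ≤ Gal(Ω/K)` versus field
extensions.  For `Ω/K` finite Galois, `H ≤ Γ = Gal(Ω/K)` and `N ⊴ H`, put `E' = Ω^H` and
`F' = Ω^N` (as an intermediate field of `Ω/E'`).  Then the `H/N`-module `(Ωˣ)^N` is the
`Gal(F'/E')`-module `F'ˣ`; consequently the cyclic layers of degree `p` of `Ωˣ` have trivial `H¹`
(Hilbert 90) and `H²` of order the norm index of `F'/E'`.
Field-generic, no valuations.  Prefix `fdi_`.
-/
import Mathlib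
import Fermat.Agent.S55.LocalCF.FieldDictA
import Fermat.Agent.S55.LocalCF.FieldDictB
import Fermat.Agent.S55.LocalCF.FieldDictD
import Fermat.Agent.S55.Devissage.InfRes2Bridge

set_option autoImplicit false
set_option linter.unusedSectionVars false

noncomputable section

namespace Fermat.Agent.S55

open CategoryTheory groupCohomology

variable {K Ω : Type} [Field K] [Field Ω] [Algebra K Ω] [FiniteDimensional K Ω] [IsGalois K Ω]

variable (H : Subgroup (Ω ≃ₐ[K] Ω)) (N : Subgroup ↥H)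

/-- The base field `Ω^H` of the layer `N ≤ H`. -/
abbrev fdi_layerBase : Type := ↥(IntermediateField.fixedField H)

/-- The image of `N` in `Gal(Ω/Ω^H)`. -/
def fdi_layerSub : Subgroup (Ω ≃ₐ[fdi_layerBase H] Ω) :=
  N.map (fdi_subEquiv H : ↥H →* (Ω ≃ₐ[fdi_layerBase H] Ω))

theorem fdi_mem_layerSub_iff (τ : Ω ≃ₐ[fdi_layerBase H] Ω) :
    τ ∈ fdi_layerSub H N ↔ ∃ n ∈ N, fdi_subEquiv H n = τ := Iff.rfl

theorem fdi_subEquiv_mem_layerSub (n : ↥H) (hn : n ∈ N) : fdi_subEquiv H n ∈ fdi_layerSub H N :=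
  ⟨n, hn, rfl⟩

theorem fdi_map_layerSub :
    N.map ((fdi_subEquiv H).toMonoidHom) = fdi_layerSub H N := rfl

instance fdi_layerSub_normal [N.Normal] : (fdi_layerSub H N).Normal :=
  Subgroup.Normal.map inferInstance _ (fdi_subEquiv H).surjective

/-- The top field `Ω^N` of the layer, as an extension of `Ω^H`. -/
abbrev fdi_layerTop : Type := ↥(IntermediateField.fixedField (fdi_layerSub H N))

theorem fdi_mem_layerTop_iff (x : Ω) :
    x ∈ IntermediateField.fixedField (fdi_layerSub H N) ↔ ∀ n ∈ N, (n : Ω ≃ₐ[K] Ω) x = x := by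
  constructor
  · intro hx n hn
    exact hx ⟨fdi_subEquiv H n, fdi_subEquiv_mem_layerSub H N n hn⟩
  · rintro hx ⟨τ, n, hn, rfl⟩
    exact hx n hn

instance fdi_layerTop_tower : IsScalarTower K (fdi_layerTop H N) Ω :=
  ⟨fun r x y => by
    show ((r • x : fdi_layerTop H N) : Ω) * y = r • ((x : Ω) * y)
    rw [IntermediateField.coe_smul, smul_mul_assoc]⟩

instance fdi_layerTop_finite : FiniteDimensional K (fdi_layerTop H N) :=
  FiniteDimensional.of_injective
    ((IsScalarTower.toAlgHom K (fdi_layerTop H N) Ω).toLinearMap)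
    (IsScalarTower.toAlgHom K (fdi_layerTop H N) Ω).injective

variable [N.Normal]

/-- `H ⧸ N ≃* Gal(Ω/Ω^H) ⧸ N'`. -/
def fdi_layerQuotEquiv : ↥H ⧸ N ≃* (Ω ≃ₐ[fdi_layerBase H] Ω) ⧸ fdi_layerSub H N :=
  QuotientGroup.congr N (fdi_layerSub H N) (fdi_subEquiv H) (fdi_map_layerSub H N)

theorem fdi_layerQuotEquiv_mk (h : ↥H) :
    fdi_layerQuotEquiv H N (QuotientGroup.mk h) = QuotientGroup.mk (fdi_subEquiv H h) := rfl

/-- `H ⧸ N ≃* Gal(Ω^N/Ω^H)`. -/
def fdi_layerEquiv : ↥H ⧸ N ≃* (fdi_layerTop H N ≃ₐ[fdi_layerBase H] fdi_layerTop H N) :=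
  (fdi_layerQuotEquiv H N).trans (fdi_quotEquiv (fdi_layerSub H N))

theorem fdi_layerEquiv_mk (h : ↥H) (x : fdi_layerTop H N) :
    ((fdi_layerEquiv H N (QuotientGroup.mk h) x : fdi_layerTop H N) : Ω) =
      (h : Ω ≃ₐ[K] Ω) (x : Ω) :=
  fdi_quotEquiv_mk (fdi_layerSub H N) (fdi_subEquiv H h) x

/-- The `N`-invariants of `Additive Ωˣ` (carrier of the `H/N`-module) coincide with the
`N'`-invariants. -/
def fdi_layerInvEquiv :
    ((Rep.res H.subtype (Rep.ofAlgebraAutOnUnits K Ω)).quotientToInvariants N).V ≃ₗ[ℤ]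
      ((Rep.ofAlgebraAutOnUnits (fdi_layerBase H) Ω).quotientToInvariants (fdi_layerSub H N)).V where
  toFun y := ⟨y.1, fun ⟨τ, n, hn, hτ⟩ => by
    subst hτ
    exact y.2 ⟨n, hn⟩⟩
  invFun y := ⟨y.1, fun n => y.2 ⟨fdi_subEquiv H n.1, fdi_subEquiv_mem_layerSub H N n.1 n.2⟩⟩
  left_inv _ := rfl
  right_inv _ := rfl
  map_add' _ _ := rfl
  map_smul' _ _ := rfl

/-- First step of the layer dictionary: `Hⁿ(H/N, (Ωˣ)^N) ≅ Hⁿ(Gal(Ω/Ω^H)/N', (Ωˣ)^{N'})`. -/
def fdi_layerIso₁ (n : ℕ) :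
    groupCohomology ((Rep.res H.subtype (Rep.ofAlgebraAutOnUnits K Ω)).quotientToInvariants N) n ≅
      groupCohomology ((Rep.ofAlgebraAutOnUnits (fdi_layerBase H) Ω).quotientToInvariants
        (fdi_layerSub H N)) n :=
  groupCohomology.mapIso
    (A := (Rep.ofAlgebraAutOnUnits (fdi_layerBase H) Ω).quotientToInvariants (fdi_layerSub H N))
    (B := (Rep.res H.subtype (Rep.ofAlgebraAutOnUnits K Ω)).quotientToInvariants N)
    (fdi_layerQuotEquiv H N) (fdi_layerInvEquiv H N)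
    (fun q => by
      induction q using QuotientGroup.induction_on with
      | H h => rfl) n

/-- **Part C.** `Hⁿ(H/N, (Ωˣ)^N) ≅ Hⁿ(Gal(F'/E'), F'ˣ)` for `E' = Ω^H`, `F' = Ω^N`. -/
def fdi_layerIso (n : ℕ) :
    groupCohomology ((Rep.res H.subtype (Rep.ofAlgebraAutOnUnits K Ω)).quotientToInvariants N) n ≅
      groupCohomology (Rep.ofAlgebraAutOnUnits (fdi_layerBase H) (fdi_layerTop H N)) n :=
  fdi_layerIso₁ H N n ≪≫ fdi_quotIso (fdi_layerSub H N) n

instance fdi_layerTop_isGalois : IsGalois (fdi_layerBase H) (fdi_layerTop H N) :=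
  IsGalois.of_fixedField_normal_subgroup (fdi_layerSub H N)

theorem fdi_card_layerGal :
    Nat.card (fdi_layerTop H N ≃ₐ[fdi_layerBase H] fdi_layerTop H N) = N.index := by
  rw [← Nat.card_congr (fdi_layerEquiv H N).toEquiv, Subgroup.index_eq_card]

theorem fdi_finrank_layer :
    Module.finrank (fdi_layerBase H) (fdi_layerTop H N) = N.index := by
  rw [← fdi_card_layerGal H N, IsGalois.card_aut_eq_finrank]

/-- Hilbert 90 for a layer. -/
theorem fdi_layer_H1 :
    Subsingleton (H1 ((Rep.res H.subtype (Rep.ofAlgebraAutOnUnits K Ω)).quotientToInvariants N)) :=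
  (fdi_layerIso H N 1).toLinearEquiv.toEquiv.subsingleton_congr.mpr
    (Unique.instSubsingleton (α := H1 (Rep.ofAlgebraAutOnUnits
      (fdi_layerBase H) (fdi_layerTop H N))))

/-- `|H²|` of a layer with cyclic quotient is the norm index of `F'/E'`. -/
theorem fdi_layer_card_H2 (hcyc : IsCyclic (↥H ⧸ N)) :
    Nat.card (H2 ((Rep.res H.subtype (Rep.ofAlgebraAutOnUnits K Ω)).quotientToInvariants N)) =
      (fdi_normGroup (fdi_layerBase H) (fdi_layerTop H N)).index := by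
  rw [Nat.card_congr (fdi_layerIso H N 2).toLinearEquiv.toEquiv]
  obtain ⟨g, hg⟩ := hcyc.exists_generator
  exact fdi_card_H2_cyclic (fdi_layerBase H) (fdi_layerTop H N) (fdi_layerEquiv H N g)
    (fun τ => by
      obtain ⟨q, rfl⟩ := (fdi_layerEquiv H N).surjective τ
      obtain ⟨k, rfl⟩ := Subgroup.mem_zpowers_iff.1 (hg q)
      exact ⟨k, (map_zpow (fdi_layerEquiv H N) g k).symm⟩)

omit [N.Normal] in
/-- **Cyclic layers of `Ωˣ`.**  If every Galois layer `F'/E'` of prime degree `p` inside `Ω/K`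
has norm index dividing `p`, then the cyclic-layer hypothesis of the devissage holds. -/
theorem fdi_cyclicLayers (p : ℕ) [hp : Fact p.Prime]
    (hidx : ∀ (H : Subgroup (Ω ≃ₐ[K] Ω)) (N : Subgroup ↥H) [N.Normal], N.index = p →
      (fdi_normGroup (fdi_layerBase H) (fdi_layerTop H N)).index ∣ p) :
    dv_CyclicLayers p (Rep.ofAlgebraAutOnUnits K Ω) := by
  intro H N _ hN
  have hcard : Nat.card (↥H ⧸ N) = p := by rw [← Subgroup.index_eq_card, hN]
  have hcyc : IsCyclic (↥H ⧸ N) := isCyclic_of_prime_card hcard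
  have h2 := fdi_layer_card_H2 H N hcyc
  have hd := hidx H N hN
  refine ⟨fdi_layer_H1 H N, ?_, ?_⟩
  · apply Nat.finite_of_card_ne_zero
    rw [h2]
    intro h0
    rw [h0] at hd
    exact hp.out.ne_zero (zero_dvd_iff.1 hd)
  · rw [h2]
    exact hd

end Fermat.Agent.S55
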