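/-
S55 / [L] local class formation, leaf (L-unr) (helper24): **a `p`-primary character orthogonal to
the local units is trivial on inertia** (needed by G5 / G-abs, #747).

Abstract form, top layer, `H²(Γ, ℤ)`-language, for ANY `P : PClassModule p C` (the normalisation of
the invariant maps is irrelevant).  Setting: `Γ` finite, `J ⊲ Γ` ("inertia") with `Γ ⧸ J` generated
by the image of `φ` ("Frobenius"), `v : C →+ ℤ` a `Γ`-invariant surjective "valuation" with
`v(C^Γ) = |J| ℤ`, and "units of the base are norms from `C^J`" in Frobenius form (`hnorm`, the shape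
of `lq_unram_norm`).  Then for a `p`-primary `y ∈ H²(Γ, ℤ)`:

* `lu_pair_infZ_unit`: classes inflated from `Γ ⧸ J` pair to zero with the units (easy direction);
* `lu_exists_infl`: if `y` pairs to zero with all units, `y` is inflated from `Γ ⧸ J`;
* `lu_unr`: ... hence `res^Γ_J y = 0`.

Proof: Tate–Nakayama (right kernel, `tt_TN_right`) for `Y = ℤ`, the vanishing of norms on `H²`,
and a generator of the `p`-part of `H²(Γ ⧸ J, ℤ)` (from `zc_pclass`).  For a layer `H ≤ Γ₀` apply it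
to a class module on `tt_res H C` (e.g. `P.restrict H`).
-/
import Fermat.Agent.S55.Tate.TateNakayama
import Fermat.Agent.S55.Tate.ClassModuleTransport
import Fermat.Agent.S55.Dual.LevelDuality
import Fermat.Agent.S55.LocalCF.InfPi
import Fermat.Agent.S55.FinGrp.FiniteH2
import Fermat.Agent.S55.Recip.ZClass
import Fermat.Agent.S55.Tate.TNLayer

set_option autoImplicit false

namespace Fermat.Agent.S55

open CategoryTheory groupCohomology Finset

noncomputable section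

section ev

variable {Γ : Type} [Group Γ] (C : Rep.{0} ℤ Γ)

/-- The morphism `ℤ ⟶ C`, `n ↦ n • u`, attached to an invariant element `u`. -/
def lu_ev (u : C.V) (hu : ∀ g, C.ρ g u = u) : Rep.trivial ℤ Γ ℤ ⟶ C :=
  tt_homOfAdd (A := Rep.trivial ℤ Γ ℤ) (B := C) (zmultiplesHom C.V u) (fun g n => by
    show (zmultiplesHom C.V u) n = C.ρ g ((zmultiplesHom C.V u) n)
    rw [zmultiplesHom_apply, map_zsmul, hu])

theorem lu_ev_apply (u : C.V) (hu : ∀ g, C.ρ g u = u) (n : ℤ) :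
    (lu_ev C u hu).hom n = n • u := rfl

theorem lu_hom_invariant (φ : Rep.trivial ℤ Γ ℤ ⟶ C) (g : Γ) :
    C.ρ g (φ.hom (1 : ℤ)) = φ.hom (1 : ℤ) := by
  have h := Rep.hom_comm_apply φ g (1 : ℤ)
  rw [← h]
  rfl

/-- Every morphism `ℤ ⟶ C` is `lu_ev` of the image of `1`. -/
theorem lu_hom_eq_ev (φ : Rep.trivial ℤ Γ ℤ ⟶ C) :
    φ = lu_ev C (φ.hom (1 : ℤ)) (lu_hom_invariant C φ) := by
  ext
  refine DFunLike.ext _ _ fun n => ?_
  show φ.hom n = n • φ.hom (1 : ℤ)
  have : n = n • (1 : ℤ) := by simp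
  conv_lhs => rw [this]
  exact map_zsmul φ.hom.toAddMonoidHom n 1

theorem lu_ev_add (u u' : C.V) (hu : ∀ g, C.ρ g u = u) (hu' : ∀ g, C.ρ g u' = u') :
    lu_ev C (u + u') (fun g => by rw [map_add, hu, hu']) = lu_ev C u hu + lu_ev C u' hu' := by
  ext
  refine DFunLike.ext _ _ fun n => ?_
  show n • (u + u') = n • u + n • u'
  rw [smul_add]

theorem lu_ev_zsmul (m : ℤ) (u : C.V) (hu : ∀ g, C.ρ g u = u) :
    lu_ev C (m • u) (fun g => by rw [map_zsmul, hu]) = m • lu_ev C u hu := by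
  ext
  refine DFunLike.ext _ _ fun n => ?_
  show n • (m • u) = m • (n • u)
  rw [smul_comm]

end ev

section pairing

variable {Γ : Type} [Group Γ] {p : ℕ} {C : Rep.{0} ℤ Γ} (P : PClassModule p C)

/-- The invariant elements of `C`. -/
def lu_inv (C : Rep.{0} ℤ Γ) : AddSubgroup C.V where
  carrier := {u | ∀ g, C.ρ g u = u}
  zero_mem' := fun g => map_zero _
  add_mem' := fun {a b} ha hb g => by rw [map_add, ha g, hb g]
  neg_mem' := fun {a} ha g => by rw [map_neg, ha g]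

theorem lu_mem_inv {u : C.V} : u ∈ lu_inv C ↔ ∀ g, C.ρ g u = u := Iff.rfl

/-- The pairing with a fixed class `y ∈ H²(Γ, ℤ)`, as a homomorphism on the invariants of `C`. -/
def lu_pair (y : groupCohomology (Rep.trivial ℤ Γ ℤ) 2) : lu_inv C →+ tt_QZ :=
  AddMonoidHom.mk' (fun u => P.pairing (lu_ev C u.1 u.2) y) (fun u u' => by
    show P.pairing (lu_ev C (u.1 + u'.1) _) y = _
    rw [lu_ev_add C u.1 u'.1 u.2 u'.2, P.pairing_apply, P.pairing_apply, P.pairing_apply,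
      ld_coeffMap_add, ModuleCat.hom_add, LinearMap.add_apply, map_add])

theorem lu_pair_apply (y : groupCohomology (Rep.trivial ℤ Γ ℤ) 2) (u : lu_inv C) :
    lu_pair P y u = P.pairing (lu_ev C u.1 u.2) y := rfl

/-- The pairing is additive in the class. -/
theorem lu_pair_add_class (y y' : groupCohomology (Rep.trivial ℤ Γ ℤ) 2) (u : lu_inv C) :
    lu_pair P (y + y') u = lu_pair P y u + lu_pair P y' u := by
  rw [lu_pair_apply, lu_pair_apply, lu_pair_apply, map_add]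

theorem lu_pair_sub_class (y y' : groupCohomology (Rep.trivial ℤ Γ ℤ) 2) (u : lu_inv C) :
    lu_pair P (y - y') u = lu_pair P y u - lu_pair P y' u := by
  rw [lu_pair_apply, lu_pair_apply, lu_pair_apply, map_sub]

theorem lu_pair_nsmul_class (n : ℕ) (y : groupCohomology (Rep.trivial ℤ Γ ℤ) 2) (u : lu_inv C) :
    lu_pair P (n • y) u = n • lu_pair P y u := by
  rw [lu_pair_apply, lu_pair_apply, map_nsmul]

theorem lu_pair_zsmul_class (n : ℤ) (y : groupCohomology (Rep.trivial ℤ Γ ℤ) 2) (u : lu_inv C) :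
    lu_pair P (n • y) u = n • lu_pair P y u := by
  rw [lu_pair_apply, lu_pair_apply, map_zsmul]

/-- `lu_ev` of a norm induces zero on `H²`. -/
theorem lu_coeffMap_ev_norm [Fintype Γ] (C : Rep.{0} ℤ Γ) (u : C.V) (hu : ∀ g, C.ρ g u = u)
    (a : C.V) (h : u = ∑ g : Γ, C.ρ g a) : tt_coeffMap (lu_ev C u hu) 2 = 0 := by
  apply fh_coeffMap_eq_zero_of_norm (Rep.trivial ℤ Γ ℤ) C (lu_ev C u hu) (zmultiplesHom C.V a)
  intro n
  show n • u = ∑ g : Γ, C.ρ g (n • a)
  rw [h, Finset.smul_sum]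
  refine Finset.sum_congr rfl fun g _ => ?_
  rw [map_zsmul]

/-- Norms pair to zero. -/
theorem lu_pair_norm [Fintype Γ] (y : groupCohomology (Rep.trivial ℤ Γ ℤ) 2) (u : lu_inv C) (a : C.V)
    (h : u.1 = ∑ g : Γ, C.ρ g a) : lu_pair P y u = 0 := by
  rw [lu_pair_apply, P.pairing_apply, lu_coeffMap_ev_norm C u.1 u.2 a h]
  simp

end pairing

section tn

variable {Γ : Type} [Group Γ] [Fintype Γ] {p : ℕ} [Fact p.Prime] {C : Rep.{0} ℤ Γ}
  (P : PClassModule p C)

omit [Fintype Γ] in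
theorem lu_isLattice_Z : tt_IsLattice (Rep.trivial ℤ Γ ℤ) :=
  ⟨1, ⟨(AddEquiv.funUnique (Fin 1) ℤ).symm⟩⟩

/-- **Tate–Nakayama (right kernel) for `Y = ℤ`**: a `p`-primary class of `H²(Γ, ℤ)` pairing to
zero with all invariants of `C` vanishes. -/
theorem lu_eq_zero_of_pair (y : groupCohomology (Rep.trivial ℤ Γ ℤ) 2) (hy : tt_IsPPrimary p y)
    (h : ∀ u : lu_inv C, lu_pair P y u = 0) : y = 0 := by
  refine tt_TN_right P (Rep.trivial ℤ Γ ℤ) lu_isLattice_Z y hy fun φ => ?_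
  rw [lu_hom_eq_ev C φ]
  exact h ⟨φ.hom (1 : ℤ), lu_hom_invariant C φ⟩

end tn

section local_part

variable {Γ : Type} [Group Γ] [Fintype Γ] {p : ℕ} [Fact p.Prime] {C : Rep.{0} ℤ Γ}
  (P : PClassModule p C) (J : Subgroup Γ)
  (v : C.V →+ ℤ) (hv : ∀ g c, v (C.ρ g c) = v c)
  (hve : ∀ c, (∀ g, C.ρ g c = c) → (Nat.card J : ℤ) ∣ v c)

include hve in
omit [Fintype Γ] [Fact p.Prime] in
/-- If `y` pairs to zero with the units and with a uniformiser of the base, it pairs to zero with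
every invariant. -/
theorem lu_pair_eq_zero_of_unif (y : groupCohomology (Rep.trivial ℤ Γ ℤ) 2)
    (hU : ∀ u : lu_inv C, v u.1 = 0 → lu_pair P y u = 0)
    (πK : lu_inv C) (hπK : v πK.1 = Nat.card J) (hπ0 : lu_pair P y πK = 0)
    (c : lu_inv C) : lu_pair P y c = 0 := by
  obtain ⟨m, hm⟩ := hve c.1 c.2
  have h1 : v (c - m • πK).1 = 0 := by
    rw [AddSubgroup.coe_sub, AddSubgroup.coe_zsmul, map_sub, map_zsmul, hπK, hm, smul_eq_mul]
    ring
  have h2 := hU _ h1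
  rw [map_sub, map_zsmul, hπ0, smul_zero, sub_zero] at h2
  exact h2

include hv in
omit [Fact p.Prime] in
/-- For a class orthogonal to the units, the value on a uniformiser of the base is killed by the
residue degree `f = [Γ : J]`. -/
theorem lu_index_smul_pair_unif (y : groupCohomology (Rep.trivial ℤ Γ ℤ) 2)
    (hU : ∀ u : lu_inv C, v u.1 = 0 → lu_pair P y u = 0)
    (πK : lu_inv C) (hπK : v πK.1 = Nat.card J) (πL : C.V) (hπL : v πL = 1) :
    J.index • lu_pair P y πK = 0 := by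
  have hN : (∑ g : Γ, C.ρ g πL) ∈ lu_inv C := by
    intro g
    rw [map_sum]
    exact Fintype.sum_equiv (Equiv.mulLeft g) _ _ (fun x => by
      rw [Equiv.coe_mulLeft, map_mul]; rfl)
  have hvN : v (∑ g : Γ, C.ρ g πL) = Nat.card Γ := by
    rw [map_sum]
    simp only [hv, hπL]
    rw [Finset.sum_const, Finset.card_univ, Nat.card_eq_fintype_card]
    simp
  have h1 : v ((J.index • πK - ⟨_, hN⟩ : lu_inv C)).1 = 0 := by
    rw [AddSubgroup.coe_sub, AddSubgroup.coe_nsmul, map_sub, map_nsmul, hπK, hvN,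
      ← J.index_mul_card]
    push_cast
    simp [mul_comm]
  have h2 := hU _ h1
  rw [map_sub, map_nsmul, lu_pair_norm P y ⟨_, hN⟩ πL rfl, sub_zero] at h2
  exact h2

end local_part

section quotient

variable {Γ : Type} [Group Γ] (J : Subgroup Γ) [J.Normal]

/-- The identity of `ℤ`, from the inflated trivial module of `Γ ⧸ J` to that of `Γ`. -/
def lu_phiZ : Rep.res (QuotientGroup.mk' J) (Rep.trivial ℤ (Γ ⧸ J) ℤ) ⟶ Rep.trivial ℤ Γ ℤ :=
  tt_homOfAdd (A := Rep.res (QuotientGroup.mk' J) (Rep.trivial ℤ (Γ ⧸ J) ℤ))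
    (B := Rep.trivial ℤ Γ ℤ) (AddMonoidHom.id ℤ) (fun _ _ => rfl)

theorem lu_phiZ_apply (n : ℤ) : (lu_phiZ J).hom n = n := rfl

theorem lu_isInfl_Z : lc_IsInfl (QuotientGroup.mk' J) (lu_phiZ J) where
  surj := QuotientGroup.mk'_surjective J
  inj := fun _ _ h => h
  range := fun a _ => ⟨a, rfl⟩

/-- Inflation `H²(Γ ⧸ J, ℤ) ⟶ H²(Γ, ℤ)`. -/
abbrev lu_infZ : groupCohomology (Rep.trivial ℤ (Γ ⧸ J) ℤ) 2 ⟶
    groupCohomology (Rep.trivial ℤ Γ ℤ) 2 :=
  lc_inf₂ (QuotientGroup.mk' J) (lu_phiZ J)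

variable (C : Rep.{0} ℤ Γ)

/-- A sum over a finite cyclic group as a sum over powers of a generator. -/
theorem lu_sum_eq_sum_range_pow {Q M : Type*} [Group Q] [Fintype Q] [AddCommMonoid M] (ψ : Q)
    (hψ : ∀ γ : Q, γ ∈ Subgroup.zpowers ψ) (F : Q → M) :
    ∑ γ : Q, F γ = ∑ i ∈ range (Nat.card Q), F (ψ ^ i) := by
  have hord : orderOf ψ = Nat.card Q := orderOf_eq_card_of_forall_mem_zpowers hψ
  have hfin : IsOfFinOrder ψ := isOfFinOrder_of_finite ψ
  symm
  refine Finset.sum_bij (fun i _ => ψ ^ i) (fun _ _ => Finset.mem_univ _) ?_ ?_ (fun _ _ => rfl)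
  · intro i hi j hj hij
    rw [Finset.mem_range, ← hord] at hi hj
    exact pow_injOn_Iio_orderOf (Set.mem_Iio.mpr hi) (Set.mem_Iio.mpr hj) hij
  · intro γ _
    obtain ⟨k, rfl⟩ := Subgroup.mem_zpowers_iff.mp (hψ γ)
    refine ⟨(k % (orderOf ψ : ℤ)).toNat, ?_, ?_⟩
    · rw [Finset.mem_range, ← hord]
      have h1 : 0 ≤ k % (orderOf ψ : ℤ) :=
        Int.emod_nonneg _ (by exact_mod_cast hfin.orderOf_pos.ne')
      have h2 : k % (orderOf ψ : ℤ) < orderOf ψ :=
        Int.emod_lt_of_pos _ (by exact_mod_cast hfin.orderOf_pos)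
      omega
    · have h1 : 0 ≤ k % (orderOf ψ : ℤ) :=
        Int.emod_nonneg _ (by exact_mod_cast hfin.orderOf_pos.ne')
      rw [← zpow_natCast, Int.toNat_of_nonneg h1, zpow_mod_orderOf]

/-- The image of a Frobenius lift generates the quotient. -/
theorem lu_mk_mem_zpowers (φ : Γ) (hφ : ∀ g : Γ, ∃ k : ℕ, g⁻¹ * φ ^ k ∈ J) (x : Γ ⧸ J) :
    x ∈ Subgroup.zpowers (φ : Γ ⧸ J) := by
  induction x using QuotientGroup.induction_on with
  | H g =>
    obtain ⟨k, hk⟩ := hφ g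
    refine Subgroup.mem_zpowers_iff.2 ⟨k, ?_⟩
    rw [zpow_natCast, ← QuotientGroup.mk_pow]
    exact (QuotientGroup.eq.2 hk).symm

/-- **Step A**: the morphism `ℤ ⟶ C` of an invariant which is a norm from `C^J` for the cyclic
quotient `Γ ⧸ J` kills all classes inflated from `Γ ⧸ J`. -/
theorem lu_infZ_comp_ev [Fintype (Γ ⧸ J)] (φ : Γ) (hφ : ∀ g : Γ, ∃ k : ℕ, g⁻¹ * φ ^ k ∈ J)
    (u : C.V) (hu : ∀ g, C.ρ g u = u) (b : C.V) (hbJ : ∀ j ∈ J, C.ρ j b = b)
    (hb : u = ∑ i ∈ range J.index, C.ρ (φ ^ i) b) :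
    lu_infZ J ≫ tt_coeffMap (lu_ev C u hu) 2 = 0 := by
  have huJ : ∀ s : J, (C.ρ.comp J.subtype) s u = u := fun s => hu s
  have hbJ' : ∀ s : J, (C.ρ.comp J.subtype) s b = b := fun s => hbJ s s.2
  set uQ : (C.quotientToInvariants J).V := ⟨u, huJ⟩ with huQdef
  set bQ : (C.quotientToInvariants J).V := ⟨b, hbJ'⟩ with hbQdef
  have huQ : ∀ q : Γ ⧸ J, (C.quotientToInvariants J).ρ q uQ = uQ := by
    intro q
    induction q using QuotientGroup.induction_on with
    | H g => exact Subtype.ext (hu g)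
  have hsum : uQ = ∑ q : Γ ⧸ J, (C.quotientToInvariants J).ρ q bQ := by
    rw [lu_sum_eq_sum_range_pow (φ : Γ ⧸ J) (lu_mk_mem_zpowers J φ hφ)]
    apply Subtype.ext
    have hcard : Nat.card (Γ ⧸ J) = J.index := rfl
    rw [hcard]
    have hval : ∀ (s : Finset ℕ),
        (∑ i ∈ s, (C.quotientToInvariants J).ρ ((φ : Γ ⧸ J) ^ i) bQ).1
          = ∑ i ∈ s, C.ρ (φ ^ i) b := by
      intro s
      induction s using Finset.induction_on with
      | empty => rfl
      | insert a s ha ih =>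
        rw [Finset.sum_insert ha, Finset.sum_insert ha, ← ih]
        rfl
    rw [hval]
    exact hb
  have h1 : tt_coeffMap (lu_ev (C.quotientToInvariants J) uQ huQ) 2 = 0 :=
    lu_coeffMap_ev_norm (C.quotientToInvariants J) uQ huQ bQ hsum
  have h2 : lu_infZ J ≫ tt_coeffMap (lu_ev C u hu) 2 =
      tt_coeffMap (lu_ev (C.quotientToInvariants J) uQ huQ) 2 ≫ ir_inf₂ C J := by
    rw [← map_comp, ← map_comp]
    exact map_congr rfl rfl 2
  rw [h2, h1, Limits.zero_comp]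

end quotient

section main

variable {Γ : Type} [Group Γ] [Fintype Γ] {p : ℕ} [Fact p.Prime] {C : Rep.{0} ℤ Γ}
  (P : PClassModule p C) (J : Subgroup Γ) [J.Normal] (φ : Γ)
  (hφ : ∀ g : Γ, ∃ k : ℕ, g⁻¹ * φ ^ k ∈ J)
  (v : C.V →+ ℤ) (hv : ∀ g c, v (C.ρ g c) = v c)
  (hve : ∀ c, (∀ g, C.ρ g c = c) → (Nat.card J : ℤ) ∣ v c)
  (hnorm : ∀ u, (∀ g, C.ρ g u = u) → v u = 0 →
    ∃ b, (∀ j ∈ J, C.ρ j b = b) ∧ ∑ i ∈ range J.index, C.ρ (φ ^ i) b = u)

include hφ hnorm in
omit [Fact p.Prime] in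
/-- Units pair to zero with the classes inflated from `Γ ⧸ J`. -/
theorem lu_pair_infZ_unit (w : groupCohomology (Rep.trivial ℤ (Γ ⧸ J) ℤ) 2) (u : lu_inv C)
    (hu : v u.1 = 0) : lu_pair P ((lu_infZ J).hom w) u = 0 := by
  classical
  have : Fintype (Γ ⧸ J) := Fintype.ofFinite _
  obtain ⟨b, hbJ, hb⟩ := hnorm u.1 u.2 hu
  have h := lu_infZ_comp_ev J C φ hφ u.1 u.2 b hbJ hb.symm
  have h2 := congrArg (fun g => g.hom w) h
  rw [lu_pair_apply, P.pairing_apply]
  have h3 : (tt_coeffMap (lu_ev C u.1 u.2) 2).hom ((lu_infZ J).hom w) = 0 := by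
    simpa using h2
  rw [h3, map_zero]

omit [Fintype Γ] [Fact p.Prime] in
theorem lu_ordProj_smul {A : Type*} [AddCommGroup A] (hp : p.Prime) {a : ℕ} (ha : a ≠ 0) {t : A}
    (h1 : a • t = 0) (h2 : tt_IsPPrimary p t) : ordProj[p] a • t = 0 := by
  apply tn_eq_zero_of_pPrimary hp (tt_isPPrimary_nsmul _ h2) (ordCompl[p] a)
    (Nat.not_dvd_ordCompl hp ha)
  rw [smul_smul, mul_comm, Nat.ordProj_mul_ordCompl_eq_self]
  exact h1

omit [Fintype Γ] [Fact p.Prime] in
theorem lu_isPPrimary_zsmul {A : Type*} [AddCommGroup A] {a : A} (n : ℤ)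
    (ha : tt_IsPPrimary p a) : tt_IsPPrimary p (n • a) := by
  obtain ⟨k, hk⟩ := ha
  exact ⟨k, by rw [smul_comm, hk, smul_zero]⟩

omit [Fintype Γ] [Fact p.Prime] in
theorem lu_isPPrimary_sub {A : Type*} [AddCommGroup A] {a b : A}
    (ha : tt_IsPPrimary p a) (hb : tt_IsPPrimary p b) : tt_IsPPrimary p (a - b) := by
  rw [sub_eq_add_neg, ← neg_one_zsmul]
  exact tt_isPPrimary_add ha (lu_isPPrimary_zsmul _ hb)

include hφ hv hve hnorm in
/-- **(L-unr), strong form.** A `p`-primary class of `H²(Γ, ℤ)` orthogonal to the units is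
inflated from the unramified quotient `Γ ⧸ J`. -/
theorem lu_exists_infl (πL : C.V) (hπL : v πL = 1) (πK : lu_inv C) (hπK : v πK.1 = Nat.card J)
    (y : groupCohomology (Rep.trivial ℤ Γ ℤ) 2) (hy : tt_IsPPrimary p y)
    (h : ∀ u : lu_inv C, v u.1 = 0 → lu_pair P y u = 0) :
    ∃ w : groupCohomology (Rep.trivial ℤ (Γ ⧸ J) ℤ) 2, (lu_infZ J).hom w = y := by
  classical
  have hp : p.Prime := Fact.out
  have hgen := lu_mk_mem_zpowers J φ hφ
  obtain ⟨w, hw, hword⟩ := (zc_pclass (φ : Γ ⧸ J) hgen p).inv_gen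
  set N := ordProj[p] (Nat.card (Γ ⧸ J)) with hN
  have hNpos : 0 < N := Nat.ordProj_pos _ _
  have hcard : Nat.card (Γ ⧸ J) = J.index := rfl
  have hidx : J.index ≠ 0 := Subgroup.index_ne_zero_of_finite
  have hUw : ∀ (w' : groupCohomology (Rep.trivial ℤ (Γ ⧸ J) ℤ) 2) (u : lu_inv C), v u.1 = 0 →
      lu_pair P ((lu_infZ J).hom w') u = 0 :=
    fun w' u hu => lu_pair_infZ_unit P J φ hφ v hnorm w' u hu
  have hinj : Function.Injective (lu_infZ J).hom :=
    lc_inf₂_injective (lu_isInfl_Z J)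
      ⟨fun a b => by rw [zc_H1_eq_zero _ a, zc_H1_eq_zero _ b]⟩
  -- a class orthogonal to units and to `πK` vanishes
  have hzero : ∀ y' : groupCohomology (Rep.trivial ℤ Γ ℤ) 2, tt_IsPPrimary p y' →
      (∀ u : lu_inv C, v u.1 = 0 → lu_pair P y' u = 0) → lu_pair P y' πK = 0 → y' = 0 :=
    fun y' hy' hU hπ0 => lu_eq_zero_of_pair P y' hy'
      (lu_pair_eq_zero_of_unif P J v hve y' hU πK hπK hπ0)
  set t₁ := lu_pair P ((lu_infZ J).hom w) πK with ht₁
  -- claim A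
  have hA : ∀ m : ℤ, m • t₁ = 0 → m • w = 0 := by
    intro m hm
    apply hinj
    rw [map_zsmul, map_zero]
    have hmw : tt_IsPPrimary p (m • (lu_infZ J).hom w) := lu_isPPrimary_zsmul m
      (tt_isPPrimary_map (lu_infZ J).hom.toAddMonoidHom hw)
    apply hzero (m • (lu_infZ J).hom w) hmw
    · intro u hu
      rw [← map_zsmul]
      exact hUw _ u hu
    · rw [lu_pair_zsmul_class]
      exact hm
  -- claim B
  have hN1 : N • t₁ = 0 := by
    rw [hN, hcard]
    apply lu_ordProj_smul hp hidx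
    · exact lu_index_smul_pair_unif P J v hv _ (hUw w) πK hπK πL hπL
    · obtain ⟨k, hk⟩ := hw
      refine ⟨k, ?_⟩
      rw [ht₁, ← lu_pair_nsmul_class, ← map_nsmul, hk, map_zero]
      rw [lu_pair_apply, map_zero]
  have hB : addOrderOf t₁ = N := by
    apply Nat.dvd_antisymm (addOrderOf_dvd_of_nsmul_eq_zero hN1)
    have h1 := hA (addOrderOf t₁ : ℤ) (by rw [natCast_zsmul]; exact addOrderOf_nsmul_eq_zero t₁)
    rw [natCast_zsmul] at h1
    rw [← hword]
    apply addOrderOf_dvd_of_nsmul_eq_zero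
    rw [← map_nsmul, ← map_nsmul, h1, map_zero, map_zero]
  -- the given class
  have hNt : N • lu_pair P y πK = 0 := by
    rw [hN, hcard]
    apply lu_ordProj_smul hp hidx
    · exact lu_index_smul_pair_unif P J v hv y h πK hπK πL hπL
    · obtain ⟨k, hk⟩ := hy
      refine ⟨k, ?_⟩
      rw [← lu_pair_nsmul_class, hk, lu_pair_apply, map_zero]
  obtain ⟨n, hn⟩ := tn_QZ_zmultiple hNpos t₁ (lu_pair P y πK) hB hNt
  refine ⟨n • w, ?_⟩
  rw [map_zsmul]
  symm
  apply sub_eq_zero.1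
  have hy' : tt_IsPPrimary p (y - n • (lu_infZ J).hom w) :=
    lu_isPPrimary_sub hy (lu_isPPrimary_zsmul n
      (tt_isPPrimary_map (lu_infZ J).hom.toAddMonoidHom hw))
  apply hzero (y - n • (lu_infZ J).hom w) hy'
  · intro u hu
    rw [lu_pair_sub_class, lu_pair_zsmul_class, h u hu, hUw w u hu, smul_zero, sub_zero]
  · rw [lu_pair_sub_class, lu_pair_zsmul_class, hn, sub_self]

omit [Fintype Γ] [Fact p.Prime] in
theorem lu_res_congr {K K' : Subgroup Γ} (h : K = K') (A : Rep.{0} ℤ Γ)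
    (x : groupCohomology A 2) (hx : (tt_resMap K A 2).hom x = 0) :
    (tt_resMap K' A 2).hom x = 0 := by
  subst h
  exact hx

include hφ hv hve hnorm in
/-- **(L-unr).** A `p`-primary class of `H²(Γ, ℤ)` (= a `p`-primary character of `Γ`) which pairs
to zero with all units of the base is trivial on the inertia subgroup `J`.  Valid for ANY
`p`-class module structure `P` on the local module `C`. -/
theorem lu_unr (hv1 : ∃ c, v c = 1)
    (hunif : ∃ c, (∀ g, C.ρ g c = c) ∧ v c = Nat.card J)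
    (y : groupCohomology (Rep.trivial ℤ Γ ℤ) 2) (hy : tt_IsPPrimary p y)
    (h : ∀ (u : C.V) (hu : ∀ g, C.ρ g u = u), v u = 0 → P.pairing (lu_ev C u hu) y = 0) :
    (tt_resMap J (Rep.trivial ℤ Γ ℤ) 2).hom y = 0 := by
  obtain ⟨πL, hπL⟩ := hv1
  obtain ⟨c, hc, hvc⟩ := hunif
  obtain ⟨w, rfl⟩ := lu_exists_infl P J φ hφ v hv hve hnorm πL hπL ⟨c, hc⟩ hvc y hy
    (fun u hu => h u.1 u.2 hu)
  exact lu_res_congr (QuotientGroup.ker_mk' J) _ _ (lc_res_inf₂_apply (lu_isInfl_Z J) w)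

end main

end

end Fermat.Agent.S55
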