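/-
S55 / [L] (L-unr), part 2 (helper24): the statement of `LocalCF/Unr.lean` for a valued formation
`F : lc_Formation A` and its layers, and for the formation `lq_formation L` of a finite extension
`L/ℚ_q` (not necessarily Galois over `ℚ_q`).

* `lu_unr_top F P y hy h`: top layer, ANY `P : PClassModule p A`;
* `lu_unr_layer F ι hι P' y hy h`: a layer `ι : H ↪ G`, ANY `P' : PClassModule p (Res(ι) A)`
  (`P.restrict H`, a transported class module, ...); conclusion: `res` to `F.I.comap ι` vanishes;
* `lq_unr L D' P' y hy h`: `L/ℚ_q`, `D' ≤ Gal(L/ℚ_q)`, units = `‖·‖ = 1`, inertia of the layer =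
  `(lq_inertia L).subgroupOf D'`.
-/
import Fermat.Agent.S55.LocalCF.Unr
import Fermat.Agent.S55.LocalCF.LqFormation
import Fermat.Agent.S55.Tate.ClassModuleRestrict

set_option autoImplicit false

namespace Fermat.Agent.S55

open CategoryTheory groupCohomology Finset

noncomputable section

section formation

variable {G : Type} [Group G] [Finite G] {A : Rep.{0} ℤ G} (F : lc_Formation A)
  {p : ℕ} [Fact p.Prime]

omit [Finite G] in
/-- The valuation of a formation takes the value `1`. -/
theorem lu_formation_exists_v_one : ∃ a, F.v a = 1 := by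
  obtain ⟨a, -, ha⟩ := F.v_unif (⊥ : Subgroup G).subtype Subtype.val_injective
  refine ⟨a, ?_⟩
  rw [ha]
  have : Nat.card ↥(F.I.comap (⊥ : Subgroup G).subtype) = 1 :=
    Nat.card_eq_one_iff_unique.2 ⟨inferInstance, ⟨1⟩⟩
  rw [this]
  rfl

/-- **(L-unr) for a valued formation**, top layer: a `p`-primary class of `H²(G, ℤ)` which pairs
to zero (for ANY `p`-class module structure on `A`) with all units of the base is trivial on the
inertia subgroup. -/
theorem lu_unr_top (P : PClassModule p A)
    (y : groupCohomology (Rep.trivial ℤ G ℤ) 2) (hy : tt_IsPPrimary p y)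
    (h : ∀ (u : A.V) (hu : ∀ g, A.ρ g u = u), F.v u = 0 → P.pairing (lu_ev A u hu) y = 0) :
    (tt_resMap F.I (Rep.trivial ℤ G ℤ) 2).hom y = 0 := by
  classical
  have : Fintype G := Fintype.ofFinite G
  have hid : F.I.comap (MonoidHom.id G) = F.I := F.comap_id_I
  refine lu_unr P F.I F.frob F.frob_gen F.v F.v_inv ?_ ?_ (lu_formation_exists_v_one F) ?_ y hy h
  · intro c hc
    have := F.v_dvd (MonoidHom.id G) Function.injective_id c hc
    rwa [hid] at this
  · intro u hu hvu
    have := F.v_norm (MonoidHom.id G) Function.injective_id F.frob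
      (by rw [hid]; exact F.frob_gen) u hu hvu
    rw [hid] at this
    exact this
  · have := F.v_unif (MonoidHom.id G) Function.injective_id
    rwa [hid] at this

/-- **(L-unr) for a valued formation**, layer form: the same for a layer `ι : H ↪ G` and ANY
`p`-class module structure on `Res(ι) A` (for instance `P.restrict H` or a transported one). -/
theorem lu_unr_layer {H : Type} [Group H] (ι : H →* G) (hι : Function.Injective ι)
    (P' : PClassModule p (Rep.res ι A))
    (y : groupCohomology (Rep.trivial ℤ H ℤ) 2) (hy : tt_IsPPrimary p y)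
    (h : ∀ (u : A.V) (hu : ∀ g : H, A.ρ (ι g) u = u), F.v u = 0 →
      P'.pairing (lu_ev (Rep.res ι A) u hu) y = 0) :
    (tt_resMap (F.I.comap ι) (Rep.trivial ℤ H ℤ) 2).hom y = 0 := by
  have : Finite H := Finite.of_injective ι hι
  exact lu_unr_top (F.comap ι hι) P' y hy h

end formation

section lq

variable {q : ℕ} [Fact q.Prime] {p : ℕ} [Fact p.Prime]
  (L : LqField q) [FiniteDimensional ℚ_[q] L]

/-- **(L-unr) for a finite extension `L/ℚ_q`**: for a layer `D' ≤ Gal(L/ℚ_q)` and ANY `p`-class
module structure on the `D'`-module `Lˣ`, a `p`-primary class of `H²(D', ℤ)` orthogonal to the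
units of the fixed field of `D'` is trivial on the inertia subgroup of `D'`. -/
theorem lq_unr (D' : Subgroup (L ≃ₐ[ℚ_[q]] L))
    (P' : PClassModule p (tt_res D' (Rep.ofAlgebraAutOnUnits ℚ_[q] L)))
    (y : groupCohomology (Rep.trivial ℤ D' ℤ) 2) (hy : tt_IsPPrimary p y)
    (h : ∀ (u : (Rep.ofAlgebraAutOnUnits ℚ_[q] L).V)
      (hu : ∀ g : D', (Rep.ofAlgebraAutOnUnits ℚ_[q] L).ρ (g : L ≃ₐ[ℚ_[q]] L) u = u),
      ‖lq_elt L u‖ = 1 →
      P'.pairing (lu_ev (tt_res D' (Rep.ofAlgebraAutOnUnits ℚ_[q] L)) u hu) y = 0) :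
    (tt_resMap ((lq_inertia L).subgroupOf D') (Rep.trivial ℤ D' ℤ) 2).hom y = 0 := by
  refine lu_unr_layer (lq_formation L) D'.subtype Subtype.val_injective P' y hy
    (fun u hu hvu => h u hu ?_)
  rw [lq_formation_v, lq_ordZ_eq_zero_iff L (lq_elt_ne_zero L u)] at hvu
  exact hvu

end lq

end

end Fermat.Agent.S55
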