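/-
S55 / [L] (L-unr), part 3 (helper24): the CHARACTER form, in the language of helper12's
`Tate/Reciprocity.lean` (`rcp_pair P c χ = inv (c ∪ δχ)`).

* `lu_unr_char F ι hι P' χ hχ h j hj`: `F : lc_Formation A`, a layer `ι : H ↪ G`, ANY
  `P' : PClassModule p (Res(ι) A)`; a `p`-primary character `χ` of `H` with `rcp_pair P' c χ = 0`
  for all invariant `c` with `F.v c = 0` satisfies `χ j = 0` for `ι j ∈ F.I`;
* `lq_unr_char L D' P' χ hχ h j hj`: the same for `lq_formation L`, `D' ≤ Gal(L/ℚ_q)`,
  units = `‖·‖ = 1`.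
-/
import Fermat.Agent.S55.LocalCF.UnrLayer
import Fermat.Agent.S55.Tate.Reciprocity

set_option autoImplicit false

namespace Fermat.Agent.S55

open CategoryTheory groupCohomology Finset

noncomputable section

section formation

variable {G : Type} [Group G] [Finite G] {A : Rep.{0} ℤ G} (F : lc_Formation A)
  {p : ℕ} [Fact p.Prime]

/-- **(L-unr), character form, for a layer of a valued formation**: a `p`-primary character `χ` of
the layer `ι : H ↪ G` whose reciprocity pairing (for ANY `p`-class module structure `P'` on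
`Res(ι) A`) with all units of the base of the layer vanishes is trivial on the inertia subgroup
`F.I.comap ι` of the layer. -/
theorem lu_unr_char {H : Type} [Group H] (ι : H →* G) (hι : Function.Injective ι)
    (P' : PClassModule p (Rep.res ι A)) (χ : Additive H →+ tt_QZ) (hχ : tt_IsPPrimary p χ)
    (h : ∀ c : ↥(rcp_inv (Rep.res ι A)), F.v c.1 = 0 → rcp_pair P' c χ = 0)
    (j : H) (hj : ι j ∈ F.I) : χ (Additive.ofMul j) = 0 := by
  classical
  have : Finite H := Finite.of_injective ι hι
  have : Fintype H := Fintype.ofFinite H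
  have hres := lu_unr_layer F ι hι P' (rcp_delta χ) ((rcp_pPrimary_delta_iff χ).2 hχ)
    (fun u hu hvu => h ⟨u, hu⟩ hvu)
  exact (rcp_resMap_delta_eq_zero_iff (F.I.comap ι) χ).1 hres j hj

end formation

section lq

variable {q : ℕ} [Fact q.Prime] {p : ℕ} [Fact p.Prime]
  (L : LqField q) [FiniteDimensional ℚ_[q] L]

/-- **(L-unr), character form, for a finite extension `L/ℚ_q`** and a layer `D' ≤ Gal(L/ℚ_q)`:
a `p`-primary character of `D'` orthogonal to the units of the fixed field of `D'` (for ANY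
`p`-class module structure on the `D'`-module `Lˣ`, e.g. `P.restrict D'`) is trivial on
`lq_inertia L ⊓ D'`. -/
theorem lq_unr_char (D' : Subgroup (L ≃ₐ[ℚ_[q]] L))
    (P' : PClassModule p (tt_res D' (Rep.ofAlgebraAutOnUnits ℚ_[q] L)))
    (χ : Additive ↥D' →+ tt_QZ) (hχ : tt_IsPPrimary p χ)
    (h : ∀ c : ↥(rcp_inv (tt_res D' (Rep.ofAlgebraAutOnUnits ℚ_[q] L))),
      ‖lq_elt L c.1‖ = 1 → rcp_pair P' c χ = 0)
    (j : ↥D') (hj : (j : L ≃ₐ[ℚ_[q]] L) ∈ lq_inertia L) : χ (Additive.ofMul j) = 0 := by
  refine lu_unr_char (lq_formation L) D'.subtype Subtype.val_injective P' χ hχ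
    (fun c hvc => h c ?_) j hj
  rw [lq_formation_v, lq_ordZ_eq_zero_iff L (lq_elt_ne_zero L c.1)] at hvc
  exact hvc

end lq

end

end Fermat.Agent.S55
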