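import Mathlib
import Fermat.Agent.S55.LocalCF.Formation
import Fermat.Agent.S55.Devissage.Transport

/-!
# S55 / local class formation: a valued formation from subgroup data

`lc_Formation` (LocalCF/Formation.lean) quantifies its axioms over all *injective homomorphisms*
`ι : H →* G` (so that the restriction of a formation to a layer is again a formation).  In the
applications (`G = Gal(L/ℚ_q)`) the data are known for all *subgroups* `S ≤ G`.  This file
provides the constructor `lc_Formation.ofSubgroups` passing from the subgroup form to the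
injective-hom form (take `S := ι.range`), together with the pure group theory it needs.

Owner: helper28 (leaf L1-a of helper14's #847).  Prefix `lc_`.
-/

set_option autoImplicit false

namespace Fermat.Agent.S55

open groupCohomology CategoryTheory Rep

section grp

variable {G H : Type*} [Group G] [Group H]

/-- For injective `ι`, the subgroup `ι⁻¹(I)` has as many elements as `I ⊓ ι(H)`. -/
theorem lc_card_comap_of_injective (I : Subgroup G) (ι : H →* G) (hι : Function.Injective ι) :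
    Nat.card ↥(I.comap ι) = Nat.card ↥(I ⊓ ι.range) := by
  rw [inf_comm, ← Subgroup.map_comap_eq]
  exact Nat.card_congr ((I.comap ι).equivMapOfInjective ι hι).toEquiv

/-- `[H : ι⁻¹(I)] = [ι(H) : I ⊓ ι(H)]`. -/
theorem lc_index_comap_range (I : Subgroup G) (ι : H →* G) :
    (I.comap ι).index = I.relIndex ι.range :=
  Subgroup.index_comap I ι

/-- A generator of `H` modulo `ι⁻¹(I)` maps to a generator of `ι(H)` modulo `I`. -/
theorem lc_genMod_comap_range {I : Subgroup G} {ι : H →* G} {φ : H}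
    (hφ : lc_GenMod (I.comap ι) φ) :
    ∀ s ∈ ι.range, ∃ k : ℕ, s⁻¹ * ι φ ^ k ∈ I := by
  rintro s ⟨h, rfl⟩
  obtain ⟨k, hk⟩ := hφ h
  refine ⟨k, ?_⟩
  have : ι (h⁻¹ * φ ^ k) ∈ I := hk
  simpa [map_mul, map_inv, map_pow] using this

end grp

section h90

variable {k G H : Type} [CommRing k] [Group G] [Group H]

/-- Hilbert 90 for the subgroup `ι(H)` gives Hilbert 90 for the layer `ι : H ↪ G`. -/
theorem lc_subsingleton_res_of_range (A : Rep k G) (ι : H →* G) (hι : Function.Injective ι)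
    (n : ℕ) (h : Subsingleton (groupCohomology (Rep.res ι.range.subtype A) n)) :
    Subsingleton (groupCohomology (Rep.res ι A) n) :=
  (dv_subsingleton_iff (MonoidHom.ofInjective hι) (Rep.res ι.range.subtype A) n).2 h

end h90

variable {k G : Type} [CommRing k] [Group G]

/-- **A valued formation from subgroup data.**  The axioms of `lc_Formation` for all injective
homomorphisms `ι : H →* G` follow from the corresponding statements for all subgroups `S ≤ G`
(applied to `S := ι.range`). -/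
def lc_Formation.ofSubgroups [Finite G] (A : Rep k G) (I : Subgroup G) [I.Normal] (frob : G)
    (hgen : lc_GenMod I frob) (v : A.V →+ ℤ) (hv : ∀ (g : G) (a : A.V), v (A.ρ g a) = v a)
    (hdvd : ∀ (S : Subgroup G) (a : A.V), (∀ s ∈ S, A.ρ s a = a) →
      ((Nat.card ↥(I ⊓ S) : ℕ) : ℤ) ∣ v a)
    (hunif : ∀ S : Subgroup G, ∃ a : A.V, (∀ s ∈ S, A.ρ s a = a) ∧
      v a = ((Nat.card ↥(I ⊓ S) : ℕ) : ℤ))
    (hnorm : ∀ (S : Subgroup G) (φ : G), φ ∈ S → (∀ s ∈ S, ∃ k : ℕ, s⁻¹ * φ ^ k ∈ I) →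
      ∀ a : A.V, (∀ s ∈ S, A.ρ s a = a) → v a = 0 →
      ∃ b : A.V, (∀ s ∈ I ⊓ S, A.ρ s b = b) ∧
        ∑ i ∈ Finset.range (I.relIndex S), A.ρ (φ ^ i) b = a)
    (h90 : ∀ S : Subgroup G, Subsingleton (groupCohomology (Rep.res S.subtype A) 1)) :
    lc_Formation A where
  I := I
  I_normal := inferInstance
  frob := frob
  frob_gen := hgen
  v := v
  v_inv := hv
  v_dvd := by
    intro H _ ι hι a ha
    rw [lc_card_comap_of_injective I ι hι]
    refine hdvd ι.range a ?_
    rintro s ⟨h, rfl⟩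
    exact ha h
  v_unif := by
    intro H _ ι hι
    obtain ⟨a, ha, hva⟩ := hunif ι.range
    refine ⟨a, fun h => ha (ι h) ⟨h, rfl⟩, ?_⟩
    rw [lc_card_comap_of_injective I ι hι]
    exact hva
  v_norm := by
    intro H _ ι hι φ hφ a ha hva
    obtain ⟨b, hb, hsum⟩ := hnorm ι.range (ι φ) ⟨φ, rfl⟩ (lc_genMod_comap_range hφ) a
      (by rintro s ⟨h, rfl⟩; exact ha h) hva
    refine ⟨b, fun h hh => hb (ι h) ⟨hh, ⟨h, rfl⟩⟩, ?_⟩
    rw [lc_index_comap_range]
    simpa only [map_pow] using hsum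
  h90 := by
    intro H _ ι hι
    exact lc_subsingleton_res_of_range A ι hι 1 (h90 ι.range)

section lemmas

variable [Finite G] (A : Rep k G) (I : Subgroup G) [I.Normal] (frob : G)
    (hgen : lc_GenMod I frob) (v : A.V →+ ℤ) (hv : ∀ (g : G) (a : A.V), v (A.ρ g a) = v a)
    (hdvd : ∀ (S : Subgroup G) (a : A.V), (∀ s ∈ S, A.ρ s a = a) →
      ((Nat.card ↥(I ⊓ S) : ℕ) : ℤ) ∣ v a)
    (hunif : ∀ S : Subgroup G, ∃ a : A.V, (∀ s ∈ S, A.ρ s a = a) ∧
      v a = ((Nat.card ↥(I ⊓ S) : ℕ) : ℤ))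
    (hnorm : ∀ (S : Subgroup G) (φ : G), φ ∈ S → (∀ s ∈ S, ∃ k : ℕ, s⁻¹ * φ ^ k ∈ I) →
      ∀ a : A.V, (∀ s ∈ S, A.ρ s a = a) → v a = 0 →
      ∃ b : A.V, (∀ s ∈ I ⊓ S, A.ρ s b = b) ∧
        ∑ i ∈ Finset.range (I.relIndex S), A.ρ (φ ^ i) b = a)
    (h90 : ∀ S : Subgroup G, Subsingleton (groupCohomology (Rep.res S.subtype A) 1))

@[simp] theorem lc_Formation.ofSubgroups_I :
    (lc_Formation.ofSubgroups A I frob hgen v hv hdvd hunif hnorm h90).I = I := rfl

@[simp] theorem lc_Formation.ofSubgroups_frob :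
    (lc_Formation.ofSubgroups A I frob hgen v hv hdvd hunif hnorm h90).frob = frob := rfl

@[simp] theorem lc_Formation.ofSubgroups_v :
    (lc_Formation.ofSubgroups A I frob hgen v hv hdvd hunif hnorm h90).v = v := rfl

end lemmas

end Fermat.Agent.S55
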